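import Mathlib
import Fermat.Prelude.Thm_CongruenceSubgroup_one_mem_strictPeriods_Gamma0

/-!
# Unbundled modular forms of level `Γ` and their q-expansions as Laurent series

`IsFormFn Γ k f` says that `f : ℍ → ℂ` is a holomorphic modular form of weight `k` on
`Γ ≤ SL(2, ℤ)`. Working unbundled makes products across weights painless.
-/

noncomputable section

open UpperHalfPlane CongruenceSubgroup Filter Function
open scoped MatrixGroups ModularForm Manifold Topology

namespace Fermat.Agent.MF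

/-- `f` is a holomorphic modular form of weight `k` on the subgroup `Γ` of `SL(2, ℤ)`. -/
structure IsFormFn (Γ : Subgroup SL(2, ℤ)) (k : ℤ) (f : ℍ → ℂ) : Prop where
  slash_eq : ∀ γ ∈ Γ, f ∣[k] γ = f
  mdiff : MDiff f
  bdd : ∀ γ : SL(2, ℤ), IsBoundedAtImInfty (f ∣[k] γ)

namespace IsFormFn

variable {Γ Γ' : Subgroup SL(2, ℤ)} {k k' : ℤ} {f g : ℍ → ℂ}

theorem mono (hf : IsFormFn Γ k f) (h : Γ' ≤ Γ) : IsFormFn Γ' k f :=
  ⟨fun γ hγ => hf.slash_eq γ (h hγ), hf.mdiff, hf.bdd⟩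

theorem cast (hf : IsFormFn Γ k f) (h : k = k') : IsFormFn Γ k' f := h ▸ hf

theorem zero : IsFormFn Γ k (0 : ℍ → ℂ) where
  slash_eq γ _ := SlashAction.zero_slash k γ
  mdiff := mdifferentiable_const
  bdd γ := by
    rw [SlashAction.zero_slash]
    exact Filter.zero_zeroAtFilter _ |>.boundedAtFilter

theorem const (c : ℂ) : IsFormFn Γ 0 (fun _ => c) where
  slash_eq γ _ := ModularForm.is_invariant_const γ c
  mdiff := mdifferentiable_const
  bdd γ := by
    rw [show (fun _ : ℍ => c) ∣[(0 : ℤ)] γ = fun _ => c from ModularForm.is_invariant_const γ c]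
    exact Filter.const_boundedAtFilter _ c

theorem one : IsFormFn Γ 0 (1 : ℍ → ℂ) := const 1

theorem add (hf : IsFormFn Γ k f) (hg : IsFormFn Γ k g) : IsFormFn Γ k (f + g) where
  slash_eq γ hγ := by rw [SlashAction.add_slash, hf.slash_eq γ hγ, hg.slash_eq γ hγ]
  mdiff := hf.mdiff.add hg.mdiff
  bdd γ := by
    rw [SlashAction.add_slash]
    exact (hf.bdd γ).add (hg.bdd γ)

theorem smul (hf : IsFormFn Γ k f) (c : ℂ) : IsFormFn Γ k (c • f) where
  slash_eq γ hγ := by rw [ModularForm.SL_smul_slash, hf.slash_eq γ hγ]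
  mdiff := hf.mdiff.const_smul c
  bdd γ := by
    rw [ModularForm.SL_smul_slash]
    exact (hf.bdd γ).smul c

theorem neg (hf : IsFormFn Γ k f) : IsFormFn Γ k (-f) := by
  simpa using hf.smul (-1)

theorem sub (hf : IsFormFn Γ k f) (hg : IsFormFn Γ k g) : IsFormFn Γ k (f - g) := by
  simpa [sub_eq_add_neg] using hf.add hg.neg

theorem sum {ι : Type*} (s : Finset ι) {F : ι → ℍ → ℂ} (hF : ∀ i ∈ s, IsFormFn Γ k (F i)) :
    IsFormFn Γ k (∑ i ∈ s, F i) :=
  Finset.sum_induction F (IsFormFn Γ k) (fun _ _ => add) zero hF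

theorem mul (hf : IsFormFn Γ k f) (hg : IsFormFn Γ k' g) : IsFormFn Γ (k + k') (f * g) where
  slash_eq γ hγ := by rw [ModularForm.mul_slash_SL2, hf.slash_eq γ hγ, hg.slash_eq γ hγ]
  mdiff := hf.mdiff.mul hg.mdiff
  bdd γ := by
    rw [ModularForm.mul_slash_SL2]
    exact (hf.bdd γ).mul (hg.bdd γ)

theorem pow (hf : IsFormFn Γ k f) (n : ℕ) : IsFormFn Γ (n * k) (f ^ n) := by
  induction n with
  | zero => simpa using (one : IsFormFn Γ 0 (1 : ℍ → ℂ))
  | succ n ih =>
    rw [pow_succ]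
    exact (ih.mul hf).cast (by push_cast; ring)

theorem prod {ι : Type*} (s : Finset ι) {F : ι → ℍ → ℂ} {w : ι → ℤ}
    (hF : ∀ i ∈ s, IsFormFn Γ (w i) (F i)) : IsFormFn Γ (∑ i ∈ s, w i) (∏ i ∈ s, F i) := by
  induction s using Finset.cons_induction with
  | empty => simpa using (one : IsFormFn Γ 0 (1 : ℍ → ℂ))
  | cons a t ha ih =>
    rw [Finset.sum_cons, Finset.prod_cons]
    exact (hF a (by simp)).mul (ih fun i hi => hF i (by simp [hi]))

end IsFormFn

section Bundled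

variable {Γ : Subgroup SL(2, ℤ)} [Γ.FiniteIndex] {k : ℤ} {f : ℍ → ℂ}

/-- A bundled modular form from an unbundled one. -/
def IsFormFn.toModularForm (hf : IsFormFn Γ k f) : ModularForm Γ k where
  toFun := f
  slash_action_eq' := by
    rintro _ ⟨γ, hγ, rfl⟩
    exact hf.slash_eq γ hγ
  holo' := hf.mdiff
  bdd_at_cusps' {c} hc := by
    rw [Subgroup.IsArithmetic.isCusp_iff_isCusp_SL2Z] at hc
    rw [OnePoint.isBoundedAt_iff_forall_SL2Z hc]
    exact fun γ _ => hf.bdd γ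

@[simp] theorem IsFormFn.coe_toModularForm (hf : IsFormFn Γ k f) : ⇑hf.toModularForm = f := rfl

theorem isFormFn_coe {F : Type*} [FunLike F ℍ ℂ]
    [ModularFormClass F (Γ : Subgroup (GL (Fin 2) ℝ)) k] (φ : F) : IsFormFn Γ k φ where
  slash_eq γ hγ := SlashInvariantFormClass.slash_action_eq φ _ ⟨γ, hγ, rfl⟩
  mdiff := ModularFormClass.holo φ
  bdd γ := by
    have hc : IsCusp ((γ : GL (Fin 2) ℝ) • OnePoint.infty) (Γ : Subgroup (GL (Fin 2) ℝ)) := by
      rw [Subgroup.IsArithmetic.isCusp_iff_isCusp_SL2Z, isCusp_SL2Z_iff']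
      exact ⟨γ, rfl⟩
    exact (OnePoint.isBoundedAt_iff rfl).mp (ModularFormClass.bdd_at_cusps φ hc)

end Bundled

/-- Level one modular forms (for the range `𝒮ℒ`) give `IsFormFn ⊤`. -/
theorem isFormFn_top {F : Type*} [FunLike F ℍ ℂ] {k : ℤ} [ModularFormClass F 𝒮ℒ k] (φ : F) :
    IsFormFn ⊤ k φ where
  slash_eq γ _ := SlashInvariantFormClass.slash_action_eq φ _ ⟨γ, rfl⟩
  mdiff := ModularFormClass.holo φ
  bdd γ := by
    have hc : IsCusp ((γ : GL (Fin 2) ℝ) • OnePoint.infty) 𝒮ℒ := isCusp_SL2Z_iff'.mpr ⟨γ, rfl⟩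
    exact (OnePoint.isBoundedAt_iff rfl).mp (ModularFormClass.bdd_at_cusps φ hc)

/-- The bundled level one form of an unbundled one. -/
def IsFormFn.toLevelOne {k : ℤ} {f : ℍ → ℂ} (hf : IsFormFn ⊤ k f) : ModularForm 𝒮ℒ k where
  toFun := f
  slash_action_eq' := by
    rintro _ ⟨γ, rfl⟩
    exact hf.slash_eq γ trivial
  holo' := hf.mdiff
  bdd_at_cusps' {c} hc := by
    rw [OnePoint.isBoundedAt_iff_forall_SL2Z hc]
    exact fun γ _ => hf.bdd γ

@[simp] theorem IsFormFn.coe_toLevelOne {k : ℤ} {f : ℍ → ℂ} (hf : IsFormFn ⊤ k f) :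
    ⇑hf.toLevelOne = f := rfl

section QExp

/-- Invariance under translation by one, holomorphy and boundedness at `i∞`: what makes the
`q`-expansion at width one work. Ring operations preserve it. -/
structure IsQFn (f : ℍ → ℂ) : Prop where
  periodic : Periodic (f ∘ ofComplex) ((1 : ℝ) : ℂ)
  mdiff : MDiff f
  bdd : IsBoundedAtImInfty f

namespace IsQFn

variable {f g : ℍ → ℂ}

theorem analyticAt (hf : IsQFn f) : AnalyticAt ℂ (cuspFunction 1 f) 0 :=
  analyticAt_cuspFunction_zero one_pos hf.periodic hf.mdiff hf.bdd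

theorem const (c : ℂ) : IsQFn (fun _ => c) :=
  ⟨fun _ => rfl, mdifferentiable_const, Filter.const_boundedAtFilter _ c⟩

theorem add (hf : IsQFn f) (hg : IsQFn g) : IsQFn (f + g) :=
  ⟨fun z => congrArg₂ (· + ·) (hf.periodic z) (hg.periodic z), hf.mdiff.add hg.mdiff,
    hf.bdd.add hg.bdd⟩

theorem mul (hf : IsQFn f) (hg : IsQFn g) : IsQFn (f * g) :=
  ⟨fun z => congrArg₂ (· * ·) (hf.periodic z) (hg.periodic z), hf.mdiff.mul hg.mdiff,
    hf.bdd.mul hg.bdd⟩

theorem smul (hf : IsQFn f) (c : ℂ) : IsQFn (c • f) :=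
  ⟨fun z => congrArg (c • ·) (hf.periodic z), hf.mdiff.const_smul c, hf.bdd.smul c⟩

theorem pow (hf : IsQFn f) (n : ℕ) : IsQFn (f ^ n) := by
  induction n with
  | zero => exact const 1
  | succ n ih => rw [pow_succ]; exact ih.mul hf

theorem sum {ι : Type*} (s : Finset ι) {F : ι → ℍ → ℂ} (hF : ∀ i ∈ s, IsQFn (F i)) :
    IsQFn (∑ i ∈ s, F i) :=
  Finset.sum_induction F IsQFn (fun _ _ => add) (const 0) hF

theorem prod {ι : Type*} (s : Finset ι) {F : ι → ℍ → ℂ} (hF : ∀ i ∈ s, IsQFn (F i)) :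
    IsQFn (∏ i ∈ s, F i) :=
  Finset.prod_induction F IsQFn (fun _ _ => mul) (const 1) hF

end IsQFn

/-- A function on `ℍ` invariant under the translation by `h` is `h`-periodic on `ℂ`. -/
theorem periodic_comp_ofComplex {g : ℍ → ℂ} {h : ℝ} (hstep : ∀ τ : ℍ, g (h +ᵥ τ) = g τ) :
    Periodic (g ∘ ofComplex) (h : ℂ) := by
  intro w
  by_cases hw : 0 < w.im
  · have hw' : 0 < (w + (h : ℂ)).im := by simpa using hw
    simp only [comp_apply, ofComplex_apply_of_im_pos hw, ofComplex_apply_of_im_pos hw']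
    refine (congrArg g ?_).trans (hstep ⟨w, hw⟩)
    exact UpperHalfPlane.ext (by simp [add_comm])
  · have hw' : (w + (h : ℂ)).im ≤ 0 := by simpa using hw
    simp only [comp_apply, ofComplex_apply_of_im_nonpos hw',
      ofComplex_apply_of_im_nonpos (not_lt.mp hw)]

theorem IsFormFn.isQFn {Γ : Subgroup SL(2, ℤ)} {k : ℤ} {f : ℍ → ℂ} (hf : IsFormFn Γ k f)
    (hT : ModularGroup.T ∈ Γ) : IsQFn f where
  periodic := periodic_comp_ofComplex fun τ => by
    have h := congrFun (hf.slash_eq _ hT) τ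
    rw [ModularForm.SL_slash_apply, modular_T_smul] at h
    have hd : denom (ModularGroup.T : GL (Fin 2) ℝ) (τ : ℂ) = 1 := by
      simp [denom, ModularGroup.coe_T]
    rwa [hd, one_zpow, mul_one] at h
  mdiff := hf.mdiff
  bdd := by simpa using hf.bdd 1

theorem T_mem_Gamma0 (N : ℕ) : ModularGroup.T ∈ Gamma0 N := by
  rw [Gamma0_mem]
  simp [ModularGroup.coe_T]

theorem IsFormFn.isQFn0 {N : ℕ} {k : ℤ} {f : ℍ → ℂ} (hf : IsFormFn (Gamma0 N) k f) : IsQFn f :=
  hf.isQFn (T_mem_Gamma0 N)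

/-- The `q`-expansion at `i∞` (width one) as a Laurent series. -/
def lq (f : ℍ → ℂ) : LaurentSeries ℂ := HahnSeries.ofPowerSeries ℤ ℂ (qExpansion 1 f)

@[simp] theorem lq_zero : lq 0 = 0 := by simp [lq, qExpansion_zero]

@[simp] theorem lq_one : lq 1 = 1 := by simp [lq, qExpansion_one]

variable {f g : ℍ → ℂ}

theorem lq_coeff_nat (f : ℍ → ℂ) (n : ℕ) : (lq f).coeff n = (qExpansion 1 f).coeff n :=
  HahnSeries.ofPowerSeries_apply_coeff _ _

theorem lq_mul (hf : IsQFn f) (hg : IsQFn g) : lq (f * g) = lq f * lq g := by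
  simp [lq, qExpansion_mul hf.analyticAt hg.analyticAt]

theorem lq_add (hf : IsQFn f) (hg : IsQFn g) : lq (f + g) = lq f + lq g := by
  simp [lq, qExpansion_add hf.analyticAt hg.analyticAt]

theorem lq_smul (hf : IsQFn f) (c : ℂ) : lq (c • f) = HahnSeries.C c * lq f := by
  rw [lq, lq, qExpansion_smul hf.analyticAt, PowerSeries.smul_eq_C_mul, map_mul,
    HahnSeries.ofPowerSeries_C]

theorem lq_const (c : ℂ) : lq (fun _ => c) = HahnSeries.C c := by
  have h : (fun _ : ℍ => c) = c • (1 : ℍ → ℂ) := by ext; simp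
  rw [h, lq_smul (f := (1 : ℍ → ℂ)) (IsQFn.const 1), lq_one, mul_one]

theorem lq_pow (hf : IsQFn f) (n : ℕ) : lq (f ^ n) = lq f ^ n := by
  induction n with
  | zero => simp
  | succ n ih => rw [pow_succ, pow_succ, lq_mul (hf.pow n) hf, ih]

theorem lq_sum {ι : Type*} (s : Finset ι) {F : ι → ℍ → ℂ} (hF : ∀ i ∈ s, IsQFn (F i)) :
    lq (∑ i ∈ s, F i) = ∑ i ∈ s, lq (F i) := by
  induction s using Finset.cons_induction with
  | empty => simp
  | cons a t ha ih =>
    rw [Finset.sum_cons, Finset.sum_cons, lq_add (hF a (by simp))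
      (IsQFn.sum t fun i hi => hF i (by simp [hi])), ih fun i hi => hF i (by simp [hi])]

theorem lq_prod {ι : Type*} (s : Finset ι) {F : ι → ℍ → ℂ} (hF : ∀ i ∈ s, IsQFn (F i)) :
    lq (∏ i ∈ s, F i) = ∏ i ∈ s, lq (F i) := by
  induction s using Finset.cons_induction with
  | empty => simp
  | cons a t ha ih =>
    rw [Finset.prod_cons, Finset.prod_cons, lq_mul (hF a (by simp))
      (IsQFn.prod t fun i hi => hF i (by simp [hi])), ih fun i hi => hF i (by simp [hi])]

theorem lq_eq_zero_iff (hf : IsQFn f) : lq f = 0 ↔ f = 0 := by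
  rw [lq, map_eq_zero_iff _ HahnSeries.ofPowerSeries_injective]
  exact qExpansion_eq_zero_iff one_pos hf.periodic hf.mdiff hf.bdd

theorem lq_inj (hf : IsQFn f) (hg : IsQFn g) : lq f = lq g ↔ f = g := by
  refine ⟨fun h => ?_, fun h => h ▸ rfl⟩
  have hd : IsQFn (f + (-1 : ℂ) • g) := hf.add (hg.smul _)
  have h0 : lq (f + (-1 : ℂ) • g) = 0 := by
    rw [lq_add hf (hg.smul _), lq_smul hg, h, map_neg, map_one]
    ring
  have := (lq_eq_zero_iff hd).mp h0
  ext τ
  have := congrFun this τ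
  simpa [sub_eq_zero, ← sub_eq_add_neg] using this

theorem IsQFn.sub {f g : ℍ → ℂ} (hf : IsQFn f) (hg : IsQFn g) : IsQFn (f - g) := by
  simpa [sub_eq_add_neg] using hf.add (hg.smul (-1))

theorem lq_sub {f g : ℍ → ℂ} (hf : IsQFn f) (hg : IsQFn g) : lq (f - g) = lq f - lq g := by
  simp [lq, qExpansion_sub hf.analyticAt hg.analyticAt]

/-- Nonzero holomorphic functions on `ℍ` may be cancelled. -/
theorem mdiff_mul_left_cancel {a b c : ℍ → ℂ} (ha : MDiff a) (hb : MDiff b) (hc : MDiff c)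
    (hne : a ≠ 0) (h : a * b = a * c) : b = c :=
  sub_eq_zero.mp <| (((mul_eq_zero_iff ha (hb.sub hc))).mp
    (by rw [mul_sub, h, sub_self])).resolve_left hne

end QExp

end Fermat.Agent.MF
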