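import Mathlib
import Fermat.Prelude.Def_ModularCurve_X0

/-!
# The Taylor series of the infinite product `∏ (1 - q^(n+1))`

It is the Prelude's formal product `etaProd`, which links the analytic `Δ` with the formal `j`.
-/

noncomputable section

open Filter Topology
open scoped PowerSeries.WithPiTopology Nat

namespace Fermat.Agent.MF

/-- The Taylor series at `0`. -/
def taylorPS (g : ℂ → ℂ) : PowerSeries ℂ := .mk fun m ↦ ((m ! : ℕ) : ℂ)⁻¹ * iteratedDeriv m g 0

theorem taylorPS_congr {f g : ℂ → ℂ} (h : f =ᶠ[𝓝 0] g) : taylorPS f = taylorPS g := by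
  ext m; simp [taylorPS, h.iteratedDeriv_eq m]

theorem taylorPS_mul {f g : ℂ → ℂ} (hf : AnalyticAt ℂ f 0) (hg : AnalyticAt ℂ g 0) :
    taylorPS (f * g) = taylorPS f * taylorPS g := by
  ext
  simp only [taylorPS, PowerSeries.coeff_mk,
    iteratedDeriv_mul hf.contDiffAt hg.contDiffAt, Finset.mul_sum, PowerSeries.coeff_mul,
    Finset.Nat.sum_antidiagonal_eq_sum_range_succ_mk, Nat.succ_eq_add_one]
  refine Finset.sum_congr rfl fun i hi ↦ ?_
  rw [Nat.cast_choose _ (by grind)]
  field_simp [Nat.factorial_ne_zero]

theorem iteratedDeriv_polynomial (P : Polynomial ℂ) (n : ℕ) :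
    iteratedDeriv n (fun x => P.eval x) = fun x => ((Polynomial.derivative)^[n] P).eval x := by
  induction n with
  | zero => simp
  | succ n ih =>
    ext x
    rw [iteratedDeriv_succ, ih, Function.iterate_succ_apply']
    simp

theorem taylorPS_polynomial (P : Polynomial ℂ) :
    taylorPS (fun x => P.eval x) = (P : PowerSeries ℂ) := by
  ext n
  simp only [taylorPS, PowerSeries.coeff_mk, iteratedDeriv_polynomial, Polynomial.coeff_coe]
  rw [← Polynomial.coeff_zero_eq_eval_zero, Polynomial.coeff_iterate_derivative]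
  simp [Nat.descFactorial_self, Nat.factorial_ne_zero]

theorem taylorPS_id : taylorPS (fun x => x) = PowerSeries.X := by
  simpa using taylorPS_polynomial Polynomial.X

theorem taylorPS_one : taylorPS 1 = 1 := by
  have := taylorPS_polynomial 1
  simpa [Pi.one_def] using this

theorem taylorPS_pow {f : ℂ → ℂ} (hf : AnalyticAt ℂ f 0) (n : ℕ) :
    taylorPS (f ^ n) = taylorPS f ^ n := by
  induction n with
  | zero => simpa using taylorPS_one
  | succ n ih => rw [pow_succ, pow_succ, taylorPS_mul (hf.pow n) hf, ih]

private def partialProd (s : Finset ℕ) : Polynomial ℤ := ∏ i ∈ s, (1 - Polynomial.X ^ (i + 1))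

private theorem coe_partialProd (s : Finset ℕ) :
    (partialProd s : PowerSeries ℤ) = ∏ i ∈ s, (1 - PowerSeries.X ^ (i + 1)) := by
  rw [← Polynomial.coeToPowerSeries.ringHom_apply, partialProd, map_prod]
  simp

/-- The Taylor series of `q ↦ ∏' (1 - q^(n+1))` is the prelude's `etaProd`. -/
theorem taylorPS_tprod_one_sub_pow :
    taylorPS (fun q : ℂ => ∏' n : ℕ, (1 - q ^ (n + 1))) =
      ModularCurve.etaProd.map (Int.castRingHom ℂ) := by
  set H : ℂ → ℂ := fun q => ∏' n : ℕ, (1 - q ^ (n + 1))
  set F : Finset ℕ → ℂ → ℂ := fun s q =>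
    ((partialProd s).map (Int.castRingHom ℂ)).eval q with hF
  have hlim : TendstoLocallyUniformlyOn F H atTop (Metric.ball 0 1) := by
    have := ModularForm.multipliableLocallyUniformlyOn_one_sub_pow.hasProdLocallyUniformlyOn
    rw [hasProdLocallyUniformlyOn_iff_tendstoLocallyUniformlyOn] at this
    refine (this.congr fun s q _ => ?_)
    simp [hF, partialProd, Polynomial.map_prod, Polynomial.eval_prod]
  have hderiv : ∀ n, TendstoLocallyUniformlyOn (fun s => iteratedDeriv n (F s))
      (iteratedDeriv n H) atTop (Metric.ball 0 1) := by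
    intro n
    induction n with
    | zero => simpa using hlim
    | succ n ih =>
      simp only [iteratedDeriv_succ]
      refine ih.deriv (.of_forall fun s => ?_) Metric.isOpen_ball
      rw [hF, iteratedDeriv_polynomial]
      exact (Polynomial.differentiable _).differentiableOn
  ext n
  have h1 : Tendsto (fun s : Finset ℕ => iteratedDeriv n (F s) 0) atTop
      (𝓝 (iteratedDeriv n H 0)) := (hderiv n).tendsto_at (by simp)
  have h2 : Tendsto (fun s : Finset ℕ => ((n ! : ℕ) : ℂ)⁻¹ * iteratedDeriv n (F s) 0) atTop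
      (𝓝 ((taylorPS H).coeff n)) := by
    simpa [taylorPS] using h1.const_mul _
  have h3 : ∀ s, ((n ! : ℕ) : ℂ)⁻¹ * iteratedDeriv n (F s) 0 = ((partialProd s).coeff n : ℂ) := by
    intro s
    have h := congrArg (fun p => PowerSeries.coeff n p)
      (taylorPS_polynomial ((partialProd s).map (Int.castRingHom ℂ)))
    simpa [taylorPS, hF] using h
  simp only [h3] at h2
  have h4 : Tendsto (fun s : Finset ℕ => (partialProd s).coeff n) atTop
      (𝓝 (PowerSeries.coeff n ModularCurve.etaProd)) := by
    have hprod : Tendsto (fun s : Finset ℕ => (partialProd s : PowerSeries ℤ)) atTop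
        (𝓝 ModularCurve.etaProd) := by
      simp only [coe_partialProd]
      exact (PowerSeries.WithPiTopology.multipliable_one_sub_X_pow ℤ).hasProd
    simpa [Function.comp_def] using
      ((PowerSeries.WithPiTopology.continuous_coeff ℤ n).tendsto _).comp hprod
  have h5 :=
    (continuous_of_discreteTopology (f := fun z : ℤ => (z : ℂ))).continuousAt.tendsto.comp h4
  simpa using tendsto_nhds_unique h2 h5

end Fermat.Agent.MF
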