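import Mathlib
import Fermat.Prelude.Def_ModularCurve_X0ModL
import Fermat.Agent.MF.Form
import Fermat.Agent.MF.Product

/-!
# Level one: `E₄`, `Δ`, `j`, the prelude's `jqModC`, and integral spanning sets

Level one forms and cusp forms are spanned by integral ones, and forms of weight `12m` are
`P(j) Δ^m`. The expansion of `j` is identified with the Prelude's formal series.
-/

noncomputable section

open UpperHalfPlane CongruenceSubgroup Filter Function
open scoped MatrixGroups ModularForm Manifold Topology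

namespace Fermat.Agent.MF

/-- The modular function `j = E₄³/Δ`. -/
def jFun (τ : ℍ) : ℂ := ModularForm.E₄ τ ^ 3 / ModularForm.discriminant τ

/-- `E₄` as a plain function. -/
def E4fn : ℍ → ℂ := ⇑ModularForm.E₄
/-- `E₆` as a plain function. -/
def E6fn : ℍ → ℂ := ⇑ModularForm.E₆
/-- `Δ` as a plain function. -/
def deltaFn : ℍ → ℂ := ModularForm.discriminant

theorem isFormFn_E4 : IsFormFn ⊤ 4 E4fn := isFormFn_top _
theorem isFormFn_E6 : IsFormFn ⊤ 6 E6fn := isFormFn_top _
theorem isFormFn_delta : IsFormFn ⊤ 12 deltaFn := by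
  have := isFormFn_top CuspForm.discriminant
  simpa [deltaFn] using this

theorem IsFormFn.isQFnTop {k : ℤ} {f : ℍ → ℂ} (hf : IsFormFn ⊤ k f) : IsQFn f :=
  hf.isQFn trivial

theorem deltaFn_ne_zero (τ : ℍ) : deltaFn τ ≠ 0 := ModularForm.discriminant_ne_zero τ

theorem deltaFn_ne_zero' : deltaFn ≠ 0 := fun h => deltaFn_ne_zero I (congrFun h I)

theorem jFun_eq (τ : ℍ) : jFun τ = E4fn τ ^ 3 / deltaFn τ := rfl

theorem jFun_mul_delta (τ : ℍ) : jFun τ * deltaFn τ = E4fn τ ^ 3 :=
  div_mul_cancel₀ _ (deltaFn_ne_zero τ)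

/-- `f` has integral `q`-expansion. -/
def IntQ (f : ℍ → ℂ) : Prop :=
  ∃ y : PowerSeries ℤ, qExpansion 1 f = y.map (Int.castRingHom ℂ)

theorem IntQ.mul {f g : ℍ → ℂ} (hf : IsQFn f) (hg : IsQFn g) (h : IntQ f) (h' : IntQ g) :
    IntQ (f * g) := by
  obtain ⟨y, hy⟩ := h
  obtain ⟨z, hz⟩ := h'
  exact ⟨y * z, by rw [qExpansion_mul hf.analyticAt hg.analyticAt, hy, hz, map_mul]⟩

theorem IntQ.one : IntQ (1 : ℍ → ℂ) := ⟨1, by rw [qExpansion_one, map_one]⟩

theorem IntQ.pow {f : ℍ → ℂ} (hf : IsQFn f) (h : IntQ f) (n : ℕ) : IntQ (f ^ n) := by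
  induction n with
  | zero => exact IntQ.one
  | succ n ih => rw [pow_succ]; exact ih.mul (hf.pow n) hf h

theorem qExpansion_E4 :
    qExpansion 1 E4fn = ModularCurve.eisenstein4.map (Int.castRingHom ℂ) := by
  ext n
  rw [E4fn, EisensteinSeries.E_qExpansion_coeff _ ⟨2, rfl⟩, PowerSeries.coeff_map,
    ModularCurve.eisenstein4, PowerSeries.coeff_mk,
    show bernoulli 4 = -1 / 30 by decide +kernel]
  rcases eq_or_ne n 0 with rfl | hn
  · simp
  · simp [hn, ArithmeticFunction.sigma_apply]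
    norm_num

theorem intQ_E4 : IntQ E4fn := ⟨_, qExpansion_E4⟩

theorem intQ_E6 : IntQ E6fn := by
  refine ⟨.mk fun n => if n = 0 then 1 else -504 * ∑ d ∈ n.divisors, (d : ℤ) ^ 5, ?_⟩
  ext n
  rw [E6fn, EisensteinSeries.E_qExpansion_coeff _ ⟨3, rfl⟩, PowerSeries.coeff_map,
    PowerSeries.coeff_mk, show bernoulli 6 = 1 / 42 by decide +kernel]
  rcases eq_or_ne n 0 with rfl | hn
  · simp
  · simp [hn, ArithmeticFunction.sigma_apply]
    norm_num

/-- The `q`-expansion of `Δ` is the formal product `q ∏ (1 - qⁿ)²⁴`. -/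
theorem qExpansion_delta :
    qExpansion 1 deltaFn =
      PowerSeries.X * ModularCurve.dedekindEtaUnit.map (Int.castRingHom ℂ) := by
  set H : ℂ → ℂ := fun q => ∏' n : ℕ, (1 - q ^ (n + 1)) with hH
  have hball : Metric.ball (0 : ℂ) 1 ∈ 𝓝 (0 : ℂ) := Metric.ball_mem_nhds _ one_pos
  have hHan : AnalyticAt ℂ H 0 :=
    ModularForm.differentiableOn_tprod_one_sub_pow.analyticAt hball
  have hev : cuspFunction 1 deltaFn =ᶠ[𝓝 0] ((fun q => q) * H ^ 24) := by
    filter_upwards [hball] with q hq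
    have := ModularForm.discriminant_cuspFunction_eqOn hq
    simp only [deltaFn, this, Pi.mul_apply, Pi.pow_apply, hH]
    rw [(ModularForm.multipliable_one_sub_pow (by simpa using hq)).tprod_pow]
  calc qExpansion 1 deltaFn = taylorPS (cuspFunction 1 deltaFn) := rfl
    _ = taylorPS ((fun q => q) * H ^ 24) := taylorPS_congr hev
    _ = PowerSeries.X * (ModularCurve.etaProd.map (Int.castRingHom ℂ)) ^ 24 := by
      rw [taylorPS_mul (by fun_prop) (hHan.pow 24), taylorPS_pow hHan, taylorPS_id,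
        hH, taylorPS_tprod_one_sub_pow]
    _ = _ := by rw [ModularCurve.dedekindEtaUnit, map_pow]

theorem intQ_delta : IntQ deltaFn :=
  ⟨PowerSeries.X * ModularCurve.dedekindEtaUnit, by rw [qExpansion_delta, map_mul,
    PowerSeries.map_X]⟩

theorem lq_delta_ne_zero : lq deltaFn ≠ 0 :=
  fun h => deltaFn_ne_zero' ((lq_eq_zero_iff isFormFn_delta.isQFnTop).mp h)

/-- The formal series `jqModC` is the expansion of `E₄³ / Δ`. -/
theorem jqModC_mul_lq_delta : ModularCurve.jqModC ℂ * lq deltaFn = lq E4fn ^ 3 := by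
  have h : ModularCurve.jNum * ModularCurve.dedekindEtaUnit = ModularCurve.eisenstein4 ^ 3 := by
    rw [ModularCurve.jNum, mul_assoc, mul_comm _ ModularCurve.dedekindEtaUnit,
      ModularCurve.dedekindEtaUnit_mul_inv, mul_one]
  rw [ModularCurve.jqModC, lq, lq, qExpansion_delta, qExpansion_E4, map_mul,
    HahnSeries.ofPowerSeries_X, mul_mul_mul_comm, ← map_mul, HahnSeries.single_mul_single,
    neg_add_cancel, mul_one, ← map_mul, h, map_pow, map_pow]
  simp

theorem IsFormFn.isZeroAtImInfty {k : ℤ} {f : ℍ → ℂ} (hf : IsFormFn ⊤ k f)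
    (h : (qExpansion 1 f).coeff 0 = 0) : IsZeroAtImInfty f := by
  have : Fact (IsCusp OnePoint.infty 𝒮ℒ) :=
    ⟨Subgroup.isCusp_of_mem_strictPeriods one_pos one_mem_strictPeriods_SL⟩
  exact CuspFormClass.zero_at_infty (ModularForm.toCuspForm hf.toLevelOne h)

theorem IsFormFn.exists_eq_delta_mul {k : ℤ} {f : ℍ → ℂ} (hf : IsFormFn ⊤ k f)
    (h : (qExpansion 1 f).coeff 0 = 0) :
    ∃ g, IsFormFn ⊤ (k - 12) g ∧ f = deltaFn * g := by
  refine ⟨_, isFormFn_top (CuspForm.discriminantEquiv (ModularForm.toCuspForm hf.toLevelOne h)), ?_⟩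
  exact (ModularForm.discriminant_mul_discriminantEquiv
    (ModularForm.toCuspForm hf.toLevelOne h)).symm

theorem IsFormFn.eq_zero_of_neg {k : ℤ} {f : ℍ → ℂ} (hf : IsFormFn ⊤ k f) (hk : k < 0) :
    f = 0 :=
  ModularFormClass.levelOne_neg_weight_eq_zero hk hf.toLevelOne

/-- The constant coefficient of the `q`-expansion of `E₄^a E₆^b` is `1`. -/
theorem qExpansion_E4_E6_coeff_zero (a b : ℕ) :
    (qExpansion 1 (E4fn ^ a * E6fn ^ b)).coeff 0 = 1 := by
  have hE4 := isFormFn_E4.isQFnTop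
  have hE6 := isFormFn_E6.isQFnTop
  have key : ∀ (f : ℍ → ℂ) (n : ℕ), IsQFn f → (qExpansion 1 f).coeff 0 = 1 →
      (qExpansion 1 (f ^ n)).coeff 0 = 1 := by
    intro f n hf h
    induction n with
    | zero => simp [qExpansion_one]
    | succ n ih =>
      rw [pow_succ, qExpansion_mul_coeff_zero (hf.pow n).analyticAt.continuousAt
        hf.analyticAt.continuousAt, ih, h, mul_one]
  rw [qExpansion_mul_coeff_zero (hE4.pow a).analyticAt.continuousAt
    (hE6.pow b).analyticAt.continuousAt,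
    key _ _ hE4 (EisensteinSeries.E_qExpansion_coeff_zero _ ⟨2, rfl⟩),
    key _ _ hE6 (EisensteinSeries.E_qExpansion_coeff_zero _ ⟨3, rfl⟩), mul_one]

theorem sub_coeff_zero {k : ℤ} {f g : ℍ → ℂ} (hf : IsFormFn ⊤ k f) (hg : IsFormFn ⊤ k g)
    (h : (qExpansion 1 g).coeff 0 = 1) :
    (qExpansion 1 (f - (qExpansion 1 f).coeff 0 • g)).coeff 0 = 0 := by
  rw [qExpansion_sub hf.isQFnTop.analyticAt (hg.isQFnTop.smul _).analyticAt,
    qExpansion_smul hg.isQFnTop.analyticAt, map_sub, PowerSeries.coeff_smul, h, smul_eq_mul,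
    mul_one, sub_self]

/-- Level one forms of weight `k` with integral `q`-expansion. -/
def intForms (k : ℤ) : Set (ℍ → ℂ) := {B | IsFormFn ⊤ k B ∧ IntQ B}

/-- Level one cusp forms of weight `k` with integral `q`-expansion. -/
def intCuspForms (k : ℤ) : Set (ℍ → ℂ) :=
  {B | IsFormFn ⊤ k B ∧ IntQ B ∧ (qExpansion 1 B).coeff 0 = 0}

theorem delta_mul_mem_span {k : ℤ} {g : ℍ → ℂ} (hg : g ∈ Submodule.span ℂ (intForms (k - 12))) :
    deltaFn * g ∈ Submodule.span ℂ (intCuspForms k) := by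
  induction hg using Submodule.span_induction with
  | mem B hB =>
    refine Submodule.subset_span ⟨(isFormFn_delta.mul hB.1).cast (by ring),
      intQ_delta.mul isFormFn_delta.isQFnTop hB.1.isQFnTop hB.2, ?_⟩
    rw [qExpansion_mul_coeff_zero isFormFn_delta.isQFnTop.analyticAt.continuousAt
      hB.1.isQFnTop.analyticAt.continuousAt, qExpansion_delta]
    simp
  | zero => simp
  | add a b _ _ ha hb => rw [mul_add]; exact add_mem ha hb
  | smul c a _ ha => rw [mul_smul_comm]; exact Submodule.smul_mem _ c ha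

/-- Level one forms are spanned by integral ones. -/
theorem IsFormFn.mem_span_intForms {k : ℤ} {f : ℍ → ℂ} (hf : IsFormFn ⊤ k f) :
    f ∈ Submodule.span ℂ (intForms k) := by
  induction hn : k.toNat using Nat.strong_induction_on generalizing k f with | _ n ih =>
  rcases lt_or_ge k 0 with hk | hk
  · rw [hf.eq_zero_of_neg hk]; exact zero_mem _
  rcases Int.even_or_odd k with hk2 | hk2
  swap
  · have : hf.toLevelOne = 0 := ModularForm.levelOne_odd_weight_eq_zero hk2 _
    have h0 : f = 0 := by simpa using congrArg DFunLike.coe this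
    rw [h0]; exact zero_mem _
  rcases eq_or_ne k 2 with rfl | hk'
  · have := rank_zero_iff_forall_zero.mp ModularForm.levelOne_weight_two_rank_zero hf.toLevelOne
    have h0 : f = 0 := by simpa using congrArg DFunLike.coe this
    rw [h0]; exact zero_mem _
  obtain ⟨a, b, hab⟩ : ∃ a b : ℕ, k = 4 * a + 6 * b := by
    obtain ⟨r, rfl⟩ := hk2
    rcases Int.even_or_odd r with ⟨s, rfl⟩ | ⟨s, rfl⟩
    · exact ⟨s.toNat, 0, by omega⟩
    · exact ⟨(s - 1).toNat, 1, by omega⟩
  set g := E4fn ^ a * E6fn ^ b with hg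
  have hgF : IsFormFn ⊤ k g := ((isFormFn_E4.pow a).mul (isFormFn_E6.pow b)).cast (by omega)
  have hgmem : g ∈ intForms k := ⟨hgF, IntQ.mul
    (isFormFn_E4.isQFnTop.pow a) (isFormFn_E6.isQFnTop.pow b)
    (intQ_E4.pow isFormFn_E4.isQFnTop a) (intQ_E6.pow isFormFn_E6.isQFnTop b)⟩
  obtain ⟨h, hh, heq⟩ := (hf.sub (hgF.smul _)).exists_eq_delta_mul
    (sub_coeff_zero hf hgF (qExpansion_E4_E6_coeff_zero a b))
  have hmem : deltaFn * h ∈ Submodule.span ℂ (intForms k) := by
    refine Submodule.span_mono (s := intCuspForms k)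
      (fun B hB => show B ∈ intForms k from ⟨hB.1, hB.2.1⟩)
      (delta_mul_mem_span (k := k) ?_)
    rcases lt_or_ge (k - 12) 0 with hk12 | hk12
    · rw [hh.eq_zero_of_neg hk12]; exact zero_mem _
    · exact ih (k - 12).toNat (by omega) hh rfl
  rw [sub_eq_iff_eq_add] at heq
  rw [heq]
  exact add_mem hmem (Submodule.smul_mem _ _ (Submodule.subset_span hgmem))

/-- Level one cusp forms are spanned by integral cusp forms. -/
theorem IsFormFn.mem_span_intCuspForms {k : ℤ} {f : ℍ → ℂ} (hf : IsFormFn ⊤ k f)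
    (h : (qExpansion 1 f).coeff 0 = 0) : f ∈ Submodule.span ℂ (intCuspForms k) := by
  obtain ⟨g, hg, rfl⟩ := hf.exists_eq_delta_mul h
  exact delta_mul_mem_span hg.mem_span_intForms

/-- Weight `12m` level one forms are `P(j) Δ^m`. -/
theorem IsFormFn.exists_eq_sum {m : ℕ} {f : ℍ → ℂ} (hf : IsFormFn ⊤ (12 * m) f) :
    ∃ c : ℕ → ℂ, f = ∑ i ∈ Finset.range (m + 1), c i • (E4fn ^ (3 * i) * deltaFn ^ (m - i)) := by
  induction m generalizing f with
  | zero =>
    obtain ⟨c, hc⟩ := ModularFormClass.levelOne_weight_zero_const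
      ((hf.cast (by simp : (12 * ((0 : ℕ) : ℤ)) = 0)).toLevelOne)
    refine ⟨fun _ => c, ?_⟩
    simp only [IsFormFn.coe_toLevelOne] at hc
    ext τ
    simp [hc]
  | succ m ih =>
    set g := E4fn ^ (3 * (m + 1)) * E6fn ^ 0 with hg
    have hgF : IsFormFn ⊤ (12 * ((m + 1 : ℕ) : ℤ)) g :=
      ((isFormFn_E4.pow (3 * (m + 1))).mul (isFormFn_E6.pow 0)).cast (by push_cast; ring)
    obtain ⟨h, hh, heq⟩ := (hf.sub (hgF.smul _)).exists_eq_delta_mul
      (sub_coeff_zero hf hgF (qExpansion_E4_E6_coeff_zero _ _))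
    obtain ⟨c, hc⟩ := ih (hh.cast (by push_cast; ring))
    refine ⟨Function.update c (m + 1) ((qExpansion 1 f).coeff 0), ?_⟩
    rw [sub_eq_iff_eq_add] at heq
    rw [Finset.sum_range_succ]
    nth_rewrite 1 [heq]
    congr 1
    · rw [hc, Finset.mul_sum]
      refine Finset.sum_congr rfl fun i hi => ?_
      have hi' : i < m + 1 := Finset.mem_range.mp hi
      rw [Function.update_of_ne hi'.ne, mul_smul_comm,
        show m + 1 - i = (m - i) + 1 by omega, pow_succ]
      ring_nf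
    · simp [hg]

theorem algebraMap_eq_C (c : ℂ) : algebraMap ℂ (LaurentSeries ℂ) c = HahnSeries.C c := by
  rw [ModularCurve.algebraMap_laurentSeries_eq_single]; rfl

/-- The level one form `r(j) Δ^D`. -/
def polyForm (D : ℕ) (r : Polynomial ℂ) : ℍ → ℂ :=
  ∑ a ∈ Finset.range (D + 1), r.coeff a • (E4fn ^ (3 * a) * deltaFn ^ (D - a))

theorem isFormFn_polyForm (D : ℕ) (r : Polynomial ℂ) :
    IsFormFn ⊤ (12 * (D : ℤ)) (polyForm D r) := by
  refine IsFormFn.sum _ fun a ha =>
    (((isFormFn_E4.pow _).mul (isFormFn_delta.pow _)).cast ?_).smul _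
  have : a ≤ D := by have := Finset.mem_range.mp ha; omega
  push_cast [Nat.cast_sub this]
  ring

theorem polyForm_apply {D : ℕ} {r : Polynomial ℂ} (hr : r.natDegree ≤ D) (τ : ℍ) :
    polyForm D r τ = r.eval (jFun τ) * deltaFn τ ^ D := by
  rw [Polynomial.eval_eq_sum_range' (Nat.lt_succ_of_le hr), Finset.sum_mul, polyForm,
    Finset.sum_apply]
  refine Finset.sum_congr rfl fun i hi => ?_
  have hi' : i ≤ D := by have := Finset.mem_range.mp hi; omega
  simp only [Pi.smul_apply, Pi.mul_apply, Pi.pow_apply, smul_eq_mul]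
  rw [pow_mul, ← jFun_mul_delta, mul_pow, mul_assoc (jFun τ ^ i), ← pow_add,
    show i + (D - i) = D by omega]
  ring

theorem lq_polyForm {D : ℕ} {r : Polynomial ℂ} (hr : r.natDegree ≤ D) :
    lq (polyForm D r) = Polynomial.aeval (ModularCurve.jqModC ℂ) r * lq deltaFn ^ D := by
  have h4 := isFormFn_E4.isQFnTop
  have hd := isFormFn_delta.isQFnTop
  rw [polyForm, lq_sum _ fun i _ => ((h4.pow _).mul (hd.pow _)).smul _,
    Polynomial.aeval_eq_sum_range' (Nat.lt_succ_of_le hr), Finset.sum_mul]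
  refine Finset.sum_congr rfl fun i hi => ?_
  have hi' : i ≤ D := by have := Finset.mem_range.mp hi; omega
  rw [lq_smul ((h4.pow _).mul (hd.pow _)), lq_mul (h4.pow _) (hd.pow _), lq_pow h4, lq_pow hd,
    pow_mul, ← jqModC_mul_lq_delta, mul_pow, mul_assoc (ModularCurve.jqModC ℂ ^ i), ← pow_add,
    show i + (D - i) = D by omega, Algebra.smul_def, algebraMap_eq_C, mul_assoc]

/-- Weight `12m` level one forms are `P(j) Δ^m`, pointwise and on `q`-expansions. -/
theorem IsFormFn.exists_polynomial {m : ℕ} {f : ℍ → ℂ} (hf : IsFormFn ⊤ (12 * m) f) :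
    ∃ P : Polynomial ℂ, (∀ τ, f τ = P.eval (jFun τ) * deltaFn τ ^ m) ∧
      lq f = Polynomial.aeval (ModularCurve.jqModC ℂ) P * lq deltaFn ^ m := by
  obtain ⟨c, hc⟩ := hf.exists_eq_sum
  set P : Polynomial ℂ :=
    ∑ i ∈ Finset.range (m + 1), Polynomial.C (c i) * Polynomial.X ^ i with hP
  have hdeg : P.natDegree ≤ m := Polynomial.natDegree_sum_le_of_forall_le _ _ fun i hi =>
    (Polynomial.natDegree_C_mul_X_pow_le _ _).trans (Finset.mem_range_succ_iff.mp hi)
  have hfP : f = polyForm m P := by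
    rw [hc, polyForm]
    refine Finset.sum_congr rfl fun i hi => ?_
    rw [hP, Polynomial.finsetSum_coeff, Finset.sum_eq_single i
      (fun j _ hj => by simp [Polynomial.coeff_X_pow, hj.symm]) (fun h => absurd hi h)]
    simp
  exact ⟨P, fun τ => by rw [hfP, polyForm_apply hdeg], by rw [hfP, lq_polyForm hdeg]⟩

end Fermat.Agent.MF
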