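import Mathlib
import Fermat.Agent.MF.LevelOne

/-!
# `τ ↦ Nτ`, integral matrices of determinant `N`, and the growth of `j`

Hermite normal forms describe the conjugates of `f(Nτ)`; the growth of `j` at `i∞` then tells
these conjugates apart.
-/

noncomputable section

open UpperHalfPlane CongruenceSubgroup Filter Function
open scoped MatrixGroups ModularForm Manifold Topology

namespace Fermat.Agent.MF

/-- `τ ↦ (aτ + b)/d`. -/
def affH (a d : ℕ) [NeZero a] [NeZero d] (b : ℤ) (τ : ℍ) : ℍ :=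
  ⟨((a : ℂ) * τ + b) / d, by
    rw [Complex.div_natCast_im]
    have ha : (0 : ℝ) < a := by exact_mod_cast NeZero.pos a
    have hd : (0 : ℝ) < d := by exact_mod_cast NeZero.pos d
    simp only [Complex.add_im, Complex.mul_im, Complex.natCast_re, Complex.natCast_im, zero_mul,
      add_zero, Complex.intCast_im]
    have := τ.im_pos
    positivity⟩

@[simp] theorem coe_affH (a d : ℕ) [NeZero a] [NeZero d] (b : ℤ) (τ : ℍ) :
    (affH a d b τ : ℂ) = ((a : ℂ) * τ + b) / d := rfl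

theorem im_affH (a d : ℕ) [NeZero a] [NeZero d] (b : ℤ) (τ : ℍ) :
    (affH a d b τ).im = (a : ℝ) / d * τ.im := by
  show (((a : ℂ) * τ + b) / d).im = _
  rw [Complex.div_natCast_im]
  simp only [Complex.add_im, Complex.mul_im, Complex.natCast_re, Complex.natCast_im, zero_mul,
    add_zero, Complex.intCast_im]
  rw [show (τ : ℂ).im = τ.im from rfl]
  ring

theorem tendsto_affH (a d : ℕ) [NeZero a] [NeZero d] (b : ℤ) :
    Tendsto (affH a d b) atImInfty atImInfty := by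
  rw [atImInfty, tendsto_comap_iff]
  simp only [Function.comp_def, im_affH]
  exact tendsto_comap.const_mul_atTop
    (div_pos (by exact_mod_cast NeZero.pos a) (by exact_mod_cast NeZero.pos d))

theorem mdiff_affH (a d : ℕ) [NeZero a] [NeZero d] (b : ℤ) {f : ℍ → ℂ} (hf : MDiff f) :
    MDiff (f ∘ affH a d b) := by
  refine hf.comp ?_
  intro τ
  have hc : ∀ z : ℂ, 0 < z.im → 0 < (((a : ℂ) * z + b) / d).im := fun z hz =>
    (affH a d b ⟨z, hz⟩).im_pos
  have h : affH a d b = fun τ : ℍ => ofComplex (((a : ℂ) * τ + b) / d) := by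
    funext τ
    rw [ofComplex_apply_of_im_pos (hc τ τ.im_pos)]
    rfl
  rw [h]
  refine (mdifferentiableAt_ofComplex (hc τ τ.im_pos)).comp τ ?_
  exact (((mdifferentiableAt_iff_differentiableAt.mpr (by fun_prop) :
    MDifferentiableAt 𝓘(ℂ) 𝓘(ℂ) (fun z : ℂ => ((a : ℂ) * z + b) / d) τ)).comp τ
    (mdifferentiable_coe τ))

/-- `τ ↦ Nτ`. -/
def scale (N : ℕ) [NeZero N] : ℍ → ℍ := affH N 1 0

@[simp] theorem coe_scale (N : ℕ) [NeZero N] (τ : ℍ) : (scale N τ : ℂ) = N * τ := by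
  simp [scale]

/-- `diag(N,1) γ = σ (a b; 0 d)` with `σ ∈ SL(2, ℤ)`. -/
structure IsHermite (N : ℕ) (γ σ : SL(2, ℤ)) (a d : ℕ) (b : ℤ) : Prop where
  det : a * d = N
  e00 : (N : ℤ) * γ 0 0 = σ 0 0 * a
  e10 : γ 1 0 = σ 1 0 * a
  e01 : (N : ℤ) * γ 0 1 = σ 0 0 * b + σ 0 1 * d
  e11 : γ 1 1 = σ 1 0 * b + σ 1 1 * d

/-- Hermite normal form of `diag(N, 1) γ`. -/
theorem exists_hermite (N : ℕ) [NeZero N] (γ : SL(2, ℤ)) :
    ∃ (σ : SL(2, ℤ)) (a d : ℕ) (b : ℤ), NeZero a ∧ NeZero d ∧ IsHermite N γ σ a d b := by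
  have hN : (0 : ℤ) < N := by exact_mod_cast NeZero.pos N
  have hdet : γ 0 0 * γ 1 1 - γ 0 1 * γ 1 0 = 1 := by
    rw [← Matrix.det_fin_two]; exact γ.2
  set x := (N : ℤ) * γ 0 0 with hx
  set z := γ 1 0 with hz
  have hg : 0 < Int.gcd x z := by
    rw [Int.gcd_pos_iff]
    by_contra h
    push Not at h
    obtain ⟨h1, h2⟩ := h
    have h1' : γ 0 0 = 0 := (mul_eq_zero.mp h1).resolve_left hN.ne'
    rw [h1', h2] at hdet
    simp at hdet
  obtain ⟨u, v, hco, hu, hv⟩ := Int.exists_gcd_one hg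
  obtain ⟨σ, hσ0, hσ1⟩ := (Int.isCoprime_iff_gcd_eq_one.mpr hco).exists_SL2_col (0 : Fin 2)
  have hσdet : σ 0 0 * σ 1 1 - σ 0 1 * σ 1 0 = 1 := by
    rw [← Matrix.det_fin_two]; exact σ.2
  set a := Int.gcd x z
  set b : ℤ := σ 1 1 * (N * γ 0 1) - σ 0 1 * γ 1 1 with hb
  set d : ℤ := -σ 1 0 * (N * γ 0 1) + σ 0 0 * γ 1 1 with hd
  have had : (a : ℤ) * d = N := by
    rw [← hσ0] at hu; rw [← hσ1] at hv
    linear_combination (-(γ 1 1)) * hu + ((N : ℤ) * γ 0 1) * hv + (N : ℤ) * hdet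
  have hdpos : 0 < d := by
    refine pos_of_mul_pos_right ?_ (Int.natCast_nonneg a)
    rw [had]; exact hN
  refine ⟨σ, a, d.toNat, b, ⟨hg.ne'⟩, ⟨by omega⟩, ?_, ?_, ?_, ?_, ?_⟩
  · have hcast : ((a * d.toNat : ℕ) : ℤ) = N := by
      push_cast [Int.toNat_of_nonneg hdpos.le]; exact had
    exact_mod_cast hcast
  · rw [hσ0, ← hx]; exact hu
  · rw [hσ1]; exact hv
  · rw [Int.toNat_of_nonneg hdpos.le]
    linear_combination (-((N : ℤ) * γ 0 1)) * hσdet
  · rw [Int.toNat_of_nonneg hdpos.le]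
    linear_combination (-(γ 1 1)) * hσdet

theorem scale_smul {N : ℕ} [NeZero N] {γ σ : SL(2, ℤ)} {a d : ℕ} [NeZero a] [NeZero d] {b : ℤ}
    (h : IsHermite N γ σ a d b) (τ : ℍ) :
    scale N (γ • τ) = σ • affH a d b τ ∧
      denom (γ : GL (Fin 2) ℝ) τ = denom (σ : GL (Fin 2) ℝ) (affH a d b τ) * d := by
  have hd : (d : ℂ) ≠ 0 := by exact_mod_cast NeZero.ne d
  have e10 : ((γ 1 0 : ℤ) : ℂ) = σ 1 0 * a := by exact_mod_cast h.e10
  have e11 : ((γ 1 1 : ℤ) : ℂ) = σ 1 0 * b + σ 1 1 * d := by exact_mod_cast h.e11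
  have e00 : (N : ℂ) * ((γ 0 0 : ℤ) : ℂ) = σ 0 0 * a := by exact_mod_cast h.e00
  have e01 : (N : ℂ) * ((γ 0 1 : ℤ) : ℂ) = σ 0 0 * b + σ 0 1 * d := by exact_mod_cast h.e01
  have hden : denom (γ : GL (Fin 2) ℝ) τ = denom (σ : GL (Fin 2) ℝ) (affH a d b τ) * d := by
    rw [ModularGroup.denom_apply, ModularGroup.denom_apply, coe_affH, e10, e11]
    field_simp
    ring
  refine ⟨UpperHalfPlane.ext ?_, hden⟩
  rw [coe_scale, coe_specialLinearGroup_apply, coe_specialLinearGroup_apply]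
  simp only [algebraMap_int_eq, eq_intCast, Complex.ofReal_intCast, coe_affH]
  rw [ModularGroup.denom_apply, ModularGroup.denom_apply, coe_affH] at hden
  rw [← mul_div_assoc, mul_add, ← mul_assoc, e00, e01, hden]
  field_simp
  ring

theorem slash_scale {N : ℕ} [NeZero N] {γ σ : SL(2, ℤ)} {a d : ℕ} [NeZero a] [NeZero d] {b : ℤ}
    (h : IsHermite N γ σ a d b) (k : ℤ) (f : ℍ → ℂ) :
    (f ∘ scale N) ∣[k] γ = ((d : ℂ) ^ (-k)) • ((f ∣[k] σ) ∘ affH a d b) := by
  ext τ
  obtain ⟨h1, h2⟩ := scale_smul h τ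
  simp only [ModularForm.SL_slash_apply, comp_apply, Pi.smul_apply, smul_eq_mul, h1, h2, mul_zpow]
  ring

/-- `f(Nτ)` is a form of level `Γ₀(MN)` when `f` has level `Γ₀(M)`. -/
theorem IsFormFn.comp_scale {M : ℕ} {k : ℤ} {f : ℍ → ℂ} (hf : IsFormFn (Gamma0 M) k f) (N : ℕ)
    [NeZero N] : IsFormFn (Gamma0 (M * N)) k (f ∘ scale N) where
  slash_eq γ hγ := by
    rw [Gamma0_mem, ZMod.intCast_zmod_eq_zero_iff_dvd] at hγ
    obtain ⟨c, hc⟩ := (dvd_trans (by exact_mod_cast Dvd.intro_left M rfl) hγ : (N : ℤ) ∣ γ 1 0)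
    have hdet : γ 0 0 * γ 1 1 - γ 0 1 * γ 1 0 = 1 := by
      rw [← Matrix.det_fin_two]; exact γ.2
    let σ : SL(2, ℤ) := ⟨!![γ 0 0, N * γ 0 1; c, γ 1 1], by
      rw [Matrix.det_fin_two_of]; rw [hc] at hdet; linear_combination hdet⟩
    have hH : IsHermite N γ σ N 1 0 :=
      ⟨by simp, by simp [σ, mul_comm], by simp [σ, hc, mul_comm], by simp [σ], by simp [σ]⟩
    have hσ : σ ∈ Gamma0 M := by
      rw [Gamma0_mem, ZMod.intCast_zmod_eq_zero_iff_dvd]
      rw [hc] at hγ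
      push_cast at hγ
      rw [mul_comm (M : ℤ)] at hγ
      simpa [σ] using (mul_dvd_mul_iff_left (by exact_mod_cast NeZero.ne N)).mp hγ
    rw [slash_scale hH, hf.slash_eq σ hσ]
    simp [scale]
  mdiff := mdiff_affH N 1 0 hf.mdiff
  bdd γ := by
    obtain ⟨σ, a, d, b, ha, hd, hH⟩ := exists_hermite N γ
    rw [slash_scale hH]
    exact ((hf.bdd σ).comp_tendsto (tendsto_affH a d b)).const_smul_left _

theorem IsFormFn.comp_scale_top {k : ℤ} {f : ℍ → ℂ} (hf : IsFormFn ⊤ k f) (N : ℕ) [NeZero N] :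
    IsFormFn (Gamma0 N) k (f ∘ scale N) := by
  simpa using (hf.mono (le_top : Gamma0 1 ≤ ⊤)).comp_scale N

theorem qParam_scale (N : ℕ) [NeZero N] (τ : ℍ) :
    Periodic.qParam 1 (scale N τ) = Periodic.qParam 1 (τ : ℂ) ^ N := by
  rw [Periodic.qParam, Periodic.qParam, ← Complex.exp_nat_mul, coe_scale]
  congr 1
  push_cast
  ring

theorem IsQFn.comp_scale {f : ℍ → ℂ} (hf : IsQFn f) (N : ℕ) [NeZero N] :
    IsQFn (f ∘ scale N) where
  periodic := by
    have hper : ∀ w : ℂ, 0 < w.im → ∀ m : ℕ, f (ofComplex (w + m)) = f (ofComplex w) := by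
      intro w _ m
      have := (hf.periodic.nat_mul m) w
      simpa using this
    intro w
    by_cases hw : 0 < w.im
    · have hw' : 0 < (w + ((1 : ℝ) : ℂ)).im := by simpa using hw
      simp only [comp_apply, ofComplex_apply_of_im_pos hw, ofComplex_apply_of_im_pos hw']
      have h1 := hper _ (scale N ⟨w, hw⟩).im_pos N
      rw [ofComplex_apply] at h1
      refine Eq.trans ?_ h1
      congr 1
      have hw2 : 0 < ((scale N ⟨w, hw⟩ : ℂ) + N).im := by
        simp only [Complex.add_im, Complex.natCast_im, add_zero]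
        exact (scale N ⟨w, hw⟩).im_pos
      rw [ofComplex_apply_of_im_pos hw2]
      exact UpperHalfPlane.ext (by simp [mul_add])
    · have hw' : (w + ((1 : ℝ) : ℂ)).im ≤ 0 := by simpa using hw
      simp only [comp_apply]
      rw [ofComplex_apply_of_im_nonpos hw', ofComplex_apply_of_im_nonpos (not_lt.mp hw)]
  mdiff := mdiff_affH N 1 0 hf.mdiff
  bdd := hf.bdd.comp_tendsto (tendsto_affH N 1 0)

/-- The expansion of `f(Nτ)` is that of `f` in `q ^ N`. -/
theorem lq_comp_scale {f : ℍ → ℂ} (hf : IsQFn f) (N : ℕ) [NeZero N] :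
    lq (f ∘ scale N) = ModularCurve.qExpand ℂ N (lq f) := by
  set c : ℕ → ℂ := fun m => if N ∣ m then (qExpansion 1 f).coeff (m / N) else 0 with hc
  have hsum : ∀ τ : ℍ, HasSum (fun m => c m • Periodic.qParam 1 (τ : ℂ) ^ m) ((f ∘ scale N) τ) := by
    intro τ
    have hinj : Function.Injective (fun n : ℕ => N * n) :=
      fun x y h => Nat.eq_of_mul_eq_mul_left (NeZero.pos N) h
    refine (hinj.hasSum_iff ?_).mp ?_
    · intro m hm
      have : ¬ N ∣ m := fun ⟨n, hn⟩ => hm ⟨n, hn.symm⟩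
      simp [hc, this]
    · have h := hasSum_qExpansion one_pos hf.periodic hf.mdiff hf.bdd (scale N τ)
      simp only [qParam_scale, ← pow_mul] at h
      simpa [hc, Function.comp_def, Nat.mul_div_cancel_left _ (NeZero.pos N)] using h
  have hu : ∀ m, c m = (qExpansion 1 (f ∘ scale N)).coeff m := by
    intro m
    have hg := hf.comp_scale N
    have h1 := (hasFPowerSeriesOnBall_cuspFunction one_pos hg.analyticAt hsum).hasFPowerSeriesAt
    have h2 := (hasFPowerSeriesOnBall_cuspFunction one_pos hg.analyticAt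
      (hasSum_qExpansion one_pos hg.periodic hg.mdiff hg.bdd)).hasFPowerSeriesAt
    simpa using congr_arg (FormalMultilinearSeries.coeff · m) (h1.eq_formalMultilinearSeries h2)
  ext k
  by_cases hk : (N : ℤ) ∣ k
  · obtain ⟨r, rfl⟩ := hk
    rw [ModularCurve.qExpand_coeff_mul]
    rcases lt_or_ge r 0 with hr | hr
    · rw [lq, lq, ModularCurve.ofPowerSeries_coeff_of_neg _ hr,
        ModularCurve.ofPowerSeries_coeff_of_neg _ (mul_neg_of_pos_of_neg
          (by exact_mod_cast NeZero.pos N) hr)]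
    · lift r to ℕ using hr
      rw [← Nat.cast_mul, lq_coeff_nat, lq_coeff_nat, ← hu]
      simp [hc, Nat.mul_div_cancel_left _ (NeZero.pos N)]
  · rw [ModularCurve.qExpand_coeff_of_not_dvd N _ hk]
    rcases lt_or_ge k 0 with hk0 | hk0
    · exact ModularCurve.ofPowerSeries_coeff_of_neg _ hk0
    · lift k to ℕ using hk0
      rw [lq_coeff_nat, ← hu]
      have : ¬ N ∣ k := fun h => hk (by exact_mod_cast h)
      simp [hc, this]

section Growth

theorem IsQFn.tendsto_atImInfty {f : ℍ → ℂ} (hf : IsQFn f) :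
    Tendsto f atImInfty (𝓝 ((qExpansion 1 f).coeff 0)) := by
  have h := hf.analyticAt.continuousAt.tendsto.comp (qParam_tendsto_atImInfty one_pos)
  have he : (cuspFunction 1 f ∘ fun τ : ℍ => Periodic.qParam 1 (τ : ℂ)) = f :=
    funext fun τ => eq_cuspFunction τ one_ne_zero hf.periodic
  rw [he] at h
  simpa [qExpansion_coeff] using h

theorem tendsto_jFun_mul_qParam :
    Tendsto (fun τ => jFun τ * Periodic.qParam 1 (τ : ℂ)) atImInfty (𝓝 1) := by
  have h4 : Tendsto E4fn atImInfty (𝓝 1) := by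
    have := isFormFn_E4.isQFnTop.tendsto_atImInfty
    rwa [E4fn, EisensteinSeries.E_qExpansion_coeff_zero _ ⟨2, rfl⟩] at this
  have hp := ModularForm.tendsto_atImInfty_tprod_one_sub_eta_q_pow
  have := (h4.pow 3).div hp one_ne_zero
  simp only [one_pow, div_one] at this
  refine this.congr fun τ => ?_
  rw [jFun_eq, deltaFn, ModularForm.discriminant_eq_q_prod, Pi.div_apply]
  have hq : Periodic.qParam 1 (τ : ℂ) ≠ 0 := Complex.exp_ne_zero _
  field_simp

theorem tendsto_norm_jFun_mul_exp :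
    Tendsto (fun τ => ‖jFun τ‖ * Real.exp (-2 * Real.pi * τ.im)) atImInfty (𝓝 1) := by
  have := tendsto_jFun_mul_qParam.norm
  simp only [norm_mul, norm_one] at this
  refine this.congr fun τ => ?_
  congr 1
  simp [Periodic.qParam, Complex.norm_exp]

/-- If `j((aτ+b)/d) = j(Nτ)` identically with `ad = N` then `d = 1`. -/
theorem eq_one_of_jFun_affH_eq {N a d : ℕ} [NeZero N] [NeZero a] [NeZero d] {b : ℤ}
    (had : a * d = N) (h : ∀ τ, jFun (affH a d b τ) = jFun (scale N τ)) : d = 1 := by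
  have hd : (0 : ℝ) < d := by exact_mod_cast NeZero.pos d
  set t : ℝ := 2 * Real.pi * ((N : ℝ) - (a : ℝ) / d) with ht
  have h1 := tendsto_norm_jFun_mul_exp.comp (tendsto_affH a d b)
  have h2 := tendsto_norm_jFun_mul_exp.comp (tendsto_affH N 1 0)
  have h3 := h1.div h2 one_ne_zero
  have h4 : ∀ᶠ τ : ℍ in atImInfty, ((fun τ => ‖jFun τ‖ * Real.exp (-2 * Real.pi * τ.im)) ∘
      affH a d b) τ / ((fun τ => ‖jFun τ‖ * Real.exp (-2 * Real.pi * τ.im)) ∘ affH N 1 0) τ =
      Real.exp (t * τ.im) := by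
    filter_upwards [h2.eventually_ne one_ne_zero] with τ hτ
    simp only [comp_apply] at hτ ⊢
    rw [h τ, show scale N τ = affH N 1 0 τ from rfl,
      mul_div_mul_left _ _ (left_ne_zero_of_mul hτ), ← Real.exp_sub, im_affH, im_affH, ht]
    congr 1
    push_cast
    ring
  have h5 : Tendsto (fun τ : ℍ => t * τ.im) atImInfty (𝓝 0) := by
    have := (h3.congr' h4).log (by norm_num)
    simpa using this
  have h6 : t = 0 := by
    by_contra hne
    have him : Tendsto UpperHalfPlane.im atImInfty atTop := tendsto_comap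
    rcases lt_or_gt_of_ne hne with hlt | hgt
    · exact not_tendsto_nhds_of_tendsto_atBot (him.const_mul_atTop_of_neg hlt) 0 h5
    · exact not_tendsto_nhds_of_tendsto_atTop (him.const_mul_atTop hgt) 0 h5
  rw [ht] at h6
  have h7 : (N : ℝ) * d = a := by
    field_simp [Real.pi_ne_zero] at h6
    rcases mul_eq_zero.mp (h6.trans (mul_zero _)) with h | h
    · linarith [Real.pi_pos]
    · linarith
  have h8 : N * d = a := by exact_mod_cast h7
  have h9 : a * (d * d) = a * 1 := by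
    rw [mul_one, ← mul_assoc, had, h8]
  have h10 := Nat.eq_of_mul_eq_mul_left (NeZero.pos a) h9
  exact Nat.eq_one_of_mul_eq_one_left h10

end Growth

end Fermat.Agent.MF
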