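import Mathlib
import Fermat.Agent.MF.Scale

/-!
# Conjugates of a form over the cosets `SL(2, ℤ) ⧸ Γ`, and distinctness of `j_N`'s conjugates

Products and symmetric functions of the conjugates are level one forms; the conjugates of
`j(Nτ)` are pairwise distinct. Both feed the degree computation of `ℂ(j, j_N)` over `ℂ(j)`.
-/

noncomputable section

open UpperHalfPlane CongruenceSubgroup Filter Function
open scoped MatrixGroups ModularForm Manifold Topology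

namespace Fermat.Agent.MF

section Conj

variable {Γ : Subgroup SL(2, ℤ)} {k k' : ℤ} {f g : ℍ → ℂ}

/-- The conjugate of `f` attached to the coset `q`. -/
def conjFn (k : ℤ) (f : ℍ → ℂ) (q : SL(2, ℤ) ⧸ Γ) : ℍ → ℂ := f ∣[k] q.out⁻¹

theorem conjFn_mk (hf : IsFormFn Γ k f) (g : SL(2, ℤ)) :
    conjFn k f (QuotientGroup.mk g : SL(2, ℤ) ⧸ Γ) = f ∣[k] g⁻¹ := by
  obtain ⟨γ, hγ⟩ := QuotientGroup.mk_out_eq_mul Γ g
  rw [conjFn, hγ, mul_inv_rev, SlashAction.slash_mul, hf.slash_eq _ (inv_mem γ.2)]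

theorem conjFn_one (hf : IsFormFn Γ k f) :
    conjFn k f (QuotientGroup.mk 1 : SL(2, ℤ) ⧸ Γ) = f := by
  simp [conjFn_mk hf]

theorem conjFn_slash (hf : IsFormFn Γ k f) (q : SL(2, ℤ) ⧸ Γ) (h : SL(2, ℤ)) :
    conjFn k f q ∣[k] h = conjFn k f (h⁻¹ • q) := by
  obtain ⟨g, rfl⟩ := QuotientGroup.mk_surjective q
  rw [MulAction.Quotient.smul_mk, conjFn_mk hf, conjFn_mk hf, ← SlashAction.slash_mul, smul_eq_mul,
    mul_inv_rev, inv_inv]

theorem mdiff_conjFn (hf : IsFormFn Γ k f) (q : SL(2, ℤ) ⧸ Γ) : MDiff (conjFn k f q) :=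
  hf.mdiff.slash k _

theorem bdd_conjFn_slash (hf : IsFormFn Γ k f) (q : SL(2, ℤ) ⧸ Γ) (γ : SL(2, ℤ)) :
    IsBoundedAtImInfty (conjFn k f q ∣[k] γ) := by
  rw [conjFn, ← SlashAction.slash_mul]
  exact hf.bdd _

theorem conjFn_eq_zero_iff (q : SL(2, ℤ) ⧸ Γ) : conjFn k f q = 0 ↔ f = 0 := by
  refine ⟨fun h => ?_, fun h => ?_⟩
  · have := congrArg (fun F => F ∣[k] q.out) h
    simp only [conjFn, ← SlashAction.slash_mul, inv_mul_cancel, SlashAction.slash_one,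
      SlashAction.zero_slash] at this
    exact this
  · rw [h, conjFn, SlashAction.zero_slash]

theorem prod_slash_SL2 {ι : Type*} (s : Finset ι) (w : ι → ℤ) (F : ι → ℍ → ℂ) (γ : SL(2, ℤ)) :
    (∏ i ∈ s, F i) ∣[∑ i ∈ s, w i] γ = ∏ i ∈ s, F i ∣[w i] γ := by
  induction s using Finset.cons_induction with
  | empty => simp [ModularForm.is_invariant_one]
  | cons a t ha ih =>
    rw [Finset.prod_cons, Finset.sum_cons, Finset.prod_cons, ModularForm.mul_slash_SL2, ih]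

theorem prod_slash_SL2_const {ι : Type*} (s : Finset ι) (w : ℤ) (F : ι → ℍ → ℂ) (γ : SL(2, ℤ)) :
    (∏ i ∈ s, F i) ∣[(s.card : ℤ) * w] γ = ∏ i ∈ s, F i ∣[w] γ := by
  rw [← prod_slash_SL2 s (fun _ => w) F γ]
  simp

theorem isBoundedAtImInfty_prod {ι : Type*} (s : Finset ι) {F : ι → ℍ → ℂ}
    (hF : ∀ i ∈ s, IsBoundedAtImInfty (F i)) : IsBoundedAtImInfty (∏ i ∈ s, F i) :=
  Finset.prod_induction F IsBoundedAtImInfty (fun _ _ ha hb => ha.mul hb)
    (Filter.const_boundedAtFilter _ (1 : ℂ)) hF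

theorem isBoundedAtImInfty_sum {ι : Type*} (s : Finset ι) {F : ι → ℍ → ℂ}
    (hF : ∀ i ∈ s, IsBoundedAtImInfty (F i)) : IsBoundedAtImInfty (∑ i ∈ s, F i) :=
  Finset.sum_induction F IsBoundedAtImInfty (fun _ _ ha hb => ha.add hb)
    (Filter.const_boundedAtFilter _ (0 : ℂ)) hF

/-- The product of all conjugates of a form is a level one form. -/
theorem isFormFn_norm [Fintype (SL(2, ℤ) ⧸ Γ)] (hf : IsFormFn Γ k f) :
    IsFormFn ⊤ ((Fintype.card (SL(2, ℤ) ⧸ Γ) : ℤ) * k) (∏ q : SL(2, ℤ) ⧸ Γ, conjFn k f q) where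
  slash_eq h _ := by
    rw [← Finset.card_univ, prod_slash_SL2_const]
    simp only [conjFn_slash hf]
    exact Equiv.prod_comp (MulAction.toPerm h⁻¹) _
  mdiff := MDifferentiable.prod fun q _ => mdiff_conjFn hf q
  bdd γ := by
    rw [← Finset.card_univ, prod_slash_SL2_const]
    exact isBoundedAtImInfty_prod _ fun q _ => bdd_conjFn_slash hf q γ

end Conj

section Distinct

variable (N : ℕ) [NeZero N]

/-- `E₄(Nτ)³`, the numerator of `j_N`. -/
def numN : ℍ → ℂ := (E4fn ^ 3) ∘ scale N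

/-- `Δ(Nτ)`, the denominator of `j_N`. -/
def denN : ℍ → ℂ := deltaFn ∘ scale N

theorem isFormFn_numN : IsFormFn (Gamma0 N) 12 (numN N) :=
  ((isFormFn_E4.pow 3).cast (by norm_num)).comp_scale_top N

theorem isFormFn_denN : IsFormFn (Gamma0 N) 12 (denN N) := isFormFn_delta.comp_scale_top N

theorem denN_ne_zero (τ : ℍ) : denN N τ ≠ 0 := deltaFn_ne_zero _

theorem denN_ne_zero' : denN N ≠ 0 := fun h => denN_ne_zero N I (congrFun h I)

theorem numN_div_denN (τ : ℍ) : numN N τ / denN N τ = jFun (scale N τ) := rfl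

/-- `numN / denN` has expansion `j_N`. -/
theorem lq_numN : lq (numN N) = ModularCurve.jqNModC ℂ N * lq (denN N) := by
  rw [numN, denN, lq_comp_scale (isFormFn_E4.isQFnTop.pow 3), lq_pow isFormFn_E4.isQFnTop,
    lq_comp_scale isFormFn_delta.isQFnTop, ← jqModC_mul_lq_delta, map_mul, ModularCurve.jqNModC]

theorem lq_denN_ne_zero : lq (denN N) ≠ 0 :=
  fun h => denN_ne_zero' N ((lq_eq_zero_iff (isFormFn_denN N).isQFn0).mp h)

theorem jFun_smul' (γ : SL(2, ℤ)) (τ : ℍ) : jFun (γ • τ) = jFun τ := by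
  have h1 := congrFun ((isFormFn_E4.pow 3).slash_eq γ trivial) τ
  have h2 := congrFun (isFormFn_delta.slash_eq γ trivial) τ
  rw [ModularForm.SL_slash_apply] at h1 h2
  rw [jFun_eq, jFun_eq, ← h2, show E4fn τ ^ 3 = (E4fn ^ 3) τ from rfl, ← h1]
  have hd : denom (γ : GL (Fin 2) ℝ) τ ≠ 0 := denom_ne_zero _ τ
  rw [show -((3 : ℕ) * 4 : ℤ) = -12 by norm_num, mul_div_mul_right _ _ (zpow_ne_zero _ hd)]
  rfl

theorem mem_Gamma0_of_jFun_scale_eq {γ : SL(2, ℤ)}
    (h : ∀ τ, jFun (scale N (γ • τ)) = jFun (scale N τ)) : γ ∈ Gamma0 N := by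
  obtain ⟨σ, a, d, b, ha, hd, hH⟩ := exists_hermite N γ
  have h1 : ∀ τ, jFun (affH a d b τ) = jFun (scale N τ) := fun τ => by
    rw [← h τ, (scale_smul hH τ).1, jFun_smul']
  have hd1 := eq_one_of_jFun_affH_eq hH.det h1
  have haN : a = N := by rw [← hH.det, hd1, mul_one]
  rw [Gamma0_mem, ZMod.intCast_zmod_eq_zero_iff_dvd, hH.e10, haN]
  exact dvd_mul_left _ _

/-- The conjugates of `j_N` at different cosets are different functions (cross-multiplied). -/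
theorem conjFn_numN_mul_ne {q q' : SL(2, ℤ) ⧸ Gamma0 N} (h : q ≠ q') :
    conjFn 12 (numN N) q * conjFn 12 (denN N) q' ≠
      conjFn 12 (numN N) q' * conjFn 12 (denN N) q := by
  intro he
  apply h
  obtain ⟨g, rfl⟩ := QuotientGroup.mk_surjective q
  obtain ⟨g', rfl⟩ := QuotientGroup.mk_surjective q'
  rw [QuotientGroup.eq]
  refine mem_Gamma0_of_jFun_scale_eq N fun τ => ?_
  have hτ := congrFun he (g' • τ)
  simp only [Pi.mul_apply, conjFn_mk (isFormFn_numN N), conjFn_mk (isFormFn_denN N),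
    ModularForm.SL_slash_apply, inv_smul_smul, ← mul_smul g⁻¹ g'] at hτ
  set D := denom ((g⁻¹ : SL(2, ℤ)) : GL (Fin 2) ℝ) (g' • τ : ℍ) ^ (-(12 : ℤ))
  set D' := denom ((g'⁻¹ : SL(2, ℤ)) : GL (Fin 2) ℝ) (g' • τ : ℍ) ^ (-(12 : ℤ))
  have hD : D ≠ 0 := zpow_ne_zero _ (denom_ne_zero _ _)
  have hD' : D' ≠ 0 := zpow_ne_zero _ (denom_ne_zero _ _)
  rw [← numN_div_denN, ← numN_div_denN, div_eq_div_iff (denN_ne_zero N _) (denN_ne_zero N _)]
  have : (numN N ((g⁻¹ * g') • τ) * denN N τ - numN N τ * denN N ((g⁻¹ * g') • τ)) *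
      (D * D') = 0 := by
    linear_combination hτ
  exact sub_eq_zero.mp ((mul_eq_zero.mp this).resolve_right (mul_ne_zero hD hD'))

end Distinct

end Fermat.Agent.MF
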