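import Mathlib
import Fermat.Agent.MF.Cosets

/-!
# `ℂ(j, j_N)` is the field of ratios of equal-weight modular forms of level `Γ₀(N)`

The proof is Lagrange interpolation over the conjugates of `j_N`. It is the `q`-expansion
principle used to compare modular forms with the algebraic modular curve.
-/

noncomputable section

open UpperHalfPlane CongruenceSubgroup Filter Function
open ModularCurve (jqModC jqNModC modularFunctionFieldC modularFunctionFieldFullC qExpand)
open scoped MatrixGroups ModularForm Manifold Topology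

namespace Fermat.Agent.MF

/-- Products over the non-trivial cosets of an equivariant family are forms on `Γ`. -/
theorem isFormFn_prod_erase {Γ : Subgroup SL(2, ℤ)} [Fintype (SL(2, ℤ) ⧸ Γ)]
    [DecidableEq (SL(2, ℤ) ⧸ Γ)] {w : ℤ} (H : SL(2, ℤ) ⧸ Γ → ℍ → ℂ)
    (hequiv : ∀ h ∈ Γ, ∀ q, H q ∣[w] h = H (h⁻¹ • q)) (hmd : ∀ q, MDiff (H q))
    (hbd : ∀ q (γ : SL(2, ℤ)), IsBoundedAtImInfty (H q ∣[w] γ)) :
    IsFormFn Γ (((Finset.univ.erase (QuotientGroup.mk 1 : SL(2, ℤ) ⧸ Γ)).card : ℤ) * w)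
      (∏ q ∈ Finset.univ.erase (QuotientGroup.mk 1 : SL(2, ℤ) ⧸ Γ), H q) where
  slash_eq h hh := by
    rw [prod_slash_SL2_const, Finset.prod_congr rfl fun q _ => hequiv h hh q]
    refine Finset.prod_equiv (MulAction.toPerm h⁻¹) (fun q => ?_) (fun _ _ => rfl)
    simp only [Finset.mem_erase, Finset.mem_univ, and_true, MulAction.toPerm_apply]
    rw [inv_smul_eq_iff.ne]
    have : h • (QuotientGroup.mk 1 : SL(2, ℤ) ⧸ Γ) = QuotientGroup.mk 1 := by
      rw [MulAction.Quotient.smul_mk, smul_eq_mul, mul_one, QuotientGroup.eq, mul_one]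
      exact inv_mem hh
    rw [this]
  mdiff := MDifferentiable.prod fun q _ => hmd q
  bdd γ := by
    rw [prod_slash_SL2_const]
    exact isBoundedAtImInfty_prod _ fun q _ => hbd q γ

variable (N : ℕ) [NeZero N]

/-- A finite type structure on the cosets of `Γ₀(N)`. -/
@[reducible] def cosetFintype : Fintype (SL(2, ℤ) ⧸ Gamma0 N) := Fintype.ofFinite _

attribute [local instance] cosetFintype
attribute [local instance] Classical.propDecidable

section RatioSub

variable (Γ : Subgroup SL(2, ℤ)) (hT : ModularGroup.T ∈ Γ)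

/-- `f / g` for forms of equal weight on `Γ`. -/
def IsRatioOn (x : LaurentSeries ℂ) : Prop :=
  ∃ (k : ℤ) (f g : ℍ → ℂ), IsFormFn Γ k f ∧ IsFormFn Γ k g ∧ g ≠ 0 ∧ x * lq g = lq f

/-- The field of ratios of forms on `Γ`. -/
def ratioSub : IntermediateField ℂ (LaurentSeries ℂ) where
  carrier := {x | IsRatioOn Γ x}
  mul_mem' := by
    rintro x y ⟨k, f, g, hf, hg, hg0, h⟩ ⟨k', f', g', hf', hg', hg0', h'⟩
    refine ⟨k + k', f * f', g * g', hf.mul hf', hg.mul hg', fun h0 => ?_, ?_⟩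
    · exact ((mul_eq_zero_iff hg.mdiff hg'.mdiff).mp h0).elim hg0 hg0'
    · rw [lq_mul (hg.isQFn hT) (hg'.isQFn hT), lq_mul (hf.isQFn hT) (hf'.isQFn hT), ← h, ← h']
      ring
  one_mem' := ⟨0, 1, 1, IsFormFn.one, IsFormFn.one, one_ne_zero, one_mul _⟩
  add_mem' := by
    rintro x y ⟨k, f, g, hf, hg, hg0, h⟩ ⟨k', f', g', hf', hg', hg0', h'⟩
    refine ⟨k + k', f * g' + g * f', g * g', (hf.mul hg').add (hg.mul hf'), hg.mul hg',
      fun h0 => ((mul_eq_zero_iff hg.mdiff hg'.mdiff).mp h0).elim hg0 hg0', ?_⟩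
    rw [lq_mul (hg.isQFn hT) (hg'.isQFn hT),
      lq_add ((hf.mul hg').isQFn hT) ((hg.mul hf').isQFn hT),
      lq_mul (hf.isQFn hT) (hg'.isQFn hT), lq_mul (hg.isQFn hT) (hf'.isQFn hT), ← h, ← h']
    ring
  zero_mem' := ⟨0, 0, 1, IsFormFn.zero, IsFormFn.one, one_ne_zero, by simp⟩
  algebraMap_mem' c := ⟨0, fun _ => c, 1, IsFormFn.const c, IsFormFn.one, one_ne_zero, by
    rw [lq_one, mul_one, lq_const, ModularCurve.algebraMap_laurentSeries_eq_single]; rfl⟩
  inv_mem' := by
    rintro x ⟨k, f, g, hf, hg, hg0, h⟩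
    rcases eq_or_ne x 0 with rfl | hx
    · rw [inv_zero]
      exact ⟨0, 0, 1, IsFormFn.zero, IsFormFn.one, one_ne_zero, by simp⟩
    refine ⟨k, g, f, hg, hf, fun h0 => ?_, by rw [← h, inv_mul_cancel_left₀ hx]⟩
    rw [h0, lq_zero, mul_eq_zero] at h
    exact hg0 ((lq_eq_zero_iff (hg.isQFn hT)).mp (h.resolve_left hx))

end RatioSub

/-- `f/g` for equal weight forms. -/
def IsRatio (x : LaurentSeries ℂ) : Prop :=
  IsRatioOn (Gamma0 N) x

/-- The field of ratios of forms of level `N`. -/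
def ratioField : IntermediateField ℂ (LaurentSeries ℂ) :=
  ratioSub (Gamma0 N) (T_mem_Gamma0 N)

theorem Gamma0_le_of_dvd {d N : ℕ} (h : d ∣ N) : Gamma0 N ≤ Gamma0 d := by
  intro γ hγ
  rw [Gamma0_mem, ZMod.intCast_zmod_eq_zero_iff_dvd] at hγ ⊢
  exact (Int.natCast_dvd_natCast.mpr h).trans hγ

omit [NeZero N] in
theorem modularFunctionFieldFullC_le_ratioField :
    modularFunctionFieldFullC ℂ N ≤ ratioField N := by
  rw [modularFunctionFieldFullC, IntermediateField.adjoin_le_iff]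
  rintro x ⟨d, hd, hdN, rfl⟩
  have h3 : IsFormFn ⊤ 12 (E4fn ^ 3) := (isFormFn_E4.pow 3).cast (by norm_num)
  refine ⟨12, (E4fn ^ 3) ∘ scale d, deltaFn ∘ scale d,
    (h3.comp_scale_top d).mono (Gamma0_le_of_dvd hdN),
    (isFormFn_delta.comp_scale_top d).mono (Gamma0_le_of_dvd hdN),
    fun h0 => deltaFn_ne_zero _ (congrFun h0 I), ?_⟩
  rw [lq_comp_scale h3.isQFnTop, lq_comp_scale isFormFn_delta.isQFnTop,
    lq_pow isFormFn_E4.isQFnTop, ← jqModC_mul_lq_delta, map_mul]

section Interpolation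

/-- The identity coset. -/
def oneCoset : SL(2, ℤ) ⧸ Gamma0 N := QuotientGroup.mk 1

/-- `[SL(2, ℤ) : Γ₀(N)]`. -/
abbrev idx : ℕ := Fintype.card (SL(2, ℤ) ⧸ Gamma0 N)

/-- `∏_{q ≠ 1} (A · B_q - A_q · B)`, i.e. `Φ'(j_N)` up to powers of the denominators. -/
def sepProd : ℍ → ℂ :=
  ∏ q ∈ Finset.univ.erase (oneCoset N),
    (numN N * conjFn 12 (denN N) q - conjFn 12 (numN N) q * denN N)

theorem isFormFn_sepProd :
    IsFormFn (Gamma0 N) (((Finset.univ.erase (oneCoset N)).card : ℤ) * (12 + 12)) (sepProd N) := by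
  have hA := isFormFn_numN N
  have hB := isFormFn_denN N
  refine isFormFn_prod_erase _ (fun h hh q => ?_) (fun q => ?_) (fun q γ => ?_)
  · rw [sub_eq_add_neg, SlashAction.add_slash, SlashAction.neg_slash, ModularForm.mul_slash_SL2,
      ModularForm.mul_slash_SL2, hA.slash_eq h hh, hB.slash_eq h hh, conjFn_slash hA,
      conjFn_slash hB, ← sub_eq_add_neg]
  · exact (hA.mdiff.mul (mdiff_conjFn hB q)).sub ((mdiff_conjFn hA q).mul hB.mdiff)
  · rw [sub_eq_add_neg, SlashAction.add_slash, SlashAction.neg_slash, ModularForm.mul_slash_SL2,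
      ModularForm.mul_slash_SL2]
    exact ((hA.bdd γ).mul (bdd_conjFn_slash hB q γ)).add
      ((bdd_conjFn_slash hA q γ).mul (hB.bdd γ)).neg

theorem sepProd_ne_zero : sepProd N ≠ 0 := by
  rw [sepProd, Ne, prod_eq_zero_iff fun q _ => ((isFormFn_numN N).mdiff.mul
    (mdiff_conjFn (isFormFn_denN N) q)).sub
    ((mdiff_conjFn (isFormFn_numN N) q).mul (isFormFn_denN N).mdiff)]
  rintro ⟨q, hq, h⟩
  apply conjFn_numN_mul_ne N (Finset.ne_of_mem_erase hq).symm
  rw [oneCoset, conjFn_one (isFormFn_numN N), conjFn_one (isFormFn_denN N)]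
  exact sub_eq_zero.mp h

/-- The interpolating level one forms. -/
def interForm (m : ℕ) (f : ℍ → ℂ) (y : ℂ) : ℍ → ℂ :=
  ∑ i : SL(2, ℤ) ⧸ Gamma0 N, conjFn (12 * m + 12) (f * denN N) i *
    ∏ l ∈ Finset.univ.erase i, conjFn 12 (y • denN N - numN N) l

theorem card_erase (i : SL(2, ℤ) ⧸ Gamma0 N) :
    (Finset.univ.erase i).card = idx N - 1 := by
  rw [Finset.card_erase_of_mem (Finset.mem_univ i), Finset.card_univ]

theorem idx_pos : 0 < idx N := Fintype.card_pos

theorem isFormFn_interForm {m : ℕ} {f : ℍ → ℂ} (hf : IsFormFn (Gamma0 N) (12 * m) f) (y : ℂ) :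
    IsFormFn ⊤ (12 * ((m + idx N : ℕ) : ℤ)) (interForm N m f y) := by
  have hFB := hf.mul (isFormFn_denN N)
  have hC : IsFormFn (Gamma0 N) 12 (y • denN N - numN N) :=
    ((isFormFn_denN N).smul y).sub (isFormFn_numN N)
  have hpos := idx_pos N
  have hterm : ∀ (γ : SL(2, ℤ)) (i : SL(2, ℤ) ⧸ Gamma0 N),
      (conjFn (12 * m + 12) (f * denN N) i *
        ∏ l ∈ Finset.univ.erase i, conjFn 12 (y • denN N - numN N) l)
          ∣[12 * ((m + idx N : ℕ) : ℤ)] γ
      = conjFn (12 * m + 12) (f * denN N) i ∣[(12 * m + 12 : ℤ)] γ *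
        ∏ l ∈ Finset.univ.erase i, conjFn 12 (y • denN N - numN N) l ∣[(12 : ℤ)] γ := by
    intro γ i
    rw [← prod_slash_SL2_const, ← ModularForm.mul_slash_SL2, card_erase]
    congr 1
    push_cast [Nat.cast_sub (show 1 ≤ idx N by omega)]
    ring
  refine ⟨fun h _ => ?_, ?_, fun γ => ?_⟩
  · rw [interForm, SlashAction.sum_slash]
    simp only [hterm, conjFn_slash hFB, conjFn_slash hC]
    refine Fintype.sum_equiv (MulAction.toPerm h⁻¹) _ _ fun i => ?_
    refine congrArg₂ (· * ·) rfl ?_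
    refine Finset.prod_equiv (MulAction.toPerm h⁻¹) (fun l => ?_) (fun _ _ => rfl)
    simp
  · exact MDifferentiable.sum fun i _ =>
      (mdiff_conjFn hFB i).mul (MDifferentiable.prod fun l _ => mdiff_conjFn hC l)
  · rw [interForm, SlashAction.sum_slash]
    refine isBoundedAtImInfty_sum _ fun i _ => ?_
    rw [hterm]
    exact (bdd_conjFn_slash hFB i γ).mul
      (isBoundedAtImInfty_prod _ fun l _ => bdd_conjFn_slash hC l γ)

/-- The polynomial in `Y` whose value at `y` is `interForm y τ`. -/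
def interPoly (m : ℕ) (f : ℍ → ℂ) (τ : ℍ) : Polynomial ℂ :=
  ∑ i : SL(2, ℤ) ⧸ Gamma0 N, Polynomial.C (conjFn (12 * m + 12) (f * denN N) i τ) *
    ∏ l ∈ Finset.univ.erase i, (Polynomial.C (conjFn 12 (denN N) l τ) * Polynomial.X -
      Polynomial.C (conjFn 12 (numN N) l τ))

theorem eval_interPoly (m : ℕ) (f : ℍ → ℂ) (τ : ℍ) (y : ℂ) :
    (interPoly N m f τ).eval y = interForm N m f y τ := by
  simp [interPoly, interForm, Polynomial.eval_finsetSum, Polynomial.eval_prod, Finset.sum_apply,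
    Finset.prod_apply, conjFn, sub_eq_add_neg, SlashAction.add_slash, SlashAction.neg_slash,
    ModularForm.SL_smul_slash, mul_comm y]

theorem degree_prod_linear_le {ι : Type*} (s : Finset ι) (a b : ι → ℂ) :
    (∏ i ∈ s, (Polynomial.C (a i) * Polynomial.X - Polynomial.C (b i))).degree ≤
      (s.card : WithBot ℕ) := by
  refine (Polynomial.degree_prod_le _ _).trans
    ((Finset.sum_le_card_nsmul _ _ (1 : WithBot ℕ) fun i _ => ?_).trans_eq (nsmul_one _))
  exact (Polynomial.degree_sub_le _ _).trans (max_le ((Polynomial.degree_mul_le _ _).trans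
    (add_le_add Polynomial.degree_C_le Polynomial.degree_X_le))
    (Polynomial.degree_C_le.trans zero_le_one))

/-- Lagrange interpolation at natural numbers, evaluated at `A / B` and cleared of denominators. -/
theorem eval_div_mul_pow_eq_sum {s : Finset ℕ} {n : ℕ} (hs : s.card = n + 1)
    {p : Polynomial ℂ} (hp : p.degree < s.card) {A B : ℂ} (hB : B ≠ 0) :
    p.eval (A / B) * B ^ n = ∑ r ∈ s,
      (∏ t ∈ s.erase r, ((r : ℂ) - t)⁻¹) * ((∏ t ∈ s.erase r, (A - t * B)) * p.eval (r : ℂ)) := by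
  conv_lhs => rw [Lagrange.eq_interpolate
    (v := fun r : ℕ => (r : ℂ)) (fun a _ b _ h => Nat.cast_injective h) hp]
  rw [Lagrange.interpolate_apply, Polynomial.eval_finsetSum, Finset.sum_mul]
  refine Finset.sum_congr rfl fun r hr => ?_
  simp only [Polynomial.eval_mul, Polynomial.eval_C, Lagrange.basis, Polynomial.eval_prod,
    Lagrange.basisDivisor, Polynomial.eval_sub, Polynomial.eval_X]
  rw [show n = (s.erase r).card by rw [Finset.card_erase_of_mem hr]; omega, mul_assoc,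
    ← Finset.prod_const, ← Finset.prod_mul_distrib, ← mul_assoc, ← Finset.prod_mul_distrib,
    mul_comm (p.eval (r : ℂ))]
  congr 1
  refine Finset.prod_congr rfl fun t _ => ?_
  field_simp

theorem degree_interPoly_lt (m : ℕ) (f : ℍ → ℂ) (τ : ℍ) :
    (interPoly N m f τ).degree < (Finset.range (idx N)).card := by
  rw [Finset.card_range]
  refine lt_of_le_of_lt (Polynomial.degree_sum_le _ _) ?_
  rw [Finset.sup_lt_iff (WithBot.bot_lt_coe _)]
  intro i _
  refine lt_of_le_of_lt (Polynomial.degree_mul_le _ _) ?_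
  refine lt_of_le_of_lt (add_le_add Polynomial.degree_C_le (degree_prod_linear_le _ _ _)) ?_
  rw [zero_add, card_erase]
  exact_mod_cast Nat.sub_lt (idx_pos N) one_pos

/-- Lagrange interpolation at the `τ`-values. -/
theorem interpolation_identity (m : ℕ) {f : ℍ → ℂ} (hf : IsFormFn (Gamma0 N) (12 * m) f) :
    f * denN N * sepProd N = ∑ r ∈ Finset.range (idx N),
      ((∏ s ∈ (Finset.range (idx N)).erase r, ((r : ℂ) - s)⁻¹) •
        ((∏ s ∈ (Finset.range (idx N)).erase r, (numN N - (s : ℂ) • denN N)) *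
          interForm N m f r)) := by
  funext τ
  set A := numN N τ with hA
  set B := denN N τ with hB
  have hB0 : B ≠ 0 := denN_ne_zero N τ
  have h1 : (interPoly N m f τ).eval (A / B) * B ^ (idx N - 1) =
      (f * denN N * sepProd N) τ := by
    rw [interPoly, Polynomial.eval_finsetSum,
      Finset.sum_eq_single (oneCoset N) _ (fun h => absurd (Finset.mem_univ _) h)]
    · rw [Polynomial.eval_mul, Polynomial.eval_C, Polynomial.eval_prod,
        show oneCoset N = QuotientGroup.mk 1 from rfl, conjFn_one (hf.mul (isFormFn_denN N)),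
        Pi.mul_apply (f * denN N), ← card_erase N (QuotientGroup.mk 1), mul_assoc,
        ← Finset.prod_const, ← Finset.prod_mul_distrib]
      congr 1
      rw [sepProd, oneCoset, Finset.prod_apply]
      refine Finset.prod_congr rfl fun l _ => ?_
      simp only [Polynomial.eval_sub, Polynomial.eval_mul, Polynomial.eval_C, Polynomial.eval_X,
        Pi.sub_apply, Pi.mul_apply, hA, hB]
      field_simp [denN_ne_zero N τ]
    · intro i _ hi
      rw [Polynomial.eval_mul, Polynomial.eval_prod,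
        Finset.prod_eq_zero (Finset.mem_erase.mpr ⟨hi.symm, Finset.mem_univ _⟩) ?_, mul_zero]
      simp only [Polynomial.eval_sub, Polynomial.eval_mul, Polynomial.eval_C, Polynomial.eval_X]
      rw [show oneCoset N = QuotientGroup.mk 1 from rfl, conjFn_one (isFormFn_numN N),
        conjFn_one (isFormFn_denN N), ← hA, ← hB, mul_div_cancel₀ _ hB0, sub_self]
  rw [← h1, eval_div_mul_pow_eq_sum (n := idx N - 1)
    (by rw [Finset.card_range]; have := idx_pos N; omega) (degree_interPoly_lt N m f τ) hB0]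
  simp only [Finset.sum_apply, Pi.smul_apply, Pi.mul_apply, smul_eq_mul, Finset.prod_apply,
    Pi.sub_apply, eval_interPoly, ← hA, ← hB]

theorem lq_numN_sub_smul_denN (t : ℂ) :
    lq (numN N - t • denN N) = (jqNModC ℂ N - algebraMap ℂ _ t) * lq (denN N) := by
  rw [lq_sub (isFormFn_numN N).isQFn0 ((isFormFn_denN N).isQFn0.smul _), lq_numN,
    lq_smul (isFormFn_denN N).isQFn0, algebraMap_eq_C]
  ring

/-- `f/Δ^m · (∏_{q≠1}(j_N - j_N|q))` lies in `ℂ(j, j_N)`. -/
theorem exists_mem_eq (m : ℕ) {f : ℍ → ℂ} (hf : IsFormFn (Gamma0 N) (12 * m) f) :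
    ∃ S ∈ modularFunctionFieldC ℂ N,
      lq f * (lq (denN N) * lq (sepProd N)) =
        S * lq (denN N) ^ (idx N - 1) * lq deltaFn ^ (m + idx N) := by
  choose P _ hPlq using fun r : ℕ => (isFormFn_interForm N hf (r : ℂ)).exists_polynomial
  refine ⟨∑ r ∈ Finset.range (idx N),
    algebraMap ℂ _ (∏ s ∈ (Finset.range (idx N)).erase r, ((r : ℂ) - s)⁻¹) *
      (∏ s ∈ (Finset.range (idx N)).erase r, (jqNModC ℂ N - algebraMap ℂ _ (s : ℂ))) *
        Polynomial.aeval (jqModC ℂ) (P r), ?_, ?_⟩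
  · refine sum_mem fun r _ => mul_mem (mul_mem ((modularFunctionFieldC ℂ N).algebraMap_mem _)
      (prod_mem fun s _ => sub_mem (ModularCurve.jqNModC_mem ℂ N)
        ((modularFunctionFieldC ℂ N).algebraMap_mem _))) ?_
    have : jqModC ℂ ∈ modularFunctionFieldC ℂ N := ModularCurve.jqModC_mem ℂ N
    rw [Polynomial.aeval_eq_sum_range]
    exact sum_mem fun i _ => (modularFunctionFieldC ℂ N).smul_mem (pow_mem this i)
  · have hA := isFormFn_numN N
    have hB := isFormFn_denN N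
    have hD : ∀ s : ℕ, IsQFn (numN N - (s : ℂ) • denN N) :=
      fun s => (hA.sub (hB.smul _)).isQFn0
    have hI : ∀ r : ℕ, IsQFn (interForm N m f r) := fun r => (isFormFn_interForm N hf _).isQFnTop
    rw [← lq_mul hB.isQFn0 (isFormFn_sepProd N).isQFn0,
      ← lq_mul hf.isQFn0 (hB.mul (isFormFn_sepProd N)).isQFn0, ← mul_assoc,
      interpolation_identity N m hf,
      lq_sum _ fun r _ => (((IsQFn.prod _ fun s _ => hD s)).mul (hI r)).smul _,
      Finset.sum_mul, Finset.sum_mul]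
    refine Finset.sum_congr rfl fun r hr => ?_
    rw [lq_smul ((IsQFn.prod _ fun s _ => hD s).mul (hI r)),
      lq_mul (IsQFn.prod _ fun s _ => hD s) (hI r), lq_prod _ fun s _ => hD s, hPlq r,
      Finset.prod_congr rfl fun (s : ℕ) _ => lq_numN_sub_smul_denN N (s : ℂ),
      Finset.prod_mul_distrib, Finset.prod_const, Finset.card_erase_of_mem hr, Finset.card_range,
      ← algebraMap_eq_C]
    ring

theorem lq_div_delta_pow_mem (m : ℕ) {f : ℍ → ℂ} (hf : IsFormFn (Gamma0 N) (12 * m) f) :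
    ∃ x ∈ modularFunctionFieldC ℂ N, lq f = x * lq deltaFn ^ m := by
  obtain ⟨S, hS, h⟩ := exists_mem_eq N m hf
  obtain ⟨S₁, hS₁, h₁⟩ := exists_mem_eq N 0
    (f := 1) ((IsFormFn.one (Γ := Gamma0 N)).cast (by simp))
  rw [lq_one, one_mul, zero_add] at h₁
  have hne : lq (denN N) * lq (sepProd N) ≠ 0 := mul_ne_zero (lq_denN_ne_zero N)
    (fun h0 => sepProd_ne_zero N ((lq_eq_zero_iff (isFormFn_sepProd N).isQFn0).mp h0))
  have hS₁0 : S₁ ≠ 0 := by
    rintro rfl
    exact hne (by rw [h₁, zero_mul, zero_mul])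
  refine ⟨S / S₁, div_mem hS hS₁, mul_right_cancel₀ hne ?_⟩
  rw [h, h₁, pow_add]
  field_simp

end Interpolation

/-- Ratios of forms of equal weight on `Γ₀(N)` lie in `ℂ(j, j_N)`. -/
theorem ratioField_le : ratioField N ≤ modularFunctionFieldC ℂ N := by
  rintro x ⟨k, f, g, hf, hg, hg0, h⟩
  set G' : ℍ → ℂ := ∏ q ∈ Finset.univ.erase (QuotientGroup.mk 1 : SL(2, ℤ) ⧸ Gamma0 N),
    conjFn k g q with hG'def
  set G : ℍ → ℂ := ∏ q : SL(2, ℤ) ⧸ Gamma0 N, conjFn k g q with hGdef
  have hG : IsFormFn ⊤ ((idx N : ℤ) * k) G := isFormFn_norm hg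
  have hG' : IsFormFn (Gamma0 N) (((Finset.univ.erase
      (QuotientGroup.mk 1 : SL(2, ℤ) ⧸ Gamma0 N)).card : ℤ) * k) G' :=
    isFormFn_prod_erase (fun q => conjFn k g q) (fun h _ q => conjFn_slash hg q h)
      (mdiff_conjFn hg) (bdd_conjFn_slash hg)
  have hGne : G ≠ 0 := by
    rw [hGdef, Ne, prod_eq_zero_iff fun q _ => mdiff_conjFn hg q]
    rintro ⟨q, -, hq⟩
    exact hg0 ((conjFn_eq_zero_iff q).mp hq)
  have hsplit : G = g * G' := by
    rw [hGdef, hG'def, ← Finset.mul_prod_erase Finset.univ _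
      (Finset.mem_univ (QuotientGroup.mk 1 : SL(2, ℤ) ⧸ Gamma0 N)), conjFn_one hg]
  have hxG : x * lq G = lq (f * G') := by
    rw [hsplit, lq_mul hg.isQFn0 hG'.isQFn0, lq_mul hf.isQFn0 hG'.isQFn0, ← h, mul_assoc]
  have hK : 0 ≤ (idx N : ℤ) * k := by
    by_contra hneg
    exact hGne (hG.eq_zero_of_neg (not_le.mp hneg))
  obtain ⟨m, hm⟩ := Int.eq_ofNat_of_zero_le hK
  have h12 : IsFormFn ⊤ (12 * (m : ℤ)) (G ^ 12) := (hG.pow 12).cast (by rw [hm]; norm_num)
  have hnum : IsFormFn (Gamma0 N) (12 * (m : ℤ)) (f * G' * G ^ 11) := by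
    refine ((hf.mul hG').mul ((hG.mono le_top).pow 11)).cast ?_
    rw [card_erase, ← hm, Nat.cast_sub (idx_pos N)]
    push_cast
    ring
  have heq : x * lq (G ^ 12) = lq (f * G' * G ^ 11) := by
    rw [pow_succ', lq_mul hG.isQFnTop (hG.isQFnTop.pow 11),
      lq_mul (hf.mul hG').isQFn0 (hG.isQFnTop.pow 11), ← hxG, mul_assoc]
  obtain ⟨P, -, hP⟩ := h12.exists_polynomial
  obtain ⟨y, hy, hyeq⟩ := lq_div_delta_pow_mem N m hnum
  rw [hyeq, hP, ← mul_assoc] at heq
  have hxy := mul_right_cancel₀ (pow_ne_zero _ lq_delta_ne_zero) heq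
  have hP0 : Polynomial.aeval (jqModC ℂ) P ≠ 0 := by
    intro h0
    rw [h0, zero_mul, lq_eq_zero_iff (hG.isQFnTop.pow 12)] at hP
    exact deltaFn_ne_zero' (by
      have : G ^ 12 ≠ 0 := by
        intro h1
        apply hGne
        funext τ
        exact (pow_eq_zero_iff (n := 12) (by norm_num)).mp (congrFun h1 τ)
      exact absurd hP this)
  have hx' : x = y / Polynomial.aeval (jqModC ℂ) P := by rw [← hxy, mul_div_cancel_right₀ _ hP0]
  rw [hx']
  refine div_mem hy ?_
  rw [Polynomial.aeval_eq_sum_range]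
  exact sum_mem fun i _ => (modularFunctionFieldC ℂ N).smul_mem
    (pow_mem (ModularCurve.jqModC_mem ℂ N) i)

/-- **`q`-expansion principle**: `ℂ(j, j_N)` consists exactly of the `q`-expansions of ratios of
equal-weight forms of level `Γ₀(N)`. -/
theorem modularFunctionFieldC_eq_ratioField : modularFunctionFieldC ℂ N = ratioField N :=
  le_antisymm ((ModularCurve.modularFunctionFieldC_le_full ℂ N).trans
    (modularFunctionFieldFullC_le_ratioField N)) (ratioField_le N)

/-- `ℂ(j, j_N)` is the set of expansions of ratios of forms. -/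
theorem mem_modularFunctionFieldC_iff {x : LaurentSeries ℂ} :
    x ∈ modularFunctionFieldC ℂ N ↔ IsRatio N x := by
  rw [modularFunctionFieldC_eq_ratioField]; rfl

/-- `ℂ(j(dτ) : d ∣ N) = ℂ(j, j_N)`. -/
theorem modularFunctionFieldFullC_complex_eq :
    modularFunctionFieldFullC ℂ N = modularFunctionFieldC ℂ N :=
  le_antisymm ((modularFunctionFieldFullC_le_ratioField N).trans (ratioField_le N))
    (ModularCurve.modularFunctionFieldC_le_full ℂ N)

end Fermat.Agent.MF
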