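import Mathlib
import Fermat.Agent.MF.FunctionField

/-!
# Linear disjointness of `k((q))` and `K`, and descent of `ℂ(j, j_N)` to characteristic zero fields

Consequently the full modular function field `K(j(dτ) : d ∣ N)` is `K(j, j_N)` and base change
from `ℚ` gives the modular function field over any larger field.
-/

noncomputable section

open IntermediateField
open ModularCurve (coeffMap jqModC jqNModC modularFunctionFieldC modularFunctionFieldFullC qExpand)

namespace Fermat.Agent.MF

section General

variable {k K : Type*} [Field k] [Field K] [Algebra k K]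

theorem coeff_algebraMap_mul (c : K) (x : LaurentSeries K) (n : ℤ) :
    (algebraMap K (LaurentSeries K) c * x).coeff n = c * x.coeff n := by
  rw [ModularCurve.algebraMap_laurentSeries_eq_single, HahnSeries.coeff_single_zero_mul]

theorem coeffMap_algebraMap' (c : k) :
    coeffMap (algebraMap k K) (algebraMap k (LaurentSeries k) c) =
      algebraMap K (LaurentSeries K) (algebraMap k K c) := by
  rw [ModularCurve.algebraMap_laurentSeries_eq_single,
    ModularCurve.algebraMap_laurentSeries_eq_single, ModularCurve.coeffMap_single]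

theorem coeffMap_injective {R S : Type*} [CommRing R] [CommRing S] {f : R →+* S}
    (hf : Function.Injective f) : Function.Injective (coeffMap f) := by
  intro x y h
  ext n
  exact hf (by simpa using congrArg (fun z : LaurentSeries S => z.coeff n) h)

/-- An injective map of coefficients preserves the order. -/
theorem order_coeffMap {R S : Type*} [CommRing R] [CommRing S] {f : R →+* S}
    (hf : Function.Injective f) (x : LaurentSeries R) : (coeffMap f x).order = x.order := by
  rcases eq_or_ne x 0 with rfl | hx
  · simp
  have hne : (coeffMap f x).coeff x.order ≠ 0 := by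
    rw [ModularCurve.coeffMap_coeff]
    exact fun h => HahnSeries.coeff_order_eq_zero.not.mpr hx (hf (h.trans (map_zero f).symm))
  refine le_antisymm (HahnSeries.order_le_of_coeff_ne_zero hne) (not_lt.mp fun hlt => ?_)
  have h0 : coeffMap f x ≠ 0 := fun h => hne (by rw [h]; rfl)
  apply HahnSeries.coeff_order_eq_zero.not.mpr h0
  rw [ModularCurve.coeffMap_coeff, HahnSeries.coeff_eq_zero_of_lt_order hlt, map_zero]

/-- Applying a `k`-linear functional to the coefficients of a linear relation among series with
coefficients in `k`. -/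
theorem linear_relation_descend {ι : Type*} (s : Finset ι) (c : ι → K) (v : ι → LaurentSeries k)
    (h : ∑ i ∈ s, algebraMap K (LaurentSeries K) (c i) * coeffMap (algebraMap k K) (v i) = 0)
    (π : K →ₗ[k] k) : ∑ i ∈ s, algebraMap k (LaurentSeries k) (π (c i)) * v i = 0 := by
  ext n
  have hn := congrArg (fun z : LaurentSeries K => π (z.coeff n)) h
  simp only [HahnSeries.coeff_sum, coeff_algebraMap_mul, ModularCurve.coeffMap_coeff, map_sum,
    HahnSeries.coeff_zero, map_zero] at hn ⊢
  refine (Finset.sum_congr rfl fun i _ => ?_).trans hn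
  rw [mul_comm (c i), ← Algebra.smul_def, map_smul, smul_eq_mul, mul_comm]

/-- A subfield generated by series with coefficients in `k` meets `k((q))` in the field they
generate over `k`. -/
theorem mem_adjoin_of_coeffMap_mem {S : Set (LaurentSeries k)} {x : LaurentSeries k}
    (hx : coeffMap (algebraMap k K) x ∈ adjoin K (coeffMap (algebraMap k K) '' S)) :
    x ∈ adjoin k S := by
  classical
  obtain ⟨a, ha, b, hb, hab⟩ := mem_adjoin_iff_div.mp hx
  set φ := coeffMap (algebraMap k K)
  set M := Submonoid.closure S
  have key : ∀ y ∈ Algebra.adjoin K (φ '' S), ∃ c : LaurentSeries k →₀ K,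
      (∀ i ∈ c.support, i ∈ M) ∧ y = ∑ i ∈ c.support, algebraMap K _ (c i) * φ i := by
    intro y hy
    rw [← Subalgebra.mem_toSubmodule, Algebra.adjoin_eq_span,
      show φ '' S = (φ : LaurentSeries k →* LaurentSeries K) '' S from rfl,
      ← MonoidHom.map_mclosure, Submonoid.coe_map,
      Finsupp.mem_span_image_iff_linearCombination] at hy
    obtain ⟨c, hc, rfl⟩ := hy
    refine ⟨c, fun i hi => (Finsupp.mem_supported _ _).mp hc hi, ?_⟩
    rw [Finsupp.linearCombination_apply, Finsupp.sum]
    exact Finset.sum_congr rfl fun i _ => Algebra.smul_def _ _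
  obtain ⟨ca, hca, rfl⟩ := key a ha
  obtain ⟨cb, hcb, rfl⟩ := key b hb
  rcases eq_or_ne (∑ i ∈ cb.support, algebraMap K (LaurentSeries K) (cb i) * φ i) 0 with hb0 | hb0
  · rw [hb0, div_zero, map_eq_zero_iff _ (coeffMap_injective (algebraMap k K).injective)] at hab
    rw [hab]; exact zero_mem _
  · obtain ⟨n, hn⟩ : ∃ n, (∑ i ∈ cb.support,
        algebraMap K (LaurentSeries K) (cb i) * φ i).coeff n ≠ 0 := by
      by_contra! hall
      exact hb0 (HahnSeries.ext (funext fun n => (hall n).trans (HahnSeries.coeff_zero).symm))
    obtain ⟨π, hπ⟩ := Module.Projective.exists_dual_ne_zero k hn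
    set s := ca.support.disjSum cb.support
    have hrel : ∑ i ∈ s, algebraMap K (LaurentSeries K)
        (Sum.elim (fun i => ca i) (fun i => - cb i) i) *
          φ (Sum.elim (fun i => i) (fun i => x * i) i) = 0 := by
      rw [Finset.sum_disjSum]
      simp only [Sum.elim_inl, Sum.elim_inr, map_neg, neg_mul, Finset.sum_neg_distrib]
      rw [← sub_eq_add_neg, sub_eq_zero, eq_div_iff hb0, Finset.mul_sum] at *
      rw [← hab]
      refine Finset.sum_congr rfl fun i _ => ?_
      rw [map_mul]; ring
    have hd := linear_relation_descend s _ _ hrel π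
    rw [Finset.sum_disjSum] at hd
    simp only [Sum.elim_inl, Sum.elim_inr, map_neg, neg_mul, Finset.sum_neg_distrib] at hd
    set A := ∑ i ∈ ca.support, algebraMap k (LaurentSeries k) (π (ca i)) * i
    set B := ∑ i ∈ cb.support, algebraMap k (LaurentSeries k) (π (cb i)) * i with hB
    have hAB : x * B = A := by
      rw [hB, Finset.mul_sum]
      rw [← sub_eq_add_neg, sub_eq_zero] at hd
      rw [hd]
      exact Finset.sum_congr rfl fun i _ => by ring
    have hM : ∀ i ∈ M, i ∈ adjoin k S := fun i hi =>
      Submonoid.closure_le (S := (adjoin k S).toSubalgebra.toSubsemiring.toSubmonoid)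
        |>.mpr (subset_adjoin k S) hi
    have hBne : B ≠ 0 := by
      intro h0
      apply hπ
      have hcoef := congrArg (fun z : LaurentSeries k => z.coeff n) h0
      simp only [hB, HahnSeries.coeff_sum, coeff_algebraMap_mul, HahnSeries.coeff_zero] at hcoef
      rw [HahnSeries.coeff_sum, map_sum]
      refine (Finset.sum_congr rfl fun i _ => ?_).trans hcoef
      rw [coeff_algebraMap_mul]
      show π (cb i * algebraMap k K (i.coeff n)) = _
      rw [mul_comm, ← Algebra.smul_def, map_smul, smul_eq_mul, mul_comm]
    rw [show x = A / B by rw [← hAB, mul_div_cancel_right₀ _ hBne]]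
    exact div_mem (sum_mem fun i hi => mul_mem ((adjoin k S).algebraMap_mem _) (hM i (hca i hi)))
      (sum_mem fun i hi => mul_mem ((adjoin k S).algebraMap_mem _) (hM i (hcb i hi)))

theorem coeffMap_mem_adjoin {S : Set (LaurentSeries k)} {x : LaurentSeries k}
    (hx : x ∈ adjoin k S) :
    coeffMap (algebraMap k K) x ∈ adjoin K (coeffMap (algebraMap k K) '' S) := by
  induction hx using adjoin_induction k with
  | mem y hy => exact subset_adjoin K _ ⟨y, hy, rfl⟩
  | algebraMap c => rw [coeffMap_algebraMap']; exact IntermediateField.algebraMap_mem _ _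
  | add y z _ _ hy hz => rw [map_add]; exact add_mem hy hz
  | inv y _ hy => rw [map_inv₀]; exact inv_mem hy
  | mul y z _ _ hy hz => rw [map_mul]; exact mul_mem hy hz

end General

section Modular

theorem coeffMap_image_generators {k K : Type*} [Field k] [Field K] (φ : k →+* K) (N : ℕ)
    [NeZero N] :
    coeffMap φ '' {jqModC k, jqNModC k N} = {jqModC K, jqNModC K N} := by
  rw [Set.image_pair, ModularCurve.coeffMap_jqModC, ModularCurve.coeffMap_jqNModC]

/-- Coefficient maps respect the expansions of `j(dτ)`, `d ∣ N`. -/
theorem coeffMap_image_divisorExpansions {k K : Type*} [Field k] [Field K] (φ : k →+* K)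
    (N : ℕ) : coeffMap φ '' ModularCurve.divisorExpansionsC k N =
      ModularCurve.divisorExpansionsC K N := by
  ext x
  constructor
  · rintro ⟨_, ⟨d, hd, hdN, rfl⟩, rfl⟩
    exact ⟨d, hd, hdN, by rw [ModularCurve.coeffMap_qExpand, ModularCurve.coeffMap_jqModC]⟩
  · rintro ⟨d, hd, hdN, rfl⟩
    exact ⟨_, ⟨d, hd, hdN, rfl⟩,
      by rw [ModularCurve.coeffMap_qExpand, ModularCurve.coeffMap_jqModC]⟩

/-- Over `ℚ` the full modular function field is `ℚ(j, j_N)`. -/
theorem modularFunctionFieldFullC_rat_eq (N : ℕ) [NeZero N] :
    modularFunctionFieldFullC ℚ N = modularFunctionFieldC ℚ N := by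
  refine le_antisymm ?_ (ModularCurve.modularFunctionFieldC_le_full ℚ N)
  intro x hx
  refine mem_adjoin_of_coeffMap_mem (k := ℚ) (K := ℂ) ?_
  rw [coeffMap_image_generators]
  show _ ∈ modularFunctionFieldC ℂ N
  rw [← modularFunctionFieldFullC_complex_eq, modularFunctionFieldFullC,
    ← coeffMap_image_divisorExpansions (algebraMap ℚ ℂ) N]
  exact coeffMap_mem_adjoin hx

/-- `j(dτ) ∈ ℚ(j, j_N)` for `d ∣ N`. -/
theorem modularFunctionFieldFull_eq (N : ℕ) [NeZero N] :
    ModularCurve.modularFunctionFieldFull N = ModularCurve.modularFunctionField N := by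
  rw [← ModularCurve.modularFunctionFieldFullC_rat, ← ModularCurve.modularFunctionFieldC_rat,
    modularFunctionFieldFullC_rat_eq]

/-- Over any field of characteristic zero, `j(dτ) ∈ K(j, j_N)` for `d ∣ N`. -/
theorem modularFunctionFieldFullC_eq (K : Type*) [Field K] [CharZero K] (N : ℕ) [NeZero N] :
    modularFunctionFieldFullC K N = modularFunctionFieldC K N := by
  refine le_antisymm ?_ (ModularCurve.modularFunctionFieldC_le_full K N)
  rw [modularFunctionFieldFullC, IntermediateField.adjoin_le_iff]
  rintro x hx
  rw [← coeffMap_image_divisorExpansions (algebraMap ℚ K) N] at hx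
  obtain ⟨y, hy, rfl⟩ := hx
  rw [SetLike.mem_coe, modularFunctionFieldC, ← coeffMap_image_generators (algebraMap ℚ K) N]
  refine coeffMap_mem_adjoin ?_
  show y ∈ modularFunctionFieldC ℚ N
  rw [← modularFunctionFieldFullC_rat_eq]
  exact subset_adjoin ℚ _ hy

/-- The prelude's base change of the full modular function field. -/
theorem laurentBaseChange_full_eq (L : Type*) [Field L] [Algebra ℚ L] (N : ℕ) :
    ModularCurve.laurentBaseChange L (ModularCurve.modularFunctionFieldFull N) =
      modularFunctionFieldFullC L N := by
  refine le_antisymm ?_ ?_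
  · rw [ModularCurve.laurentBaseChange, IntermediateField.adjoin_le_iff]
    rintro _ ⟨y, hy, rfl⟩
    rw [SetLike.mem_coe, modularFunctionFieldFullC,
      ← coeffMap_image_divisorExpansions (algebraMap ℚ L) N]
    rw [← ModularCurve.modularFunctionFieldFullC_rat] at hy
    exact coeffMap_mem_adjoin hy
  · rw [modularFunctionFieldFullC, IntermediateField.adjoin_le_iff,
      ← coeffMap_image_divisorExpansions (algebraMap ℚ L) N]
    rintro _ ⟨y, hy, rfl⟩
    refine ModularCurve.coeffEmb_mem_laurentBaseChange L (?_ : y ∈ _)
    exact subset_adjoin ℚ _ hy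

/-- The base change of the full modular function field to `L` is `L(j, j_N)`. -/
theorem laurentBaseChange_full_eq_pair (L : Type*) [Field L] [CharZero L] [Algebra ℚ L] (N : ℕ)
    [NeZero N] :
    ModularCurve.laurentBaseChange L (ModularCurve.modularFunctionFieldFull N) =
      modularFunctionFieldC L N := by
  rw [laurentBaseChange_full_eq, modularFunctionFieldFullC_eq]

end Modular

end Fermat.Agent.MF
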