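import Mathlib
import Fermat.Agent.MF.Descent

/-!
# `[K(j, j_N) : K(j)] = [SL(2, ℤ) : Γ₀(N)]` in characteristic zero

Independence of the powers of `j_N` comes from the distinct conjugates, the relation from the
product over cosets; both descend from `ℂ` to any field of characteristic zero.
-/

noncomputable section

open UpperHalfPlane CongruenceSubgroup Filter Function Polynomial
open ModularCurve (coeffMap jqModC jqNModC modularFunctionFieldC)
open scoped MatrixGroups ModularForm Manifold Topology

namespace Fermat.Agent.MF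

section Alg

variable {K : Type*} [Field K]

theorem aeval_jqModC_ne_zero {p : K[X]} (hp : p ≠ 0) : aeval (jqModC K) p ≠ 0 := by
  intro h
  have h0 := congrArg (fun z : LaurentSeries K => z.coeff (-(p.natDegree : ℤ))) h
  simp only [aeval_eq_sum_range, HahnSeries.coeff_sum, HahnSeries.coeff_add, HahnSeries.coeff_zero,
    Finset.sum_range_succ, Algebra.smul_def, coeff_algebraMap_mul,
    ModularCurve.coeff_jqModC_pow_self, mul_one] at h0
  rw [Finset.sum_eq_zero, zero_add] at h0
  · exact hp (leadingCoeff_eq_zero.mp h0)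
  · intro i hi
    rw [ModularCurve.coeff_jqModC_pow_of_lt K (by
      have := Finset.mem_range.mp hi; omega), mul_zero]

theorem transcendental_jqModC : Transcendental K (jqModC K) :=
  fun ⟨_, hp, h⟩ => aeval_jqModC_ne_zero hp h

/-- No non-trivial relation of degree `< n` in `j_N` over `K[j]`. -/
def Indep (K : Type*) [Field K] (N : ℕ) [NeZero N] (n : ℕ) : Prop :=
  ∀ r : Fin n → K[X],
    ∑ b, aeval (jqModC K) (r b) * jqNModC K N ^ (b : ℕ) = 0 → r = 0

variable {k : Type*} [Field k] [Algebra k K] (N : ℕ) [NeZero N]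

theorem coeffMap_aeval (p : k[X]) :
    coeffMap (algebraMap k K) (aeval (jqModC k) p) =
      aeval (jqModC K) (p.map (algebraMap k K)) := by
  rw [aeval_eq_sum_range, aeval_eq_sum_range' (Nat.lt_succ_of_le natDegree_map_le), map_sum]
  refine Finset.sum_congr rfl fun i _ => ?_
  rw [Algebra.smul_def, Algebra.smul_def, map_mul, map_pow, coeffMap_algebraMap',
    ModularCurve.coeffMap_jqModC, coeff_map]

theorem indep_of_map {n : ℕ} (h : Indep K N n) : Indep k N n := by
  intro r hr
  have h0 := congrArg (coeffMap (algebraMap k K)) hr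
  simp only [map_sum, map_mul, map_pow, map_zero, coeffMap_aeval,
    ModularCurve.coeffMap_jqNModC] at h0
  funext b
  exact map_injective _ (algebraMap k K).injective
    (by simpa using congrFun (h (fun b => (r b).map (algebraMap k K)) h0) b)

/-- Independence of the powers of `j_N` survives an extension of the constants. -/
theorem indep_map {n : ℕ} (h : Indep k N n) : Indep K N n := by
  classical
  intro r hr
  set D := (Finset.univ.sup fun b => (r b).natDegree) + 1
  have hD : ∀ b, (r b).natDegree < D := fun b =>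
    Nat.lt_succ_of_le (Finset.le_sup (f := fun b => (r b).natDegree) (Finset.mem_univ b))
  have hexp : ∑ i ∈ (Finset.univ : Finset (Fin n)) ×ˢ Finset.range D,
      algebraMap K (LaurentSeries K) ((r i.1).coeff i.2) *
        coeffMap (algebraMap k K) (jqModC k ^ i.2 * jqNModC k N ^ (i.1 : ℕ)) = 0 := by
    rw [Finset.sum_product, ← hr]
    refine Finset.sum_congr rfl fun b _ => ?_
    rw [aeval_eq_sum_range' (hD b), Finset.sum_mul]
    refine Finset.sum_congr rfl fun a _ => ?_
    rw [map_mul, map_pow, map_pow, ModularCurve.coeffMap_jqModC, ModularCurve.coeffMap_jqNModC,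
      Algebra.smul_def, mul_assoc]
  have hzero : ∀ (b : Fin n), ∀ a < D, ∀ π : K →ₗ[k] k, π ((r b).coeff a) = 0 := by
    intro b a ha π
    have hd := linear_relation_descend _ _ _ hexp π
    rw [Finset.sum_product] at hd
    set r' : Fin n → k[X] := fun b => ∑ a ∈ Finset.range D, monomial a (π ((r b).coeff a)) with hr'
    have := h r' (by
      rw [← hd]
      refine Finset.sum_congr rfl fun b _ => ?_
      rw [hr', map_sum, Finset.sum_mul]
      refine Finset.sum_congr rfl fun a _ => ?_
      rw [aeval_monomial, mul_assoc])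
    have hc := congrArg (fun p : k[X] => p.coeff a) (congrFun this b)
    simpa [hr', coeff_monomial, Finset.sum_ite_eq', ha] using hc
  funext b
  ext a
  simp only [Pi.zero_apply, coeff_zero]
  by_cases ha : a < D
  · by_contra hne
    obtain ⟨π, hπ⟩ := Module.Projective.exists_dual_ne_zero k hne
    exact hπ (hzero b a ha π)
  · exact coeff_eq_zero_of_natDegree_lt (lt_of_lt_of_le (hD b) (not_lt.mp ha))

theorem indep_iff_complex (K : Type*) [Field K] [CharZero K] (N : ℕ) [NeZero N] (n : ℕ) :
    Indep K N n ↔ Indep ℂ N n :=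
  ⟨fun h => indep_map (k := ℚ) N (indep_of_map (k := ℚ) N h),
    fun h => indep_map (k := ℚ) N (indep_of_map (k := ℚ) N h)⟩

end Alg

section Complex

variable (N : ℕ) [NeZero N]

attribute [local instance] cosetFintype
attribute [local instance] Classical.propDecidable

theorem scale_ne_of_conjFn_ne {q q' : SL(2, ℤ) ⧸ Gamma0 N} {τ : ℍ}
    (h : conjFn 12 (numN N) q τ * conjFn 12 (denN N) q' τ ≠
      conjFn 12 (numN N) q' τ * conjFn 12 (denN N) q τ) :
    jFun (scale N (q.out⁻¹ • τ)) ≠ jFun (scale N (q'.out⁻¹ • τ)) := by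
  intro he
  apply h
  rw [← numN_div_denN, ← numN_div_denN,
    div_eq_div_iff (denN_ne_zero N _) (denN_ne_zero N _)] at he
  simp only [conjFn, ModularForm.SL_slash_apply]
  linear_combination (denom ((q.out⁻¹ : SL(2, ℤ)) : GL (Fin 2) ℝ) τ ^ (-(12 : ℤ)) *
    denom ((q'.out⁻¹ : SL(2, ℤ)) : GL (Fin 2) ℝ) τ ^ (-(12 : ℤ))) * he

/-- The relevant product of differences of conjugates. -/
def sepAll : ℍ → ℂ :=
  ∏ p ∈ (Finset.univ : Finset (SL(2, ℤ) ⧸ Gamma0 N)).offDiag,
    (conjFn 12 (numN N) p.1 * conjFn 12 (denN N) p.2 -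
      conjFn 12 (numN N) p.2 * conjFn 12 (denN N) p.1)

theorem mdiff_sepAll : MDiff (sepAll N) :=
  MDifferentiable.prod fun p _ =>
    ((mdiff_conjFn (isFormFn_numN N) p.1).mul (mdiff_conjFn (isFormFn_denN N) p.2)).sub
      ((mdiff_conjFn (isFormFn_numN N) p.2).mul (mdiff_conjFn (isFormFn_denN N) p.1))

theorem sepAll_ne_zero : sepAll N ≠ 0 := by
  rw [sepAll, Ne, prod_eq_zero_iff fun p _ =>
    ((mdiff_conjFn (isFormFn_numN N) p.1).mul (mdiff_conjFn (isFormFn_denN N) p.2)).sub
      ((mdiff_conjFn (isFormFn_numN N) p.2).mul (mdiff_conjFn (isFormFn_denN N) p.1))]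
  rintro ⟨p, hp, h⟩
  exact conjFn_numN_mul_ne N (Finset.mem_offDiag.mp hp).2.2 (sub_eq_zero.mp h)

theorem scale_injective_of_sepAll_ne {τ : ℍ} (h : sepAll N τ ≠ 0) :
    Function.Injective fun q : SL(2, ℤ) ⧸ Gamma0 N => jFun (scale N (q.out⁻¹ • τ)) := by
  intro q q' he
  by_contra hne
  rw [sepAll, Finset.prod_apply, Finset.prod_ne_zero_iff] at h
  exact scale_ne_of_conjFn_ne N
    (sub_ne_zero.mp (h (q, q')
      (Finset.mem_offDiag.mpr ⟨Finset.mem_univ _, Finset.mem_univ _, hne⟩)))
    he

/-- The first `[SL(2, ℤ) : Γ₀(N)]` powers of `j_N` are independent over `ℂ[j]`. -/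
theorem indep_complex : Indep ℂ N (idx N) := by
  intro r hr
  set D := Finset.univ.sup fun b => (r b).natDegree
  have hD : ∀ b, (r b).natDegree ≤ D := fun b =>
    Finset.le_sup (f := fun b => (r b).natDegree) (Finset.mem_univ b)
  have hn : ∀ b : Fin (idx N), (b : ℕ) ≤ idx N - 1 := fun b => by omega
  have hA := isFormFn_numN N
  have hB := isFormFn_denN N
  set F : ℍ → ℂ := ∑ b : Fin (idx N),
    polyForm D (r b) * (numN N ^ (b : ℕ) * denN N ^ (idx N - 1 - b)) with hF
  have hterm : ∀ b : Fin (idx N), IsQFn (numN N ^ (b : ℕ) * denN N ^ (idx N - 1 - b)) :=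
    fun b => (hA.isQFn0.pow _).mul (hB.isQFn0.pow _)
  have hFq : IsQFn F := IsQFn.sum _ fun b _ => (isFormFn_polyForm D _).isQFnTop.mul (hterm b)
  have hF0 : F = 0 := by
    rw [← lq_eq_zero_iff hFq, hF,
      lq_sum _ fun b _ => (isFormFn_polyForm D _).isQFnTop.mul (hterm b)]
    rw [show (0 : LaurentSeries ℂ) = (∑ b, aeval (jqModC ℂ) (r b) * jqNModC ℂ N ^ (b : ℕ)) *
      (lq deltaFn ^ D * lq (denN N) ^ (idx N - 1)) by rw [hr, zero_mul], Finset.sum_mul]
    refine Finset.sum_congr rfl fun b _ => ?_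
    rw [lq_mul (isFormFn_polyForm D _).isQFnTop (hterm b), lq_polyForm (hD b),
      lq_mul (hA.isQFn0.pow _) (hB.isQFn0.pow _), lq_pow hA.isQFn0, lq_pow hB.isQFn0, lq_numN,
      mul_pow, mul_assoc (jqNModC ℂ N ^ (b : ℕ)), ← pow_add,
      show (b : ℕ) + (idx N - 1 - b) = idx N - 1 by have := hn b; omega]
    ring
  have heval : ∀ τ, sepAll N τ ≠ 0 → ∀ b, (r b).eval (jFun τ) = 0 := by
    intro τ hτ b
    set p : ℂ[X] := ∑ b : Fin (idx N), C ((r b).eval (jFun τ)) * X ^ (b : ℕ) with hp
    have hp0 : p = 0 := by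
      refine eq_zero_of_natDegree_lt_card_of_eval_eq_zero p (scale_injective_of_sepAll_ne N hτ)
        (fun q => ?_) ?_
      · have hz := congrFun hF0 (q.out⁻¹ • τ)
        set σ := q.out⁻¹ • τ with hσ
        have hB0 := denN_ne_zero N σ
        simp only [hF, Finset.sum_apply, Pi.mul_apply, Pi.pow_apply, Pi.zero_apply] at hz
        have key : (∑ b : Fin (idx N), (r b).eval (jFun τ) * jFun (scale N σ) ^ (b : ℕ)) *
            (deltaFn σ ^ D * denN N σ ^ (idx N - 1)) = 0 := by
          rw [← hz, Finset.sum_mul]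
          refine Finset.sum_congr rfl fun b _ => ?_
          rw [polyForm_apply (hD b), ← numN_div_denN, hσ, jFun_smul', ← hσ, div_pow]
          conv_lhs => rw [← show (b : ℕ) + (idx N - 1 - b) = idx N - 1 by have := hn b; omega,
            pow_add]
          field_simp
        have := (mul_eq_zero.mp key).resolve_right
          (mul_ne_zero (pow_ne_zero _ (deltaFn_ne_zero σ)) (pow_ne_zero _ hB0))
        simpa [hp, eval_finsetSum] using this
      · refine lt_of_le_of_lt (natDegree_sum_le_of_forall_le _ _ (n := idx N - 1) fun b _ =>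
          (natDegree_C_mul_X_pow_le _ _).trans (hn b)) ?_
        exact Nat.sub_lt (idx_pos N) one_pos
    have hc := congrArg (fun s : ℂ[X] => s.coeff b) hp0
    simpa [hp, Fin.val_inj] using hc
  funext b
  have hzero : polyForm D (r b) * sepAll N = 0 := by
    funext τ
    rw [Pi.mul_apply, Pi.zero_apply]
    rcases eq_or_ne (sepAll N τ) 0 with h | h
    · rw [h, mul_zero]
    · rw [polyForm_apply (hD b), heval τ h b, zero_mul, zero_mul]
  have hpf := ((mul_eq_zero_iff (isFormFn_polyForm D (r b)).mdiff (mdiff_sepAll N)).mp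
    hzero).resolve_right (sepAll_ne_zero N)
  by_contra hne
  have := lq_polyForm (hD b)
  rw [hpf, lq_zero] at this
  exact mul_ne_zero (aeval_jqModC_ne_zero hne) (pow_ne_zero _ lq_delta_ne_zero) this.symm

/-- The norm to level one of the weight `12` form `y · denN - numN`. -/
def normForm (y : ℂ) : ℍ → ℂ :=
  ∏ q : SL(2, ℤ) ⧸ Gamma0 N, conjFn 12 (y • denN N - numN N) q

theorem isFormFn_normForm (y : ℂ) : IsFormFn ⊤ (12 * (idx N : ℤ)) (normForm N y) :=
  (isFormFn_norm (((isFormFn_denN N).smul y).sub (isFormFn_numN N))).cast (mul_comm _ _)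

/-- The norm, a polynomial in `y`, vanishes at `numN / denN`: the interpolation of this fact at
the nodes `0, …, idx N`. -/
theorem interpolation_normForm_eq_zero :
    ∑ r ∈ Finset.range (idx N + 1), ((∏ t ∈ (Finset.range (idx N + 1)).erase r, ((r : ℂ) - t)⁻¹) •
      ((∏ t ∈ (Finset.range (idx N + 1)).erase r, (numN N - (t : ℂ) • denN N)) * normForm N r))
      = 0 := by
  funext τ
  set p : ℂ[X] := ∏ q : SL(2, ℤ) ⧸ Gamma0 N,
    (C (conjFn 12 (denN N) q τ) * X - C (conjFn 12 (numN N) q τ)) with hp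
  have hpy : ∀ y : ℂ, p.eval y = normForm N y τ := fun y => by
    simp [hp, normForm, eval_prod, Finset.prod_apply, conjFn, sub_eq_add_neg,
      SlashAction.add_slash, SlashAction.neg_slash, ModularForm.SL_smul_slash, mul_comm y]
  have hdeg : p.degree < (Finset.range (idx N + 1)).card := by
    rw [Finset.card_range, hp]
    exact lt_of_le_of_lt (degree_prod_linear_le _ _ _) (by exact_mod_cast Nat.lt_succ_self _)
  have hroot : p.eval (numN N τ / denN N τ) = 0 := by
    rw [hp, eval_prod, Finset.prod_eq_zero (Finset.mem_univ (QuotientGroup.mk 1))]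
    simp only [eval_sub, eval_mul, eval_C, eval_X, conjFn_one (isFormFn_numN N),
      conjFn_one (isFormFn_denN N)]
    rw [mul_div_cancel₀ _ (denN_ne_zero N τ), sub_self]
  have h := eval_div_mul_pow_eq_sum (Finset.card_range (idx N + 1)) hdeg (A := numN N τ)
    (denN_ne_zero N τ)
  rw [hroot, zero_mul] at h
  simp only [Finset.sum_apply, Pi.smul_apply, Pi.mul_apply, smul_eq_mul, Finset.prod_apply,
    Pi.sub_apply, Pi.zero_apply, ← hpy, ← h]

theorem sum_aeval_mul_aeval_basis_eq_zero {R : ℕ → ℂ[X]}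
    (hR : ∀ r : ℕ, lq (normForm N r) = aeval (jqModC ℂ) (R r) * lq deltaFn ^ idx N) :
    ∑ r ∈ Finset.range (idx N + 1), aeval (jqModC ℂ) (R r) *
      aeval (jqNModC ℂ N) (Lagrange.basis (Finset.range (idx N + 1)) (fun r : ℕ => (r : ℂ)) r)
      = 0 := by
  have hq : ∀ t : ℕ, IsQFn (numN N - (t : ℂ) • denN N) :=
    fun t => ((isFormFn_numN N).sub ((isFormFn_denN N).smul _)).isQFn0
  have hPq : ∀ r : ℕ, IsQFn (normForm N r) := fun r => (isFormFn_normForm N _).isQFnTop
  refine (mul_eq_zero.mp (?_ : _ * (lq deltaFn ^ idx N * lq (denN N) ^ idx N) = 0)).resolve_right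
    (mul_ne_zero (pow_ne_zero _ lq_delta_ne_zero) (pow_ne_zero _ (lq_denN_ne_zero N)))
  rw [← lq_zero, ← interpolation_normForm_eq_zero N,
    lq_sum _ fun r _ => ((IsQFn.prod _ fun t _ => hq t).mul (hPq r)).smul _, Finset.sum_mul]
  refine Finset.sum_congr rfl fun r hr => ?_
  rw [lq_smul ((IsQFn.prod _ fun t _ => hq t).mul (hPq r)),
    lq_mul (IsQFn.prod _ fun t _ => hq t) (hPq r), lq_prod _ fun t _ => hq t, hR r,
    Finset.prod_congr rfl fun (t : ℕ) _ => lq_numN_sub_smul_denN N (t : ℂ), Finset.prod_mul_distrib,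
    Finset.prod_const, Finset.card_erase_of_mem hr, Finset.card_range, Nat.add_sub_cancel,
    ← algebraMap_eq_C]
  simp only [Lagrange.basis, Lagrange.basisDivisor, map_prod, map_mul, map_sub, aeval_C, aeval_X,
    Finset.prod_mul_distrib]
  ring

/-- The first `[SL(2, ℤ) : Γ₀(N)] + 1` powers of `j_N` are dependent over `ℂ[j]`. -/
theorem not_indep_complex : ¬ Indep ℂ N (idx N + 1) := by
  classical
  intro hI
  set n := idx N with hn
  set s := Finset.range (n + 1) with hs
  choose R hR hRlq using fun r : ℕ => (isFormFn_normForm N (r : ℂ)).exists_polynomial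
  have hinj : Set.InjOn (fun r : ℕ => (r : ℂ)) s := fun a _ b _ h => Nat.cast_injective h
  set ℓ : ℕ → ℂ[X] := fun r => Lagrange.basis s (fun r : ℕ => (r : ℂ)) r with hℓ
  have hℓdeg : ∀ r ∈ s, (ℓ r).natDegree < n + 1 := fun r hr => by
    have := Lagrange.natDegree_basis hinj hr
    rw [this, hs, Finset.card_range]; omega
  set rel : Fin (n + 1) → ℂ[X] := fun b => ∑ r ∈ s, C ((ℓ r).coeff b) * R r with hrel
  have hrel0 : rel = 0 := by
    refine hI rel (Eq.trans ?_ (sum_aeval_mul_aeval_basis_eq_zero N hRlq))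
    simp only [hrel, map_sum, map_mul, aeval_C, Finset.sum_mul]
    rw [Finset.sum_comm]
    refine Finset.sum_congr rfl fun r hr => ?_
    rw [aeval_eq_sum_range' (hℓdeg r hr), Finset.mul_sum, Finset.sum_range]
    refine Finset.sum_congr rfl fun b _ => ?_
    rw [Algebra.smul_def]; ring
  -- the constant term in `j_N` of the relation is `R 0`
  have h0 : (0 : ℕ) ∈ s := Finset.mem_range.mpr (Nat.succ_pos n)
  have hR0 : R 0 = 0 := by
    have h := congrFun hrel0 ⟨0, Nat.succ_pos n⟩
    rw [hrel, Pi.zero_apply] at h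
    simp only [coeff_zero_eq_eval_zero, hℓ] at h
    rw [Finset.sum_eq_single 0 _ (fun h' => absurd h0 h'), ← Nat.cast_zero (R := ℂ),
      Lagrange.eval_basis_self hinj h0, map_one, one_mul] at h
    · exact h
    · intro r hr hr0
      rw [← Nat.cast_zero (R := ℂ), Lagrange.eval_basis_of_ne hr0 h0, map_zero, zero_mul]
  have hP0 : normForm N ((0 : ℕ) : ℂ) = 0 := by
    funext τ
    rw [hR 0 τ, hR0]
    simp
  rw [normForm, prod_eq_zero_iff fun q _ =>
    mdiff_conjFn (((isFormFn_denN N).smul _).sub (isFormFn_numN N)) q] at hP0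
  obtain ⟨q, -, hq⟩ := hP0
  rw [conjFn_eq_zero_iff, Nat.cast_zero, zero_smul, zero_sub, neg_eq_zero] at hq
  have h3 := congrArg lq hq
  rw [lq_numN, lq_zero] at h3
  refine mul_ne_zero (fun h => ?_) (lq_denN_ne_zero N) h3
  have h4 := congrArg (fun z : LaurentSeries ℂ => z.coeff ((N : ℤ) * (-1))) h
  simp only [ModularCurve.jqNModC, ModularCurve.qExpand_coeff_mul,
    ModularCurve.coeff_jqModC_neg_one, HahnSeries.coeff_zero] at h4
  exact one_ne_zero h4

end Complex

section Finrank

open IntermediateField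
attribute [local instance] cosetFintype

variable (K : Type*) [Field K] [CharZero K] (N : ℕ) [NeZero N]

theorem indep_idx : Indep K N (idx N) := (indep_iff_complex K N _).mpr (indep_complex N)

theorem not_indep_succ : ¬ Indep K N (idx N + 1) :=
  fun h => not_indep_complex N ((indep_iff_complex K N _).mp h)

variable {K} (E : IntermediateField K (LaurentSeries K)) (hE : E = modularFunctionFieldC K N)
  (x : E) (hx : (x : LaurentSeries K) = jqModC K)

include hx in
omit [CharZero K] in
theorem coe_aeval_elem (p : K[X]) : ((aeval x p : E) : LaurentSeries K) =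
    aeval (jqModC K) p := by
  rw [← hx]
  exact (aeval_algHom_apply E.val x p).symm

include hx in
omit [CharZero K] in
theorem transcendental_elem : Transcendental K x := by
  rintro ⟨p, hp, h⟩
  refine aeval_jqModC_ne_zero hp ?_
  rw [← coe_aeval_elem E x hx p, h, ZeroMemClass.coe_zero]

omit [CharZero K] [NeZero N] in
/-- The degree over `K(x)` of a field `K(x, y)`, from the largest independent family of powers
of `y` over `K[x]`. Stated abstractly, as elaboration inside `LaurentSeries K` is slow. -/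
theorem finrank_adjoin_pair {K L : Type*} [Field K] [Field L] [Algebra K L] {n : ℕ}
    (E : IntermediateField K L) (x y : E) (hadj : adjoin K {(x : L), (y : L)} = E)
    (htr : Transcendental K x)
    (hrel : ∃ r : Fin (n + 1) → K[X], ∑ b, aeval (x : L) (r b) * (y : L) ^ (b : ℕ) = 0 ∧ r ≠ 0)
    (hind : ∀ r : Fin n → K[X], ∑ b, aeval (x : L) (r b) * (y : L) ^ (b : ℕ) = 0 → r = 0) :
    FiniteDimensional K⟮x⟯ E ∧ Module.finrank K⟮x⟯ E = n := by
  classical
  have hcoe : ∀ p : K[X], ((aeval x p : E) : L) = aeval (x : L) p := fun p =>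
    (aeval_algHom_apply E.val x p).symm
  -- annihilating polynomial
  obtain ⟨r, hr, hr0⟩ := hrel
  let c : K[X] → K⟮x⟯ := fun p => ⟨aeval x p,
    algebra_adjoin_le_adjoin K _ (Polynomial.aeval_mem_adjoin_singleton K x)⟩
  set p : (K⟮x⟯)[X] := ∑ b : Fin (n + 1), C (c (r b)) * X ^ (b : ℕ) with hp
  have hpdeg : p.natDegree ≤ n :=
    natDegree_sum_le_of_forall_le _ _ fun b _ =>
      (natDegree_C_mul_X_pow_le _ _).trans (Nat.le_of_lt_succ b.2)
  have hpy : aeval y p = 0 := by
    apply Subtype.ext
    simp only [hp, map_sum, map_mul, map_pow, aeval_C, aeval_X, ZeroMemClass.coe_zero,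
      IntermediateField.coe_sum, MulMemClass.coe_mul, SubmonoidClass.coe_pow]
    rw [← hr]
    refine Finset.sum_congr rfl fun b _ => ?_
    show ((aeval x (r b) : E) : L) * _ = _
    rw [hcoe]
  have hp0 : p ≠ 0 := by
    intro h
    obtain ⟨b, hb⟩ := Function.ne_iff.mp hr0
    have hc : c (r b) = 0 := by
      have := congrArg (fun s : (K⟮x⟯)[X] => s.coeff b) h
      simpa [hp, Fin.val_inj] using this
    exact htr ⟨r b, hb, congrArg Subtype.val hc⟩
  have hint : IsIntegral K⟮x⟯ y := (IsAlgebraic.isIntegral ⟨p, hp0, hpy⟩)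
  have hgen : (K⟮x⟯)⟮y⟯ = ⊤ := by
    apply IntermediateField.restrictScalars_injective K
    rw [adjoin_adjoin_left, restrictScalars_top]
    apply IntermediateField.map_injective E.val
    rw [adjoin_map, ← AlgHom.fieldRange_eq_map, fieldRange_val, Set.image_union,
      Set.image_singleton, Set.image_singleton, Set.singleton_union]
    show adjoin K {(x : L), (y : L)} = E
    exact hadj
  have hfd : FiniteDimensional K⟮x⟯ E := by
    have := adjoin.finiteDimensional hint
    rw [hgen] at this
    exact Module.Finite.equiv (IntermediateField.topEquiv).toLinearEquiv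
  refine ⟨hfd, le_antisymm ?_ ?_⟩
  · rw [← finrank_top', ← hgen, adjoin.finrank hint]
    exact (natDegree_le_natDegree (minpoly.min _ _ (Polynomial.monic_mul_leadingCoeff_inv hp0)
      (by simp [hpy]))).trans ((natDegree_mul_leadingCoeff_inv _ hp0).le.trans hpdeg)
  · have hli : LinearIndependent K⟮x⟯ fun b : Fin n => y ^ (b : ℕ) := by
      rw [Fintype.linearIndependent_iff]
      intro g hg b₀
      have hfrac : ∀ b, ∃ rs : K[X] × K[X], aeval x rs.2 ≠ 0 ∧
          (g b : E) = aeval x rs.1 / aeval x rs.2 := by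
        intro b
        obtain ⟨p₁, p₂, h⟩ := (mem_adjoin_simple_iff K _).mp (g b).2
        rcases eq_or_ne (aeval x p₂) 0 with h0 | h0
        · exact ⟨(0, 1), by simp, by rw [h, h0]; simp⟩
        · exact ⟨(p₁, p₂), h0, h⟩
      choose rs hs hg' using hfrac
      set r' : Fin n → K[X] := fun b =>
        (rs b).1 * ∏ c ∈ Finset.univ.erase b, (rs c).2 with hr'
      have hrel : ∑ b, aeval (x : L) (r' b) * (y : L) ^ (b : ℕ) = 0 := by
        have hE' : ∑ b, aeval x (r' b) * y ^ (b : ℕ) = 0 := by
          rw [← mul_zero (∏ c, aeval x (rs c).2), ← hg, Finset.mul_sum]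
          refine Finset.sum_congr rfl fun b _ => ?_
          rw [hr', map_mul, map_prod, IntermediateField.smul_def, smul_eq_mul, hg' b,
            ← Finset.mul_prod_erase _ (fun c => aeval x (rs c).2) (Finset.mem_univ b)]
          field_simp [hs b]
        have := congrArg (Subtype.val : E → L) hE'
        simpa only [IntermediateField.coe_sum, MulMemClass.coe_mul, SubmonoidClass.coe_pow, hcoe,
          ZeroMemClass.coe_zero] using this
      have h0 := congrFun (hind r' hrel) b₀
      simp only [hr', Pi.zero_apply, mul_eq_zero, Finset.prod_eq_zero_iff] at h0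
      rcases h0 with h0 | ⟨c', -, hc'⟩
      · apply Subtype.ext
        rw [hg' b₀, h0, map_zero, zero_div]
        rfl
      · exact absurd (by rw [hc', map_zero]) (hs c')
    have := hli.fintype_card_le_finrank
    rw [Fintype.card_fin] at this
    exact this

include hE hx in
/-- `[K(j, j_N) : K(j)] = [SL(2, ℤ) : Γ₀(N)]`. -/
theorem finrank_adjoin_eq :
    FiniteDimensional K⟮x⟯ E ∧ Module.finrank K⟮x⟯ E = Nat.card (SL(2, ℤ) ⧸ Gamma0 N) := by
  rw [Nat.card_eq_fintype_card]
  refine finrank_adjoin_pair E x ⟨jqNModC K N, hE ▸ ModularCurve.jqNModC_mem K N⟩ ?_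
    (transcendental_elem E x hx) ?_ ?_
  · show adjoin K {(x : LaurentSeries K), jqNModC K N} = E
    rw [hx, hE]
    rfl
  · rw [hx]
    by_contra! h
    exact not_indep_succ K N fun r hr => h r hr
  · rw [hx]
    exact indep_idx K N

end Finrank

end Fermat.Agent.MF
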