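import Mathlib
import Fermat.Agent.MF.FunctionField

/-!
# Cusp forms are the meromorphic forms integral over level one cusp forms

A cusp form satisfies a monic equation with level one cusp forms as coefficients, and conversely.
The criterion shows that cusp forms are stable under automorphisms of `ℂ`.
-/

noncomputable section

open UpperHalfPlane CongruenceSubgroup Filter Function
open scoped MatrixGroups ModularForm Manifold Topology

namespace Fermat.Agent.MF

/-- A cusp form, unbundled. -/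
structure IsCuspFn (Γ : Subgroup SL(2, ℤ)) (k : ℤ) (f : ℍ → ℂ) : Prop where
  form : IsFormFn Γ k f
  zero : ∀ γ : SL(2, ℤ), IsZeroAtImInfty (f ∣[k] γ)

theorem isCuspFn_coe {Γ : Subgroup SL(2, ℤ)} [Γ.FiniteIndex] {k : ℤ} {F : Type*} [FunLike F ℍ ℂ]
    [CuspFormClass F (Γ : Subgroup (GL (Fin 2) ℝ)) k] (φ : F) : IsCuspFn Γ k φ where
  form := isFormFn_coe φ
  zero γ := by
    have hc : IsCusp ((γ : GL (Fin 2) ℝ) • OnePoint.infty) (Γ : Subgroup (GL (Fin 2) ℝ)) := by
      rw [Subgroup.IsArithmetic.isCusp_iff_isCusp_SL2Z, isCusp_SL2Z_iff']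
      exact ⟨γ, rfl⟩
    exact (OnePoint.isZeroAt_iff rfl).mp (CuspFormClass.zero_at_cusps φ hc)

/-- Bundle an unbundled cusp form. -/
def IsCuspFn.toCuspForm {Γ : Subgroup SL(2, ℤ)} [Γ.FiniteIndex] {k : ℤ} {f : ℍ → ℂ}
    (hf : IsCuspFn Γ k f) : CuspForm Γ k where
  toFun := f
  slash_action_eq' := by
    rintro _ ⟨γ, hγ, rfl⟩
    exact hf.form.slash_eq γ hγ
  holo' := hf.form.mdiff
  zero_at_cusps' {c} hc := by
    rw [Subgroup.IsArithmetic.isCusp_iff_isCusp_SL2Z] at hc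
    rw [OnePoint.isZeroAt_iff_forall_SL2Z hc]
    exact fun γ _ => hf.zero γ

@[simp] theorem IsCuspFn.coe_toCuspForm {Γ : Subgroup SL(2, ℤ)} [Γ.FiniteIndex] {k : ℤ}
    {f : ℍ → ℂ} (hf : IsCuspFn Γ k f) : ⇑hf.toCuspForm = f := rfl

theorem IsQFn.coeff_zero_of_isZeroAtImInfty {f : ℍ → ℂ} (hf : IsQFn f) (h : IsZeroAtImInfty f) :
    (qExpansion 1 f).coeff 0 = 0 :=
  tendsto_nhds_unique hf.tendsto_atImInfty h

variable {Γ : Subgroup SL(2, ℤ)}

/-- A cusp form on a subgroup of finite index is a root of a monic polynomial whose lower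
coefficients are level one cusp forms. -/
theorem IsCuspFn.exists_equation [Fintype (SL(2, ℤ) ⧸ Γ)] {k : ℤ} {f : ℍ → ℂ}
    (hf : IsCuspFn Γ k f) :
    ∃ c : ℕ → ℍ → ℂ,
      (∀ s, IsFormFn ⊤ (((s + 1 : ℕ) : ℤ) * k) (c s) ∧ (qExpansion 1 (c s)).coeff 0 = 0) ∧
      f ^ Fintype.card (SL(2, ℤ) ⧸ Γ) +
        ∑ s ∈ Finset.range (Fintype.card (SL(2, ℤ) ⧸ Γ)),
          c s * f ^ (Fintype.card (SL(2, ℤ) ⧸ Γ) - 1 - s) = 0 := by
  classical
  set G : SL(2, ℤ) ⧸ Γ → ℍ → ℂ := fun q => - conjFn k f q with hG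
  set n := Fintype.card (SL(2, ℤ) ⧸ Γ) with hn
  set e : ℕ → ℍ → ℂ := fun j =>
    ∑ t ∈ Finset.powersetCard j (Finset.univ : Finset (SL(2, ℤ) ⧸ Γ)), ∏ q ∈ t, G q with he
  have hGslash : ∀ q (h : SL(2, ℤ)), G q ∣[k] h = G (h⁻¹ • q) := fun q h => by
    rw [hG]; simp only [SlashAction.neg_slash, conjFn_slash hf.form]
  have hGzero : ∀ q (γ : SL(2, ℤ)), IsZeroAtImInfty (G q ∣[k] γ) := fun q γ => by
    rw [hG]
    simp only [conjFn, SlashAction.neg_slash, ← SlashAction.slash_mul]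
    have h := (hf.zero (q.out⁻¹ * γ)).neg
    simpa [IsZeroAtImInfty, ZeroAtFilter] using h
  have hterm : ∀ (j : ℕ) (t : Finset (SL(2, ℤ) ⧸ Γ)),
      t ∈ Finset.powersetCard j (Finset.univ : Finset (SL(2, ℤ) ⧸ Γ)) →
      ∀ γ : SL(2, ℤ), (∏ q ∈ t, G q) ∣[((j : ℕ) : ℤ) * k] γ = ∏ q ∈ t, G q ∣[k] γ := by
    intro j t ht γ
    rw [← (Finset.mem_powersetCard.mp ht).2, prod_slash_SL2_const]
  have hform : ∀ j : ℕ, IsFormFn ⊤ ((j : ℤ) * k) (e j) := by
    intro j
    refine ⟨fun h _ => ?_, ?_, fun γ => ?_⟩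
    · rw [he]
      simp only [SlashAction.sum_slash]
      rw [Finset.sum_congr rfl fun t ht => hterm j t ht h]
      simp only [hGslash]
      refine Finset.sum_equiv (Equiv.finsetCongr (MulAction.toPerm h⁻¹)) (fun t => ?_)
        (fun t _ => ?_)
      · simp [Finset.mem_powersetCard]
      · simp [Finset.prod_map]
    · exact MDifferentiable.sum fun t _ => MDifferentiable.prod fun q _ =>
        (mdiff_conjFn hf.form q).neg
    · rw [he]
      simp only [SlashAction.sum_slash]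
      refine isBoundedAtImInfty_sum _ fun t ht => ?_
      rw [hterm j t ht]
      exact isBoundedAtImInfty_prod _ fun q _ => (hGzero q γ).boundedAtFilter
  have hzero : ∀ j : ℕ, IsZeroAtImInfty (e (j + 1)) := by
    intro j
    rw [he]
    refine Finset.sum_induction _ IsZeroAtImInfty (fun _ _ ha hb => ha.add hb)
      (Filter.zero_zeroAtFilter _) fun t ht => ?_
    obtain ⟨q, hq⟩ : t.Nonempty := Finset.card_pos.mp (by
      rw [(Finset.mem_powersetCard.mp ht).2]; omega)
    rw [← Finset.mul_prod_erase t G hq]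
    have hz : IsZeroAtImInfty (G q) := by simpa using hGzero q 1
    have hb : IsBoundedAtImInfty (∏ x ∈ t.erase q, G x) :=
      isBoundedAtImInfty_prod _ fun x _ =>
        ((by simpa using hGzero x 1 : IsZeroAtImInfty (G x))).boundedAtFilter
    have := hz.mul_boundedAtFilter hb
    exact this
  refine ⟨fun s => e (s + 1), fun s =>
    ⟨hform _, (hform _).isQFnTop.coeff_zero_of_isZeroAtImInfty (hzero s)⟩, ?_⟩
  have hprod : ∏ q : SL(2, ℤ) ⧸ Γ, (G q + f) = 0 := by
    refine Finset.prod_eq_zero (Finset.mem_univ (QuotientGroup.mk 1)) ?_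
    rw [hG]
    simp [conjFn_one hf.form]
  rw [Finset.prod_add, Finset.sum_powerset, Finset.card_univ, ← hn] at hprod
  have hj : ∀ j, ∑ t ∈ Finset.powersetCard j (Finset.univ : Finset (SL(2, ℤ) ⧸ Γ)),
      (∏ q ∈ t, G q) * ∏ _q ∈ Finset.univ \ t, f = e j * f ^ (n - j) := by
    intro j
    rw [he, Finset.sum_mul]
    refine Finset.sum_congr rfl fun t ht => ?_
    rw [Finset.prod_const, Finset.card_sdiff_of_subset (Finset.subset_univ t), Finset.card_univ,
      (Finset.mem_powersetCard.mp ht).2, ← hn]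
  simp only [hj] at hprod
  rw [Finset.sum_range_succ'] at hprod
  have he0 : e 0 = 1 := by simp [he]
  rw [he0, one_mul, Nat.sub_zero, add_comm] at hprod
  refine Eq.trans ?_ hprod
  congr 1
  refine Finset.sum_congr rfl fun s hs => ?_
  rw [show n - 1 - s = n - (s + 1) by omega]

/-- A root of a monic polynomial with small coefficients is small. -/
theorem norm_le_of_equation {n : ℕ} {a : ℕ → ℂ} {z : ℂ} {ε : ℝ} (hε : 0 < ε)
    (ha : ∀ s < n, ‖a s‖ ≤ ε ^ (s + 1))
    (h : z ^ n + ∑ s ∈ Finset.range n, a s * z ^ (n - 1 - s) = 0) : ‖z‖ ≤ 2 * ε := by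
  by_contra! hz
  have hzpos : 0 < ‖z‖ := by linarith
  have h1 : ‖z‖ ^ n ≤ ∑ s ∈ Finset.range n, ε ^ (s + 1) * ‖z‖ ^ (n - 1 - s) := by
    rw [← norm_pow, eq_neg_of_add_eq_zero_left h, norm_neg]
    refine (norm_sum_le _ _).trans (Finset.sum_le_sum fun s hs => ?_)
    rw [norm_mul, norm_pow]
    exact mul_le_mul_of_nonneg_right (ha s (Finset.mem_range.mp hs)) (by positivity)
  set r := ε / ‖z‖ with hr
  have hr0 : 0 < r := div_pos hε hzpos
  have hr1 : r < 1 / 2 := by rw [hr, div_lt_iff₀ hzpos]; linarith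
  have h2 : ∑ s ∈ Finset.range n, ε ^ (s + 1) * ‖z‖ ^ (n - 1 - s) =
      ‖z‖ ^ n * (r * ∑ s ∈ Finset.range n, r ^ s) := by
    rw [Finset.mul_sum, Finset.mul_sum]
    refine Finset.sum_congr rfl fun s hs => ?_
    have : s < n := Finset.mem_range.mp hs
    rw [hr, ← pow_succ', div_pow]
    field_simp
    rw [← pow_add, show n - 1 - s + (s + 1) = n by omega]
  have h3 : ∑ s ∈ Finset.range n, r ^ s ≤ 1 / (1 - r) := by
    rw [one_div]
    calc ∑ s ∈ Finset.range n, r ^ s ≤ ∑' s : ℕ, r ^ s :=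
        (summable_geometric_of_lt_one hr0.le (by linarith)).sum_le_tsum _ fun _ _ => by positivity
      _ = (1 - r)⁻¹ := tsum_geometric_of_lt_one hr0.le (by linarith)
  rw [h2] at h1
  have h4 : (1 : ℝ) ≤ r * (1 / (1 - r)) := by
    refine le_trans ?_ (mul_le_mul_of_nonneg_left h3 hr0.le)
    exact le_of_mul_le_mul_left (by simpa using h1) (pow_pos hzpos n)
  rw [mul_one_div, le_div_iff₀ (by linarith)] at h4
  linarith

/-- A quotient `F / G` of holomorphic functions that satisfies a monic equation with holomorphic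
coefficients extends holomorphically across the zeros of `G`. -/
theorem exists_mdiff_div {n : ℕ} {F G : ℍ → ℂ} (hF : MDiff F) (hG : MDiff G) (hG0 : G ≠ 0)
    {c : ℕ → ℍ → ℂ} (hc : ∀ s < n, MDiff (c s))
    (hptG : ∀ τ, G τ ≠ 0 → (F τ / G τ) ^ n +
      ∑ s ∈ Finset.range n, c s τ * (F τ / G τ) ^ (n - 1 - s) = 0) :
    ∃ f : ℍ → ℂ, MDiff f ∧ f * G = F ∧ ∀ τ, G τ ≠ 0 → f τ = F τ / G τ := by
  set φ : ℂ → ℂ := fun z => F (ofComplex z) / G (ofComplex z) with hφ
  set f : ℍ → ℂ := fun τ =>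
    if G τ = 0 then limUnder (𝓝[≠] (τ : ℂ)) φ else F τ / G τ with hf
  have hFd : DifferentiableOn ℂ (F ∘ ofComplex) {z | 0 < z.im} := mdifferentiable_iff.mp hF
  have hGd : DifferentiableOn ℂ (G ∘ ofComplex) {z | 0 < z.im} := mdifferentiable_iff.mp hG
  have hopen : IsOpen {z : ℂ | 0 < z.im} := isOpen_upperHalfPlaneSet
  have hfhol : MDiff f := by
    intro τ
    rw [UpperHalfPlane.mdifferentiableAt_iff]
    rcases ne_or_eq (G τ) 0 with hτ | hτ
    · have hev : ∀ᶠ z in 𝓝 (τ : ℂ), G (ofComplex z) ≠ 0 :=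
        (hGd.differentiableAt (hopen.mem_nhds τ.im_pos)).continuousAt.eventually_ne
          (by simpa using hτ)
      refine DifferentiableAt.congr_of_eventuallyEq
        (f := φ) ((hFd.differentiableAt (hopen.mem_nhds τ.im_pos)).div
          (hGd.differentiableAt (hopen.mem_nhds τ.im_pos)) (by simpa using hτ)) ?_
      filter_upwards [hev] with z hz
      simp [hf, hφ, hz]
    · have hne : ∀ᶠ z in 𝓝[≠] (τ : ℂ), G (ofComplex z) ≠ 0 := by
        rcases (hGd.analyticOnNhd hopen (τ : ℂ)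
          τ.im_pos).eventually_eq_zero_or_eventually_ne_zero with h | h
        · refine absurd ?_ hG0
          refine eq_zero_of_frequently (τ := τ) hG ?_
          have h' : ∀ᶠ w : ℍ in 𝓝 τ, G w = 0 := by
            have := (UpperHalfPlane.continuous_coe.tendsto τ).eventually h
            simpa using this
          exact (h'.filter_mono nhdsWithin_le_nhds).frequently
        · exact h
      obtain ⟨u, hu, hu'⟩ := (nhdsWithin_hasBasis (𝓝 (τ : ℂ)).basis_sets _).eventually_iff.mp hne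
      obtain ⟨R, hR, hRsub⟩ := Metric.nhds_basis_closedBall.mem_iff.mp
        (Filter.inter_mem hu (hopen.mem_nhds τ.im_pos))
      set B := Metric.closedBall (τ : ℂ) R with hB
      have hcc : ∀ s, ∃ M, ∀ z ∈ B, s < n → ‖c s (ofComplex z)‖ ≤ M := by
        intro s
        by_cases hs : s < n
        · obtain ⟨M, hM⟩ := (isCompact_closedBall (τ : ℂ) R).exists_bound_of_continuousOn
            (((UpperHalfPlane.mdifferentiable_iff.mp (hc s hs)).continuousOn).mono
              (fun z hz => (hRsub hz).2))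
          exact ⟨M, fun z hz _ => hM z hz⟩
        · exact ⟨0, fun z _ h => absurd h hs⟩
      choose M hM using hcc
      set E : ℝ := 1 + ∑ s ∈ Finset.range n, |M s| with hE
      have hE1 : 1 ≤ E := le_add_of_nonneg_right (Finset.sum_nonneg fun _ _ => abs_nonneg _)
      have hbd : BddAbove (norm ∘ φ '' (B \ {(τ : ℂ)})) := by
        refine ⟨2 * E, ?_⟩
        rintro _ ⟨z, ⟨hzB, hzne⟩, rfl⟩
        refine norm_le_of_equation (lt_of_lt_of_le one_pos hE1) (fun s hs => ?_)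
          (hptG _ (hu' ⟨(hRsub hzB).1, hzne⟩))
        calc ‖c s (ofComplex z)‖ ≤ M s := hM s z hzB hs
          _ ≤ |M s| := le_abs_self _
          _ ≤ ∑ s ∈ Finset.range n, |M s| :=
            Finset.single_le_sum (fun i _ => abs_nonneg (M i)) (Finset.mem_range.mpr hs)
          _ ≤ E := le_add_of_nonneg_left zero_le_one
          _ ≤ E ^ (s + 1) := le_self_pow₀ hE1 (Nat.succ_ne_zero s)
      have hd : DifferentiableOn ℂ φ (B \ {(τ : ℂ)}) := by
        intro z hz
        refine DifferentiableAt.differentiableWithinAt ?_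
        exact (hFd.differentiableAt (hopen.mem_nhds (hRsub hz.1).2)).div
          (hGd.differentiableAt (hopen.mem_nhds (hRsub hz.1).2)) (hu' ⟨(hRsub hz.1).1, hz.2⟩)
      have hmem : B ∈ 𝓝 (τ : ℂ) := Metric.closedBall_mem_nhds _ hR
      refine DifferentiableAt.congr_of_eventuallyEq
        ((Complex.differentiableOn_update_limUnder_of_bddAbove hmem hd hbd).differentiableAt
          hmem) ?_
      filter_upwards [hmem] with z hz
      rcases eq_or_ne z (τ : ℂ) with rfl | hzne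
      · simp [hf, hτ]
      · have : G (ofComplex z) ≠ 0 := hu' ⟨(hRsub hz).1, hzne⟩
        simp [hf, hφ, hzne, this]
  have hfG : f * G = F := by
    have h0 : G * (f * G - F) = 0 := by
      funext τ
      rcases eq_or_ne (G τ) 0 with h | h
      · simp [h]
      · simp [hf, h]
    exact sub_eq_zero.mp (((mul_eq_zero_iff hG ((hfhol.mul hG).sub hF)).mp
      h0).resolve_left hG0)
  exact ⟨f, hfhol, hfG, fun τ hτ => by simp [hf, hτ]⟩

/-- A root of a monic equation with level one cusp forms as coefficients vanishes at all cusps. -/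
theorem isZeroAtImInfty_slash_of_equation {k : ℤ} {n : ℕ} {f : ℍ → ℂ} {c : ℕ → ℍ → ℂ}
    (hc : ∀ s < n, IsFormFn ⊤ (((s + 1 : ℕ) : ℤ) * k) (c s) ∧ (qExpansion 1 (c s)).coeff 0 = 0)
    (hfeq : f ^ n + ∑ s ∈ Finset.range n, c s * f ^ (n - 1 - s) = 0) (γ : SL(2, ℤ)) :
    IsZeroAtImInfty (f ∣[k] γ) := by
  have hγeq : ∀ τ, (f ∣[k] γ) τ ^ n +
      ∑ s ∈ Finset.range n, c s τ * (f ∣[k] γ) τ ^ (n - 1 - s) = 0 := by
    intro τ
    have h := congrFun hfeq (γ • τ)
    simp only [Pi.add_apply, Finset.sum_apply, Pi.mul_apply, Pi.pow_apply, Pi.zero_apply] at h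
    rw [ModularForm.SL_slash_apply]
    set D := denom (γ : GL (Fin 2) ℝ) τ ^ (-k) with hD
    rw [← zero_mul (D ^ n), ← h, add_mul, Finset.sum_mul, mul_pow]
    congr 1
    refine Finset.sum_congr rfl fun s hs => ?_
    have hs' : s < n := Finset.mem_range.mp hs
    have hinv := congrFun ((hc s hs').1.slash_eq γ trivial) τ
    rw [ModularForm.SL_slash_apply] at hinv
    have hDpow : D ^ (s + 1) = denom (γ : GL (Fin 2) ℝ) τ ^ (-(((s + 1 : ℕ) : ℤ) * k)) := by
      rw [hD, ← zpow_natCast, ← zpow_mul]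
      ring_nf
    rw [← hinv, ← hDpow, mul_pow, show D ^ n = D ^ (n - 1 - s) * D ^ (s + 1) by
      rw [← pow_add, show n - 1 - s + (s + 1) = n by omega]]
    ring
  rw [UpperHalfPlane.IsZeroAtImInfty, Filter.ZeroAtFilter, Metric.tendsto_nhds]
  intro ε hε
  have h4 : 0 < ε / 4 := by positivity
  have hev : ∀ᶠ τ in atImInfty, ∀ s ∈ Finset.range n, ‖c s τ‖ ≤ (ε / 4) ^ (s + 1) := by
    rw [Finset.eventually_all]
    intro s hs
    have hz := (hc s (Finset.mem_range.mp hs)).1.isZeroAtImInfty (hc s (Finset.mem_range.mp hs)).2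
    filter_upwards [(Metric.tendsto_nhds.mp hz) _ (pow_pos h4 (s + 1))] with τ hτ
    rw [dist_zero_right] at hτ
    exact hτ.le
  filter_upwards [hev] with τ hτ
  rw [dist_zero_right]
  have := norm_le_of_equation h4 (fun s hs => hτ s (Finset.mem_range.mpr hs)) (hγeq τ)
  linarith

/-- A ratio of forms integral over level one cusp forms is a cusp form. -/
theorem exists_cuspFn_of_equation (hT : ModularGroup.T ∈ Γ) {k K : ℤ} {n : ℕ} {F G : ℍ → ℂ}
    (hF : IsFormFn Γ (K + k) F)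
    (hG : IsFormFn Γ K G) (hG0 : G ≠ 0) {c : ℕ → ℍ → ℂ}
    (hc : ∀ s < n, IsFormFn ⊤ (((s + 1 : ℕ) : ℤ) * k) (c s) ∧ (qExpansion 1 (c s)).coeff 0 = 0)
    {y : LaurentSeries ℂ} (hy : y * lq G = lq F)
    (heq : y ^ n + ∑ s ∈ Finset.range n, lq (c s) * y ^ (n - 1 - s) = 0) :
    ∃ f, IsCuspFn Γ k f ∧ lq f = y := by
  classical
  have hGq := hG.isQFn hT
  have hFq := hF.isQFn hT
  have hcq : ∀ s ∈ Finset.range n, IsQFn (c s) := fun s hs =>
    (hc s (Finset.mem_range.mp hs)).1.isQFnTop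
  have hterm : ∀ s ∈ Finset.range n, IsQFn (c s * F ^ (n - 1 - s) * G ^ (s + 1)) := fun s hs =>
    ((hcq s hs).mul (hFq.pow _)).mul (hGq.pow _)
  have hI : F ^ n + ∑ s ∈ Finset.range n, c s * F ^ (n - 1 - s) * G ^ (s + 1) = 0 := by
    rw [← lq_eq_zero_iff ((hFq.pow n).add (IsQFn.sum _ hterm)),
      lq_add (hFq.pow n) (IsQFn.sum _ hterm), lq_sum _ hterm, lq_pow hFq, ← hy,
      show (0 : LaurentSeries ℂ) = (y ^ n + ∑ s ∈ Finset.range n, lq (c s) * y ^ (n - 1 - s)) *
        lq G ^ n by rw [heq, zero_mul], add_mul, mul_pow, Finset.sum_mul]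
    congr 1
    refine Finset.sum_congr rfl fun s hs => ?_
    have : s < n := Finset.mem_range.mp hs
    rw [lq_mul ((hcq s hs).mul (hFq.pow _)) (hGq.pow _), lq_mul (hcq s hs) (hFq.pow _), lq_pow hFq,
      lq_pow hGq, ← hy, mul_pow, show n = (n - 1 - s) + (s + 1) by omega, pow_add]
    rw [show n - 1 - s + (s + 1) - 1 - s = n - 1 - s by omega]
    ring
  have hptG : ∀ τ, G τ ≠ 0 → (F τ / G τ) ^ n +
      ∑ s ∈ Finset.range n, c s τ * (F τ / G τ) ^ (n - 1 - s) = 0 := by
    intro τ hτ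
    have h := congrFun hI τ
    simp only [Pi.add_apply, Finset.sum_apply, Pi.mul_apply, Pi.pow_apply, Pi.zero_apply] at h
    refine mul_right_cancel₀ (pow_ne_zero n hτ) ?_
    rw [zero_mul, ← h, add_mul, Finset.sum_mul, ← mul_pow, div_mul_cancel₀ _ hτ]
    congr 1
    refine Finset.sum_congr rfl fun s hs => ?_
    have : s < n := Finset.mem_range.mp hs
    rw [show G τ ^ n = G τ ^ (n - 1 - s) * G τ ^ (s + 1) by
      rw [← pow_add, show n - 1 - s + (s + 1) = n by omega],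
      mul_assoc, ← mul_assoc ((F τ / G τ) ^ _), ← mul_pow, div_mul_cancel₀ _ hτ, mul_assoc]
  obtain ⟨f, hfhol, hfG, hfdiv⟩ :=
    exists_mdiff_div hF.mdiff hG.mdiff hG0 (fun s hs => (hc s hs).1.mdiff) hptG
  have hfinv : ∀ γ ∈ Γ, f ∣[k] γ = f := by
    intro γ hγ
    refine mdiff_mul_left_cancel hG.mdiff (hfhol.slash k _) hfhol hG0 ?_
    have h1 : (G * f) ∣[K + k] γ = G * f := by
      rw [mul_comm G f, hfG]
      exact hF.slash_eq γ hγ
    rw [ModularForm.mul_slash_SL2, hG.slash_eq γ hγ] at h1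
    exact h1
  have hfeq : f ^ n + ∑ s ∈ Finset.range n, c s * f ^ (n - 1 - s) = 0 := by
    set P := f ^ n + ∑ s ∈ Finset.range n, c s * f ^ (n - 1 - s) with hP
    have hPd : MDiff P := (hfhol.pow n).add (MDifferentiable.sum fun s hs =>
      ((hc s (Finset.mem_range.mp hs)).1.mdiff.mul (hfhol.pow _)))
    have h0 : P * G = 0 := by
      funext τ
      rcases eq_or_ne (G τ) 0 with h | h
      · simp [h]
      · have := hptG τ h
        simp [hP, hfdiv τ h, this]
    exact ((mul_eq_zero_iff hPd hG.mdiff).mp h0).resolve_right hG0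
  have hfzero : ∀ γ : SL(2, ℤ), IsZeroAtImInfty (f ∣[k] γ) :=
    isZeroAtImInfty_slash_of_equation hc hfeq
  have hfq : IsFormFn Γ k f := ⟨hfinv, hfhol, fun γ => (hfzero γ).boundedAtFilter⟩
  refine ⟨f, ⟨hfq, hfzero⟩, mul_right_cancel₀ (fun h => hG0 ((lq_eq_zero_iff hGq).mp h)) ?_⟩
  rw [hy, ← lq_mul (hfq.isQFn hT) hGq, hfG]

end Fermat.Agent.MF
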