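import Mathlib

/-!
# The complex numbers fixed by all ring endomorphisms of `ℂ` are rational

This is the Galois descent step in the integral structure on spaces of cusp forms.
-/

noncomputable section

namespace Fermat.Agent.MF

open Polynomial in
/-- An automorphism of the `R`-adjunction of a transcendence basis extends to `ℂ`. -/
theorem exists_extend {R : Type*} [CommRing R] [Algebra R ℂ] {ι : Type*} {v : ι → ℂ}
    (hv : IsTranscendenceBasis R v) (e : MvPolynomial ι R ≃+* MvPolynomial ι R) :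
    ∃ σ : ℂ →+* ℂ, ∀ p, σ (MvPolynomial.aeval v p) = MvPolynomial.aeval v (e p) := by
  let := IsAlgClosed.isAlgClosure_of_transcendence_basis v hv
  let E : Algebra.adjoin R (Set.range v) ≃+* Algebra.adjoin R (Set.range v) :=
    (hv.1.aevalEquiv.symm.toRingEquiv.trans e).trans hv.1.aevalEquiv.toRingEquiv
  refine ⟨(IsAlgClosure.equivOfEquiv ℂ ℂ E).toRingHom, fun p => ?_⟩
  have h := IsAlgClosure.equivOfEquiv_algebraMap ℂ ℂ E (hv.1.aevalEquiv p)
  simp only [E, RingEquiv.trans_apply, AlgEquiv.coe_ringEquiv, AlgEquiv.symm_apply_apply]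
    at h
  exact h

/-- An irrational complex number is moved by some endomorphism of `ℂ`. -/
theorem exists_ringHom_ne {x : ℂ} (hx : x ∉ Set.range ((↑) : ℚ → ℂ)) :
    ∃ σ : ℂ →+* ℂ, σ x ≠ x := by
  by_cases halg : IsAlgebraic ℚ x
  · have hint : IsIntegral ℚ x := halg.isIntegral
    have hdeg : 2 ≤ (minpoly ℚ x).natDegree := by
      rw [minpoly.two_le_natDegree_iff hint]
      rintro ⟨q, hq⟩
      exact hx ⟨q, by rw [← hq]; simp⟩
    obtain ⟨y, hy, hyne⟩ : ∃ y ∈ (minpoly ℚ x).rootSet ℂ, y ≠ x := by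
      by_contra! h
      have hsub : (minpoly ℚ x).rootSet ℂ ⊆ {x} := fun z hz => h z hz
      have hcard : Fintype.card ((minpoly ℚ x).rootSet ℂ) = (minpoly ℚ x).natDegree :=
        Polynomial.card_rootSet_eq_natDegree (minpoly.irreducible hint).separable
          (IsAlgClosed.splits _)
      have h1 := Set.card_le_card hsub
      rw [hcard] at h1
      simp at h1
      omega
    let L := algebraicClosure ℚ ℂ
    have hxL : x ∈ L := by rw [mem_algebraicClosure_iff]; exact halg
    have hyint : IsAlgebraic ℚ y :=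
      ⟨minpoly ℚ x, minpoly.ne_zero hint, (Polynomial.mem_rootSet.mp hy).2⟩
    have hyL : y ∈ L := by rw [mem_algebraicClosure_iff]; exact hyint
    have : IsAlgClosure ℚ L := algebraicClosure.isAlgClosure ℚ ℂ
    have : Normal ℚ L := IsAlgClosure.normal ℚ L
    have hroot : Polynomial.aeval (⟨y, hyL⟩ : L) (minpoly ℚ (⟨x, hxL⟩ : L)) = 0 := by
      apply Subtype.ext
      have h0 : minpoly ℚ (⟨x, hxL⟩ : L) = minpoly ℚ x :=
        (minpoly.algebraMap_eq (algebraMap L ℂ).injective (⟨x, hxL⟩ : L)).symm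
      rw [h0]
      exact (Polynomial.aeval_algHom_apply L.val _ _).symm.trans (Polynomial.mem_rootSet.mp hy).2
    obtain ⟨τ, hτ⟩ := minpoly.exists_algEquiv_of_root'
      (Algebra.IsAlgebraic.isAlgebraic (⟨x, hxL⟩ : L)) hroot
    obtain ⟨s, hs⟩ := exists_isTranscendenceBasis L ℂ
    obtain ⟨σ, hσ⟩ := exists_extend hs (MvPolynomial.mapEquiv _ τ.toRingEquiv)
    refine ⟨σ, ?_⟩
    have h := hσ (MvPolynomial.C ⟨x, hxL⟩)
    simp only [MvPolynomial.aeval_C, MvPolynomial.mapEquiv_apply, MvPolynomial.map_C,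
      RingHom.coe_coe, AlgEquiv.coe_ringEquiv, hτ] at h
    exact h.trans_ne hyne
  · have hind : AlgebraicIndepOn ℚ id ({x} : Set ℂ) := by
      rw [AlgebraicIndepOn, algebraicIndependent_unique_type_iff]
      exact halg
    obtain ⟨t, ht, hbas⟩ := exists_isTranscendenceBasis_superset hind
    let e : MvPolynomial t ℚ ≃ₐ[ℚ] MvPolynomial t ℚ :=
      AlgEquiv.ofAlgHom (MvPolynomial.aeval fun i => MvPolynomial.X i + 1)
        (MvPolynomial.aeval fun i => MvPolynomial.X i - 1) (by ext; simp) (by ext; simp)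
    obtain ⟨σ, hσ⟩ := exists_extend hbas e.toRingEquiv
    refine ⟨σ, ?_⟩
    have h := hσ (MvPolynomial.X ⟨x, ht rfl⟩)
    simp [e] at h
    rw [h]
    simp

/-- A complex number fixed by all endomorphisms of `ℂ` is rational. -/
theorem exists_rat_of_forall_fixed {x : ℂ} (h : ∀ σ : ℂ →+* ℂ, σ x = x) :
    ∃ q : ℚ, (q : ℂ) = x := by
  by_contra hn
  obtain ⟨σ, hσ⟩ := exists_ringHom_ne (x := x) hn
  exact hσ (h σ)

end Fermat.Agent.MF
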