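import Mathlib
import Fermat.Prelude.Def_CuspForm_HeckeAlgebra
import Fermat.Prelude.Def_CuspForm_IntegralStructure
import Fermat.Prelude.Thm_CuspForm_intLattice_fg
import Fermat.Prelude.Thm_CuspForm_mem_intLattice_of_mem_heckeAlgebra
import Fermat.Prelude.Thm_ModularForm_sturm_bound_Gamma0
import Fermat.Agent.MF.CuspChar
import Fermat.Agent.MF.Descent
import Fermat.Agent.MF.Endo

/-!
# Inputs for the integral structure on cusp forms on `Γ₀(N)`

Rational series in `ℂ(j, j_N)` are ratios of integral ones, and endomorphisms of `ℂ` preserve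
cusp forms of even weight; these are the two inputs of `MF.IntegralBasis`.
-/

noncomputable section

open UpperHalfPlane CongruenceSubgroup Filter Function
open ModularCurve (coeffMap jqModC jqNModC modularFunctionFieldC)
open scoped MatrixGroups ModularForm Manifold Topology

namespace Fermat.Agent.MF

/-- An integral power series as a rational Laurent series. -/
def intQS : PowerSeries ℤ →+* LaurentSeries ℚ :=
  (HahnSeries.ofPowerSeries ℤ ℚ).comp (PowerSeries.map (Int.castRingHom ℚ))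

theorem intQS_injective : Function.Injective intQS := by
  intro a b h
  rw [intQS, RingHom.comp_apply, RingHom.comp_apply] at h
  exact PowerSeries.map_injective (Int.castRingHom ℚ) Int.cast_injective
    (HahnSeries.ofPowerSeries_injective h)

theorem lq_eq_coeffMap {f : ℍ → ℂ} {y : PowerSeries ℤ}
    (h : qExpansion 1 f = y.map (Int.castRingHom ℂ)) :
    lq f = coeffMap (algebraMap ℚ ℂ) (intQS y) := by
  rw [lq, h, intQS, RingHom.comp_apply, ModularCurve.coeffMap_ofPowerSeries,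
    ← RingHom.comp_apply (PowerSeries.map _) (PowerSeries.map _), ← PowerSeries.map_comp,
    RingHom.ext_int ((algebraMap ℚ ℂ).comp (Int.castRingHom ℚ)) (Int.castRingHom ℂ)]

theorem coeffMap_lq_of_intQ {f : ℍ → ℂ} (h : IntQ f) (σ : ℂ →+* ℂ) :
    coeffMap σ (lq f) = lq f := by
  obtain ⟨y, hy⟩ := h
  rw [lq_eq_coeffMap hy, ModularCurve.coeffMap_coeffMap]
  exact ModularCurve.coeffMap_congr (RingHom.ext_rat _ _) _

theorem IntQ.comp_scale {f : ℍ → ℂ} (hf : IsQFn f) (h : IntQ f) (N : ℕ) [NeZero N] :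
    IntQ (f ∘ scale N) := by
  obtain ⟨y, hy⟩ := h
  refine ⟨PowerSeries.mk fun m => if N ∣ m then y.coeff (m / N) else 0, ?_⟩
  ext m
  rw [← lq_coeff_nat, lq_comp_scale hf, PowerSeries.coeff_map, PowerSeries.coeff_mk]
  by_cases hm : N ∣ m
  · obtain ⟨r, rfl⟩ := hm
    rw [if_pos (dvd_mul_right N r), Nat.cast_mul, ModularCurve.qExpand_coeff_mul, lq_coeff_nat, hy,
      PowerSeries.coeff_map, Nat.mul_div_cancel_left _ (NeZero.pos N)]
  · rw [if_neg hm, ModularCurve.qExpand_coeff_of_not_dvd N _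
      (fun h => hm (by exact_mod_cast h)), map_zero]

/-- Laurent series that are ratios of integral power series. -/
def intFrac : IntermediateField ℚ (LaurentSeries ℚ) where
  carrier := {z | ∃ a b : PowerSeries ℤ, b ≠ 0 ∧ z * intQS b = intQS a}
  mul_mem' := by
    rintro x y ⟨a, b, hb, h⟩ ⟨a', b', hb', h'⟩
    exact ⟨a * a', b * b', mul_ne_zero hb hb', by rw [map_mul, map_mul, ← h, ← h']; ring⟩
  one_mem' := ⟨1, 1, one_ne_zero, by rw [map_one, mul_one]⟩
  add_mem' := by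
    rintro x y ⟨a, b, hb, h⟩ ⟨a', b', hb', h'⟩
    exact ⟨a * b' + b * a', b * b', mul_ne_zero hb hb', by
      rw [map_mul, map_add, map_mul, map_mul, ← h, ← h']; ring⟩
  zero_mem' := ⟨0, 1, one_ne_zero, by rw [map_zero, zero_mul]⟩
  algebraMap_mem' c := by
    refine ⟨(c.num : PowerSeries ℤ), (c.den : PowerSeries ℤ), ?_, ?_⟩
    · intro h
      have := congrArg PowerSeries.constantCoeff h
      simp at this
    · rw [map_intCast, map_natCast, ← map_natCast (algebraMap ℚ (LaurentSeries ℚ)), ← map_mul,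
        Rat.mul_den_eq_num, map_intCast]
  inv_mem' := by
    rintro x ⟨a, b, hb, h⟩
    rcases eq_or_ne x 0 with rfl | hx
    · exact ⟨0, 1, one_ne_zero, by rw [inv_zero, map_zero, zero_mul]⟩
    refine ⟨b, a, fun ha => hb (intQS_injective ?_), by rw [← h, inv_mul_cancel_left₀ hx]⟩
    rw [ha, map_zero, mul_eq_zero] at h
    rw [map_zero]
    exact h.resolve_left hx

theorem mem_intFrac_of_mul_eq {z : LaurentSeries ℚ} {a b : PowerSeries ℤ} (hb : b ≠ 0)
    (h : z * intQS b = intQS a) : z ∈ intFrac := ⟨a, b, hb, h⟩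

theorem intQS_mem_intFrac (a : PowerSeries ℤ) : intQS a ∈ intFrac :=
  ⟨a, 1, one_ne_zero, by rw [map_one, mul_one]⟩

theorem modularFunctionFieldC_rat_le_intFrac (N : ℕ) [NeZero N] :
    modularFunctionFieldC ℚ N ≤ intFrac := by
  rw [modularFunctionFieldC, IntermediateField.adjoin_le_iff]
  have hinj := coeffMap_injective (algebraMap ℚ ℂ).injective
  rintro x (rfl | rfl)
  · obtain ⟨a, ha⟩ := (intQ_E4.pow isFormFn_E4.isQFnTop 3)
    obtain ⟨b, hb⟩ := intQ_delta
    refine mem_intFrac_of_mul_eq (a := a) (b := b) ?_ (hinj ?_)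
    · rintro rfl
      apply lq_delta_ne_zero
      rw [lq, hb, map_zero, map_zero]
    · rw [map_mul, ModularCurve.coeffMap_jqModC, ← lq_eq_coeffMap hb, ← lq_eq_coeffMap ha,
        jqModC_mul_lq_delta, lq_pow isFormFn_E4.isQFnTop]
  · obtain ⟨a, ha⟩ : IntQ (numN N) :=
      (intQ_E4.pow isFormFn_E4.isQFnTop 3).comp_scale (isFormFn_E4.isQFnTop.pow 3) N
    obtain ⟨b, hb⟩ : IntQ (denN N) := intQ_delta.comp_scale isFormFn_delta.isQFnTop N
    refine mem_intFrac_of_mul_eq (a := a) (b := b) ?_ (hinj ?_)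
    · rintro rfl
      apply lq_denN_ne_zero N
      rw [lq, hb, map_zero, map_zero]
    · rw [map_mul, ModularCurve.coeffMap_jqNModC, ← lq_eq_coeffMap hb, ← lq_eq_coeffMap ha,
        lq_numN]

/-- The auxiliary form `(E₄⁴E₆)^r` of weight `22r`. -/
def auxForm (r : ℕ) : ℍ → ℂ := (E4fn ^ 4 * E6fn ^ 1) ^ r

theorem isFormFn_auxForm (r : ℕ) : IsFormFn ⊤ (22 * (r : ℤ)) (auxForm r) :=
  (((isFormFn_E4.pow 4).mul (isFormFn_E6.pow 1)).pow r).cast (by push_cast; ring)

theorem intQ_auxForm (r : ℕ) : IntQ (auxForm r) :=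
  IntQ.pow ((isFormFn_E4.isQFnTop.pow 4).mul (isFormFn_E6.isQFnTop.pow 1))
    (IntQ.mul (isFormFn_E4.isQFnTop.pow 4) (isFormFn_E6.isQFnTop.pow 1)
      (intQ_E4.pow isFormFn_E4.isQFnTop 4) (intQ_E6.pow isFormFn_E6.isQFnTop 1)) r

theorem auxForm_ne_zero (r : ℕ) : auxForm r ≠ 0 := by
  intro h
  have h' : (qExpansion 1 (E4fn ^ 4 * E6fn ^ 1)).coeff 0 = 1 := qExpansion_E4_E6_coeff_zero 4 1
  have hq : IsQFn (E4fn ^ 4 * E6fn ^ 1) :=
    (isFormFn_E4.isQFnTop.pow 4).mul (isFormFn_E6.isQFnTop.pow 1)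
  have h0 : lq (auxForm r) = 0 := by rw [h, lq_zero]
  rw [auxForm, lq_pow hq] at h0
  have h1 := congrArg (fun z : LaurentSeries ℂ => z.coeff ((0 : ℕ) : ℤ))
    (eq_zero_of_pow_eq_zero h0)
  simp only [lq_coeff_nat, HahnSeries.coeff_zero, h'] at h1
  exact one_ne_zero h1

variable (N : ℕ) [NeZero N]

theorem coeffMap_mem_modularFunctionFieldC (σ : ℂ →+* ℂ) {x : LaurentSeries ℂ}
    (hx : x ∈ modularFunctionFieldC ℂ N) : coeffMap σ x ∈ modularFunctionFieldC ℂ N := by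
  induction hx using IntermediateField.adjoin_induction ℂ with
  | mem y hy =>
    rcases hy with rfl | rfl
    · rw [ModularCurve.coeffMap_jqModC]; exact ModularCurve.jqModC_mem ℂ N
    · rw [ModularCurve.coeffMap_jqNModC]; exact ModularCurve.jqNModC_mem ℂ N
  | algebraMap c =>
    rw [ModularCurve.coeffMap_algebraMap]
    exact IntermediateField.algebraMap_mem _ _
  | add y z _ _ hy hz => rw [map_add]; exact add_mem hy hz
  | inv y _ hy => rw [map_inv₀]; exact inv_mem hy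
  | mul y z _ _ hy hz => rw [map_mul]; exact mul_mem hy hz

theorem exists_levelOne_galois (σ : ℂ →+* ℂ) {k : ℤ} {c : ℍ → ℂ} (hc : IsFormFn ⊤ k c)
    (h0 : (qExpansion 1 c).coeff 0 = 0) :
    ∃ c', (IsFormFn ⊤ k c' ∧ (qExpansion 1 c').coeff 0 = 0) ∧ lq c' = coeffMap σ (lq c) := by
  have hspan := hc.mem_span_intCuspForms h0
  suffices ∀ b ∈ Submodule.span ℂ (intCuspForms k), IsQFn b ∧
      ∃ c', (IsFormFn ⊤ k c' ∧ (qExpansion 1 c').coeff 0 = 0) ∧ lq c' = coeffMap σ (lq b) from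
    (this c hspan).2
  intro b hb
  induction hb using Submodule.span_induction with
  | mem B hB =>
    exact ⟨hB.1.isQFnTop, B, ⟨hB.1, hB.2.2⟩, (coeffMap_lq_of_intQ hB.2.1 σ).symm⟩
  | zero => exact ⟨IsQFn.const 0, 0, ⟨IsFormFn.zero, by simp [qExpansion_zero]⟩, by simp⟩
  | add a b _ _ ha hb =>
    obtain ⟨hqa, a', ⟨ha', ha0⟩, hae⟩ := ha
    obtain ⟨hqb, b', ⟨hb', hb0⟩, hbe⟩ := hb
    refine ⟨hqa.add hqb, a' + b', ⟨ha'.add hb', ?_⟩, ?_⟩
    · rw [qExpansion_add ha'.isQFnTop.analyticAt hb'.isQFnTop.analyticAt, map_add, ha0, hb0,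
        add_zero]
    · rw [lq_add ha'.isQFnTop hb'.isQFnTop, lq_add hqa hqb, map_add, hae, hbe]
  | smul t a _ ha =>
    obtain ⟨hqa, a', ⟨ha', ha0⟩, hae⟩ := ha
    refine ⟨hqa.smul t, σ t • a', ⟨ha'.smul _, ?_⟩, ?_⟩
    · rw [qExpansion_smul ha'.isQFnTop.analyticAt, PowerSeries.coeff_smul, ha0, smul_zero]
    · rw [lq_smul ha'.isQFnTop, lq_smul hqa, map_mul, hae,
        show coeffMap σ (HahnSeries.C t) = HahnSeries.C (σ t) from
          ModularCurve.coeffMap_single σ 0 t]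

attribute [local instance] cosetFintype

/-- The monic equation of a cusp form, on expansions. -/
theorem exists_lq_equation {k : ℤ} {f : ℍ → ℂ} (hf : IsCuspFn (Gamma0 N) k f) :
    ∃ c : ℕ → ℍ → ℂ,
      (∀ s, IsFormFn ⊤ (((s + 1 : ℕ) : ℤ) * k) (c s) ∧ (qExpansion 1 (c s)).coeff 0 = 0) ∧
      lq f ^ idx N + ∑ s ∈ Finset.range (idx N), lq (c s) * lq f ^ (idx N - 1 - s) = 0 := by
  obtain ⟨c, hc, heq⟩ := hf.exists_equation
  refine ⟨c, hc, ?_⟩
  have hfq := hf.form.isQFn0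
  have h := congrArg lq heq
  rw [lq_zero, lq_add (hfq.pow _) (IsQFn.sum _ fun s _ => (hc s).1.isQFnTop.mul (hfq.pow _)),
    lq_pow hfq, lq_sum _ fun s _ => (hc s).1.isQFnTop.mul (hfq.pow _)] at h
  refine (Eq.trans ?_ h)
  congr 1
  exact Finset.sum_congr rfl fun s _ => by rw [lq_mul (hc s).1.isQFnTop (hfq.pow _), lq_pow hfq]

/-- `Aut(ℂ)`, and indeed every endomorphism, preserves cusp forms of even weight. -/
theorem exists_cusp_galois (r : ℕ) (σ : ℂ →+* ℂ) {f : ℍ → ℂ}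
    (hf : IsCuspFn (Gamma0 N) (2 * (r : ℤ)) f) :
    ∃ f', IsCuspFn (Gamma0 N) (2 * (r : ℤ)) f' ∧ lq f' = coeffMap σ (lq f) := by
  set H := auxForm r
  have hH := isFormFn_auxForm r
  have hHT := hH.mono (le_top : Gamma0 N ≤ ⊤)
  have hfH : IsFormFn (Gamma0 N) (12 * ((2 * r : ℕ) : ℤ)) (f * H) :=
    (hf.form.mul hHT).cast (by push_cast; ring)
  obtain ⟨x, hx, hxeq⟩ := lq_div_delta_pow_mem N (2 * r) hfH
  obtain ⟨K', F', G', hF', hG', hG0', hratio⟩ :=
    (mem_modularFunctionFieldC_iff N).mp (coeffMap_mem_modularFunctionFieldC N σ hx)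
  have hΔ := isFormFn_delta.mono (le_top : Gamma0 N ≤ ⊤)
  obtain ⟨c, hc, heq⟩ := exists_lq_equation N hf
  choose c' hc' hc'eq using fun s => exists_levelOne_galois σ (hc s).1 (hc s).2
  refine exists_cuspFn_of_equation (T_mem_Gamma0 N) (K := 22 * (r : ℤ) + K') (n := idx N) (c := c')
    (F := deltaFn ^ (2 * r) * F') (G := H * G')
    (((hΔ.pow (2 * r)).mul hF').cast (by push_cast; ring)) (hHT.mul hG') ?_ (fun s _ => hc' s) ?_ ?_
  · intro h0
    exact ((mul_eq_zero_iff hH.mdiff hG'.mdiff).mp h0).elim (auxForm_ne_zero r) hG0'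
  · have h := congrArg (coeffMap σ) hxeq
    rw [lq_mul hf.form.isQFn0 hH.isQFnTop, map_mul, map_mul, map_pow,
      coeffMap_lq_of_intQ (intQ_auxForm r), coeffMap_lq_of_intQ intQ_delta] at h
    rw [lq_mul hHT.isQFn0 hG'.isQFn0, lq_mul (hΔ.isQFn0.pow _) hF'.isQFn0, lq_pow hΔ.isQFn0,
      ← hratio, ← mul_assoc, h]
    ring
  · simp only [hc'eq, ← map_pow, ← map_mul, ← map_sum, ← map_add, heq, map_zero]

end Fermat.Agent.MF
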