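import Mathlib
import Fermat.Agent.MF.IntegralStructure

/-!
# Rational descent and bounded denominators; `HasIntegralStructure`

Cusp forms on `Γ₀(N)` with rational expansion have bounded denominators, hence an integral
structure exists in every weight and the Hecke algebras are finite over `ℤ`.
-/

noncomputable section

open UpperHalfPlane CongruenceSubgroup Filter Function
open ModularCurve (coeffMap jqModC jqNModC modularFunctionFieldC)
open scoped MatrixGroups ModularForm Manifold Topology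

namespace Fermat.Agent.MF

/-- A subspace of `K^ι` stable under enough endomorphisms is spanned by its fixed vectors. -/
theorem le_span_fixed {K ι : Type*} [Field K] [Fintype ι] [DecidableEq ι] (W : Submodule K (ι → K))
    (hW : ∀ σ : K →+* K, ∀ w ∈ W, (fun i => σ (w i)) ∈ W) :
    W ≤ Submodule.span K {w | w ∈ W ∧ ∀ (σ : K →+* K) i, σ (w i) = w i} := by
  classical
  set e : ι → ι → K := fun i => Pi.single i 1 with he
  obtain ⟨κ, a, _, hsp, hli⟩ := exists_linearIndependent' K (fun i => W.mkQ (e i))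
  set U := Submodule.span K (Set.range (e ∘ a)) with hU
  have hdisj : ∀ v ∈ W, v ∈ U → v = 0 := by
    intro v hv hvU
    obtain ⟨l, hl⟩ := Finsupp.mem_span_range_iff_exists_finsupp.mp hvU
    have : Finsupp.linearCombination K ((fun i => W.mkQ (e i)) ∘ a) l = 0 := by
      rw [show ((fun i => W.mkQ (e i)) ∘ a) = W.mkQ ∘ (e ∘ a) from rfl,
        ← Finsupp.apply_linearCombination, Finsupp.linearCombination_apply, hl,
        Submodule.mkQ_apply, (Submodule.Quotient.mk_eq_zero W).mpr hv]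
    have hl0 := (linearIndependent_iff.mp hli) l this
    rw [← hl, hl0, Finsupp.sum_zero_index]
  have hdec : ∀ i, ∃ u ∈ U, e i - u ∈ W := by
    intro i
    have : W.mkQ (e i) ∈ Submodule.map W.mkQ U := by
      rw [hU, Submodule.map_span, ← Set.range_comp,
        show W.mkQ ∘ (e ∘ a) = (fun i => W.mkQ (e i)) ∘ a from rfl, hsp]
      exact Submodule.subset_span ⟨i, rfl⟩
    obtain ⟨u, hu, hue⟩ := Submodule.mem_map.mp this
    refine ⟨u, hu, (Submodule.Quotient.mk_eq_zero W).mp ?_⟩
    rw [Submodule.Quotient.mk_sub, sub_eq_zero]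
    exact hue.symm
  choose u hu hw using hdec
  have hσU : ∀ σ : K →+* K, ∀ v ∈ U, (fun i => σ (v i)) ∈ U := by
    intro σ v hv
    induction hv using Submodule.span_induction with
    | mem x hx =>
      obtain ⟨p, rfl⟩ := hx
      have : (fun i => σ ((e ∘ a) p i)) = (e ∘ a) p := by
        funext i; simp [he, Pi.single_apply, apply_ite σ]
      rw [this]; exact Submodule.subset_span ⟨p, rfl⟩
    | zero =>
      have h : (fun i => σ ((0 : ι → K) i)) = 0 := by funext i; simp
      rw [h]; exact U.zero_mem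
    | add x y _ _ hx hy => simpa [Pi.add_def] using add_mem hx hy
    | smul t x _ hx => simpa [Pi.smul_def] using U.smul_mem (σ t) hx
  have hfix : ∀ i (σ : K →+* K) j, σ ((e i - u i) j) = (e i - u i) j := by
    intro i σ j
    have h0 : (fun j => σ ((e i - u i) j)) - (e i - u i) = 0 := by
      refine hdisj _ (sub_mem (hW σ _ (hw i)) (hw i)) ?_
      have : (fun j => σ ((e i - u i) j)) - (e i - u i) = u i - fun j => σ (u i j) := by
        funext j
        have : σ (e i j) = e i j := by simp [he, Pi.single_apply, apply_ite σ]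
        simp only [Pi.sub_apply, map_sub, this]
        ring
      rw [this]
      exact sub_mem (hu i) (hσU σ _ (hu i))
    exact sub_eq_zero.mp (congrFun h0 j)
  intro w hwW
  have hsum : w = ∑ i, w i • (e i - u i) + ∑ i, w i • u i := by
    rw [← Finset.sum_add_distrib]
    funext j
    simp [he, Finset.sum_apply, Pi.single_apply, ← mul_add, sub_add_cancel, Finset.sum_ite_eq]
  have h0 : ∑ i, w i • u i = 0 := by
    refine hdisj _ ?_ (Submodule.sum_mem _ fun i _ => U.smul_mem _ (hu i))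
    have : ∑ i, w i • u i = w - ∑ i, w i • (e i - u i) := by
      conv_rhs => arg 1; rw [hsum]
      rw [add_sub_cancel_left]
    rw [this]
    exact sub_mem hwW (Submodule.sum_mem _ fun i _ => W.smul_mem _ (hw i))
  rw [hsum, h0, add_zero]
  exact Submodule.sum_mem _ fun i _ =>
    Submodule.smul_mem _ _ (Submodule.subset_span ⟨hw i, hfix i⟩)

theorem exists_nat_mul_eq_int {ι : Type*} (t : Finset ι) (β : ι → ℚ) :
    ∃ D : ℕ, 0 < D ∧ ∀ i ∈ t, ∃ m : ℤ, (D : ℚ) * β i = m := by
  refine ⟨∏ i ∈ t, (β i).den, Finset.prod_pos fun i _ => (β i).den_pos, fun i hi => ?_⟩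
  obtain ⟨e, he⟩ := Finset.dvd_prod_of_mem (fun i => (β i).den) hi
  refine ⟨(e : ℤ) * (β i).num, ?_⟩
  rw [he]
  push_cast
  rw [mul_comm ((β i).den : ℚ), mul_assoc, mul_comm ((β i).den : ℚ), Rat.mul_den_eq_num]

/-- In `ℤ⟦X⟧`, if `a / b` satisfies a monic equation then `b` divides `a`. -/
theorem exists_eq_mul_of_monic_equation {n : ℕ} {E : ℕ → PowerSeries ℤ} {a b : PowerSeries ℤ}
    (hb : b ≠ 0)
    (hint : a ^ n + ∑ s ∈ Finset.range n, E s * a ^ (n - 1 - s) * b ^ (s + 1) = 0) :
    ∃ w, a = w * b := by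
  let R := FractionRing (PowerSeries ℤ)
  have hb' : algebraMap (PowerSeries ℤ) R b ≠ 0 := by
    simpa [map_eq_zero_iff _ (IsFractionRing.injective (PowerSeries ℤ) R)] using hb
  set u := algebraMap (PowerSeries ℤ) R a / algebraMap (PowerSeries ℤ) R b with hu
  have huint : IsIntegral (PowerSeries ℤ) u := by
    refine ⟨Polynomial.X ^ n + ∑ s ∈ Finset.range n, Polynomial.C (E s) *
      Polynomial.X ^ (n - 1 - s), Polynomial.monic_X_pow_add ?_, ?_⟩
    · refine lt_of_le_of_lt (Polynomial.degree_sum_le _ _) ?_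
      rw [Finset.sup_lt_iff (WithBot.bot_lt_coe _)]
      intro s hs
      refine lt_of_le_of_lt (Polynomial.degree_C_mul_X_pow_le _ _) ?_
      have := Finset.mem_range.mp hs
      exact_mod_cast (show n - 1 - s < n by omega)
    · rw [← Polynomial.aeval_def, map_add, map_pow, Polynomial.aeval_X, map_sum]
      refine mul_right_cancel₀ (pow_ne_zero n hb') ?_
      rw [zero_mul, ← (algebraMap (PowerSeries ℤ) R).map_zero, ← hint, map_add, map_pow, map_sum,
        add_mul, ← mul_pow, hu, div_mul_cancel₀ _ hb', Finset.sum_mul]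
      congr 1
      refine Finset.sum_congr rfl fun s hs => ?_
      have hs' : s < n := Finset.mem_range.mp hs
      rw [map_mul, map_mul (algebraMap (PowerSeries ℤ) R), map_mul, map_pow, map_pow, map_pow,
        Polynomial.aeval_X, Polynomial.aeval_C,
        show algebraMap (PowerSeries ℤ) R b ^ n =
          algebraMap (PowerSeries ℤ) R b ^ (n - 1 - s) *
            algebraMap (PowerSeries ℤ) R b ^ (s + 1) by
          rw [← pow_add, show n - 1 - s + (s + 1) = n by omega], div_pow]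
      rw [mul_assoc, ← mul_assoc (_ / _), div_mul_cancel₀ _ (pow_ne_zero _ hb'), mul_assoc]
  obtain ⟨w, hw⟩ := IsIntegrallyClosed.isIntegral_iff.mp huint
  refine ⟨w, IsFractionRing.injective (PowerSeries ℤ) R ?_⟩
  rw [map_mul, hw, hu, div_mul_cancel₀ _ hb']

variable (N : ℕ) [NeZero N]

attribute [local instance] cosetFintype

/-- A cusp form whose expansion has rational coefficients is a ratio of integral series. -/
theorem mem_intFrac_of_map_eq_lq (r : ℕ) {f : ℍ → ℂ} (hf : IsCuspFn (Gamma0 N) (2 * (r : ℤ)) f)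
    {y₀ : LaurentSeries ℚ} (hy : coeffMap (algebraMap ℚ ℂ) y₀ = lq f) : y₀ ∈ intFrac := by
  set φ := coeffMap (algebraMap ℚ ℂ) with hφ
  have hinj : Function.Injective φ := coeffMap_injective (algebraMap ℚ ℂ).injective
  obtain ⟨hH, ⟨Hq, hHq⟩⟩ := And.intro (isFormFn_auxForm r) (intQ_auxForm r)
  obtain ⟨Δq, hΔq⟩ := intQ_delta
  have hΔ0 : intQS Δq ≠ 0 := fun h => lq_delta_ne_zero (by rw [lq_eq_coeffMap hΔq, h, map_zero])
  have hH0 : intQS Hq ≠ 0 := fun h => auxForm_ne_zero r
    ((lq_eq_zero_iff hH.isQFnTop).mp (by rw [lq_eq_coeffMap hHq, h, map_zero]))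
  have hfH : IsFormFn (Gamma0 N) (12 * ((2 * r : ℕ) : ℤ)) (f * auxForm r) :=
    (hf.form.mul (hH.mono le_top)).cast (by push_cast; ring)
  obtain ⟨x, hx, hxeq⟩ := lq_div_delta_pow_mem N (2 * r) hfH
  rw [lq_mul hf.form.isQFn0 hH.isQFnTop, ← hy, lq_eq_coeffMap hHq, lq_eq_coeffMap hΔq, ← map_mul,
    ← map_pow] at hxeq
  set x₀ := y₀ * intQS Hq / intQS Δq ^ (2 * r) with hx₀
  have hxφ : φ x₀ = x := by
    rw [hx₀, map_div₀, div_eq_iff (by simpa [map_eq_zero_iff φ hinj] using pow_ne_zero (2 * r) hΔ0)]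
    exact hxeq
  have hx₀mem : x₀ ∈ intFrac := by
    refine modularFunctionFieldC_rat_le_intFrac N ?_
    refine mem_adjoin_of_coeffMap_mem (k := ℚ) (K := ℂ) ?_
    rw [coeffMap_image_generators]
    show φ x₀ ∈ modularFunctionFieldC ℂ N
    rw [hxφ]
    exact hx
  have : y₀ = x₀ * intQS Δq ^ (2 * r) / intQS Hq := by
    rw [hx₀, div_mul_cancel₀ _ (pow_ne_zero _ hΔ0), mul_div_cancel_right₀ _ hH0]
  rw [this]
  exact div_mem (mul_mem hx₀mem (pow_mem (intQS_mem_intFrac Δq) _)) (intQS_mem_intFrac Hq)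

/-- Cusp forms of even weight with rational `q`-expansion have bounded denominators. -/
theorem exists_denominator (r : ℕ) {f : ℍ → ℂ} (hf : IsCuspFn (Gamma0 N) (2 * (r : ℤ)) f)
    (hrat : ∀ n, ∃ q : ℚ, (q : ℂ) = (qExpansion 1 f).coeff n) :
    ∃ D : ℕ, 0 < D ∧ ∃ w : PowerSeries ℤ,
      qExpansion 1 ((D : ℂ) • f) = w.map (Int.castRingHom ℂ) := by
  classical
  choose q hq using hrat
  set φ := coeffMap (algebraMap ℚ ℂ) with hφ
  set y₀ : LaurentSeries ℚ := HahnSeries.ofPowerSeries ℤ ℚ (PowerSeries.mk q) with hy₀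
  have hy : φ y₀ = lq f := by
    rw [hφ, hy₀, ModularCurve.coeffMap_ofPowerSeries, lq]
    congr 1
    ext n
    simp [hq]
  have hy₀mem : y₀ ∈ intFrac := mem_intFrac_of_map_eq_lq N r hf hy
  -- a monic equation with rational coefficients
  obtain ⟨c, hc, heq⟩ := exists_lq_equation N hf
  rw [← hy] at heq
  set n := idx N with hn
  choose α hαsupp hαsum using fun s =>
    Submodule.mem_span_set.mp ((hc s).1.mem_span_intCuspForms (hc s).2)
  have hyB : ∀ (s : ℕ) (B : ℍ → ℂ), B ∈ (α s).support →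
      ∃ yB : PowerSeries ℤ, qExpansion 1 B = yB.map (Int.castRingHom ℂ) ∧ IsQFn B :=
    fun s B hB => by
      obtain ⟨hB1, ⟨yB, hyB⟩, -⟩ := hαsupp s hB
      exact ⟨yB, hyB, hB1.isQFnTop⟩
  choose! yB hyBeq hyBq using hyB
  set t := (Finset.range n).sigma fun s => (α s).support with ht
  set T : Finset (Option (Σ _ : ℕ, (ℍ → ℂ))) := Finset.insertNone t with hT
  set C : Option (Σ _ : ℕ, (ℍ → ℂ)) → ℂ := fun o => o.elim 1 fun p => α p.1 p.2 with hC
  set V : Option (Σ _ : ℕ, (ℍ → ℂ)) → LaurentSeries ℚ := fun o =>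
    o.elim (y₀ ^ n) fun p => intQS (yB p.1 p.2) * y₀ ^ (n - 1 - p.1) with hV
  have hrel : ∑ o ∈ T, algebraMap ℂ (LaurentSeries ℂ) (C o) *
      coeffMap (algebraMap ℚ ℂ) (V o) = 0 := by
    rw [hT, Finset.sum_insertNone]
    simp only [hC, hV, Option.elim_none, Option.elim_some, map_one, one_mul, map_pow]
    refine Eq.trans ?_ heq
    congr 1
    rw [ht, Finset.sum_sigma]
    refine Finset.sum_congr rfl fun s _ => ?_
    rw [← hαsum s, Finsupp.sum, lq_sum _ fun B hB => (hyBq s B hB).smul _, Finset.sum_mul]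
    refine Finset.sum_congr rfl fun B hB => ?_
    rw [lq_smul (hyBq s B hB), algebraMap_eq_C, lq_eq_coeffMap (hyBeq s B hB), map_mul, map_pow]
    ring
  obtain ⟨π, hπ⟩ := Module.Projective.exists_dual_eq_one ℚ (one_ne_zero : (1 : ℂ) ≠ 0)
  have hdesc := linear_relation_descend T C V hrel π
  rw [hT, Finset.sum_insertNone] at hdesc
  simp only [hC, hV, Option.elim_none, Option.elim_some, hπ, map_one, one_mul] at hdesc
  obtain ⟨D, hD, hDint⟩ := exists_nat_mul_eq_int t fun p => π (α p.1 p.2)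
  choose! m hm using hDint
  set E : ℕ → PowerSeries ℤ := fun s =>
    ∑ B ∈ (α s).support, ((D ^ s * m ⟨s, B⟩ : ℤ) : PowerSeries ℤ) * yB s B with hE
  set Z := (D : LaurentSeries ℚ) * y₀ with hZ
  have hZeq : Z ^ n + ∑ s ∈ Finset.range n, intQS (E s) * Z ^ (n - 1 - s) = 0 := by
    rw [← mul_zero ((D : LaurentSeries ℚ) ^ n), ← hdesc, mul_add, Finset.mul_sum, ht,
      Finset.sum_sigma, hZ, mul_pow]
    congr 1
    refine Finset.sum_congr rfl fun s hs => ?_
    have hs' : s < n := Finset.mem_range.mp hs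
    rw [hE, map_sum, Finset.sum_mul]
    refine Finset.sum_congr rfl fun B hB => ?_
    have hmB := hm ⟨s, B⟩ (by rw [ht, Finset.mem_sigma]; exact ⟨hs, hB⟩)
    have hmL : (m ⟨s, B⟩ : LaurentSeries ℚ) =
        (D : LaurentSeries ℚ) * algebraMap ℚ (LaurentSeries ℚ) (π (α s B)) := by
      rw [← map_natCast (algebraMap ℚ (LaurentSeries ℚ)), ← map_mul, hmB, map_intCast]
    rw [map_mul intQS, map_intCast, mul_pow]
    push_cast
    rw [hmL, show (D : LaurentSeries ℚ) ^ n =
      (D : LaurentSeries ℚ) ^ s * (D : LaurentSeries ℚ) * (D : LaurentSeries ℚ) ^ (n - 1 - s) by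
        rw [← pow_succ, ← pow_add, show s + 1 + (n - 1 - s) = n by omega]]
    ring
  obtain ⟨a, b, hb, hab⟩ : Z ∈ intFrac := mul_mem (natCast_mem intFrac D) hy₀mem
  have hint : a ^ n + ∑ s ∈ Finset.range n, E s * a ^ (n - 1 - s) * b ^ (s + 1) = 0 := by
    apply intQS_injective
    rw [map_zero, ← zero_mul (intQS b ^ n), ← hZeq, map_add, map_pow, map_sum, add_mul,
      Finset.sum_mul, ← hab, mul_pow]
    congr 1
    refine Finset.sum_congr rfl fun s hs => ?_
    have hs' : s < n := Finset.mem_range.mp hs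
    rw [map_mul, map_mul, map_pow, map_pow, ← hab, mul_pow,
      show intQS b ^ n = intQS b ^ (n - 1 - s) * intQS b ^ (s + 1) by
        rw [← pow_add, show n - 1 - s + (s + 1) = n by omega]]
    ring
  obtain ⟨w, hw⟩ := exists_eq_mul_of_monic_equation hb hint
  have hbne : intQS b ≠ 0 := fun h => hb (intQS_injective (by rw [h, map_zero]))
  rw [hw, map_mul] at hab
  have hZw := mul_right_cancel₀ hbne hab
  refine ⟨D, hD, w, HahnSeries.ofPowerSeries_injective (Γ := ℤ) ?_⟩
  show lq ((D : ℂ) • f) = _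
  rw [lq_smul hf.form.isQFn0, ← hy, map_natCast, ← map_natCast φ, ← map_mul, ← hZ, hZw, hφ, intQS,
    RingHom.comp_apply, ModularCurve.coeffMap_ofPowerSeries,
    ← RingHom.comp_apply (PowerSeries.map _) (PowerSeries.map _), ← PowerSeries.map_comp,
    RingHom.ext_int ((algebraMap ℚ ℂ).comp (Int.castRingHom ℚ)) (Int.castRingHom ℂ)]

theorem eq_zero_of_lq_coeff {k : ℤ} {f : ℍ → ℂ} (hf : IsFormFn (Gamma0 N) k f)
    (h : ∀ n : ℕ, n ≤ (k * (Gamma0 N).index).toNat / 12 → (lq f).coeff n = 0) : f = 0 := by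
  have := ModularForm.sturm_bound_Gamma0 N hf.toModularForm fun n hn => by
    rw [← lq_coeff_nat]
    exact h n hn
  exact congrArg (fun F : ModularForm (Gamma0 N) k => (⇑F : ℍ → ℂ)) this

theorem cuspForm_eq_zero_of_nonpos {k : ℤ} (hk : k ≤ 0) (f : CuspForm (Gamma0 N) k) : f = 0 := by
  have hf := isCuspFn_coe (Γ := Gamma0 N) f
  have h : (f : ℍ → ℂ) = 0 := eq_zero_of_lq_coeff N hf.form fun n hn => by
    have : (k * (Gamma0 N).index).toNat = 0 :=
      Int.toNat_eq_zero.mpr (mul_nonpos_of_nonpos_of_nonneg hk (Int.natCast_nonneg _))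
    rw [this, Nat.zero_div, Nat.le_zero] at hn
    subst hn
    rw [lq_coeff_nat]
    exact hf.form.isQFn0.coeff_zero_of_isZeroAtImInfty (by simpa using hf.zero 1)
  exact DFunLike.coe_injective h

/-- There are no cusp forms of odd weight on `Γ₀(N)`. -/
theorem cuspForm_eq_zero_of_odd {k : ℤ} (hk : Odd k) (f : CuspForm (Gamma0 N) k) : f = 0 := by
  have hf := isCuspFn_coe (Γ := Gamma0 N) f
  have h1 : (-1 : SL(2, ℤ)) ∈ Gamma0 N := by
    rw [Gamma0_mem]; simp
  have h2 : (-1 : GL (Fin 2) ℝ) ∈ (Gamma0 N : Subgroup (GL (Fin 2) ℝ)) :=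
    ⟨-1, h1, by ext; simp⟩
  have h3 := ModularForm.eq_zero_of_neg_one_mem h2 hk hf.form.toModularForm
  exact DFunLike.coe_injective (congrArg (fun F : ModularForm (Gamma0 N) k => (⇑F : ℍ → ℂ)) h3)

/-- Cusp forms on `Γ₀(N)` of every weight have an integral structure. -/
theorem hasIntegralStructure (k : ℤ) : CuspForm.HasIntegralStructure N k := by
  rw [CuspForm.HasIntegralStructure, eq_top_iff]
  rintro f -
  rcases Int.even_or_odd k with heven | hodd
  swap
  · rw [cuspForm_eq_zero_of_odd N hodd f]; exact zero_mem _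
  rcases lt_or_ge k 0 with hk | hk
  · rw [cuspForm_eq_zero_of_nonpos N hk.le f]; exact zero_mem _
  obtain ⟨r, rfl⟩ : ∃ r : ℕ, k = 2 * (r : ℤ) := by
    obtain ⟨s, rfl⟩ := heven
    exact ⟨s.toNat, by omega⟩
  classical
  set B := (2 * (r : ℤ) * (Gamma0 N).index).toNat / 12
  have hq : ∀ g : CuspForm (Gamma0 N) (2 * (r : ℤ)), IsQFn (g : ℍ → ℂ) :=
    fun g => (isCuspFn_coe (Γ := Gamma0 N) g).form.isQFn0
  let tr : CuspForm (Gamma0 N) (2 * (r : ℤ)) →ₗ[ℂ] (Fin (B + 1) → ℂ) :=
    { toFun := fun g i => (lq g).coeff (i : ℕ)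
      map_add' := fun g g' => by
        funext i
        simp [lq_add (hq g) (hq g')]
      map_smul' := fun c g => by
        funext i
        simp only [FunLike.coe_smul, lq_smul (hq g), HahnSeries.C_apply,
          HahnSeries.coeff_single_zero_mul, Pi.smul_apply, smul_eq_mul, RingHom.id_apply] }
  have htr : Function.Injective tr := by
    refine (injective_iff_map_eq_zero tr).mpr fun g hg => DFunLike.coe_injective ?_
    exact eq_zero_of_lq_coeff N (isCuspFn_coe (Γ := Gamma0 N) g).form fun n hn =>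
      congrFun hg ⟨n, Nat.lt_succ_of_le hn⟩
  have hstab : ∀ σ : ℂ →+* ℂ, ∀ g, ∃ g', ∀ n, (lq (g' : CuspForm (Gamma0 N) (2 * (r : ℤ)))).coeff n
      = σ ((lq (g : CuspForm (Gamma0 N) (2 * (r : ℤ)))).coeff n) := by
    intro σ g
    obtain ⟨f', hf', he⟩ := exists_cusp_galois N r σ (isCuspFn_coe (Γ := Gamma0 N) g)
    exact ⟨hf'.toCuspForm, fun n => by rw [hf'.coe_toCuspForm, he]; rfl⟩
  have hle := le_span_fixed (LinearMap.range tr) (by
    rintro σ _ ⟨g, rfl⟩
    obtain ⟨g', hg'⟩ := hstab σ g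
    exact ⟨g', funext fun i => hg' i⟩)
  have hsub : {w | w ∈ LinearMap.range tr ∧ ∀ (σ : ℂ →+* ℂ) i, σ (w i) = w i} ⊆
      (Submodule.map tr (Submodule.span ℂ
        (CuspForm.intLattice N (2 * (r : ℤ)) : Set (CuspForm (Gamma0 N) (2 * (r : ℤ))))) :
          Set (Fin (B + 1) → ℂ)) := by
    rintro _ ⟨⟨g, rfl⟩, hfix⟩
    refine Submodule.mem_map_of_mem ?_
    have hall : ∀ (σ : ℂ →+* ℂ) (n : ℕ), σ ((lq g).coeff n) = (lq g).coeff n := by
      intro σ n
      obtain ⟨g', hg'⟩ := hstab σ g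
      have : g' = g := htr (funext fun i => (hg' i).trans (hfix σ i))
      rw [← hg', this]
    obtain ⟨D, hD, w, hw⟩ := exists_denominator N r (isCuspFn_coe (Γ := Gamma0 N) g) fun n => by
      rw [← lq_coeff_nat]
      exact exists_rat_of_forall_fixed fun σ => hall σ n
    have hDg : (D : ℂ) • g ∈ CuspForm.intLattice N (2 * (r : ℤ)) := by
      refine Submodule.subset_span fun n => ⟨w.coeff n, ?_⟩
      rw [ModularFormClass.qCoeff, FunLike.coe_smul, hw, PowerSeries.coeff_map, eq_intCast]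
    have hg : g = (D : ℂ)⁻¹ • ((D : ℂ) • g) := by
      rw [inv_smul_smul₀ (Nat.cast_ne_zero.mpr hD.ne')]
    rw [hg]
    exact Submodule.smul_mem _ _ (Submodule.subset_span hDg)
  obtain ⟨g, hg, hgf⟩ := Submodule.mem_map.mp
    (Submodule.span_le.mpr hsub (hle ⟨f, rfl⟩))
  rwa [← htr hgf]

/-- The Hecke algebra is finite over `ℤ`. -/
theorem moduleFinite_heckeAlgebra (k : ℤ) (S : Set ℕ) :
    Module.Finite ℤ (CuspForm.heckeAlgebra N k S) := by
  rcases le_or_gt k 0 with hk | hk
  · have : Subsingleton (CuspForm (Gamma0 N) k) :=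
      ⟨fun a b => (cuspForm_eq_zero_of_nonpos N hk a).trans
          (cuspForm_eq_zero_of_nonpos N hk b).symm⟩
    have : Subsingleton (Module.End ℂ (CuspForm (Gamma0 N) k)) :=
      ⟨fun a b => LinearMap.ext fun _ => Subsingleton.elim _ _⟩
    exact Module.Finite.of_finite
  · have hint := hasIntegralStructure N k
    set L := CuspForm.intLattice N k
    have : Module.Finite ℤ L := Module.Finite.iff_fg.mpr (CuspForm.intLattice_fg N k)
    have : IsAddTorsionFree (CuspForm (Gamma0 N) k) := .of_isTorsionFree ℂ _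
    have : Module.Free ℤ L := Module.free_of_finite_type_torsion_free'
    let Φ : CuspForm.heckeAlgebra N k S →ₗ[ℤ] Module.End ℤ L :=
      { toFun := fun t => LinearMap.restrict (t.1.restrictScalars ℤ)
          fun _ hf => CuspForm.mem_intLattice_of_mem_heckeAlgebra (by omega) t.2 hf
        map_add' := fun _ _ => LinearMap.ext fun _ => Subtype.ext rfl
        map_smul' := fun _ _ => LinearMap.ext fun _ => Subtype.ext rfl }
    refine Module.Finite.of_injective Φ ((injective_iff_map_eq_zero Φ).mpr fun t ht => ?_)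
    refine Subtype.ext (LinearMap.ext_on hint fun f hf => ?_)
    exact congrArg Subtype.val (LinearMap.congr_fun ht ⟨f, hf⟩)

end Fermat.Agent.MF
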