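import Mathlib
import Fermat.Prelude.Def_CuspForm_IntegralLattice
import Fermat.Agent.MF.IntegralBasis

/-!
# `CuspForm.HasIntegralBasis` for every level

The weight two case of the integral structure, restated with the Prelude's predicate.
-/

noncomputable section

open CongruenceSubgroup

namespace Fermat.Agent.MF

/-- Weight `2` cusp forms have a basis with integral `q`-expansions, in the prelude's sense. -/
theorem hasIntegralBasis (N : ℕ) [NeZero N] : CuspForm.HasIntegralBasis N := by
  rw [CuspForm.HasIntegralBasis, eq_top_iff, ← hasIntegralStructure N 2]
  refine Submodule.span_le.mpr fun f hf => ?_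
  induction hf using Submodule.span_induction with
  | mem g hg =>
    refine Submodule.subset_span fun n => ?_
    obtain ⟨m, hm⟩ := hg n
    rw [hm]
    exact intCast_mem (⊥ : Subring ℂ) m
  | zero => exact zero_mem _
  | add a b _ _ ha hb => exact add_mem ha hb
  | smul c a _ ha =>
    rw [← Int.cast_smul_eq_zsmul ℂ]
    exact Submodule.smul_mem _ _ ha

end Fermat.Agent.MF
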